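import Mathlib

/-!
# S28, node A3: arithmetic of the exponents of the eta quotient `g_N`

Index set: subsets `t` of the set of prime factors of `N`.
`g_N τ = ∏ t, Δ (lev N t * τ) ^ rexp N t`.
-/

set_option autoImplicit false

namespace Fermat.Agent.S28.Analytic

open Finset

/-- `δ(t) = ∏ p ∈ t, p`. -/
def del (t : Finset ℕ) : ℕ := ∏ p ∈ t, p

/-- `N / δ(t)`. -/
def lev (N : ℕ) (t : Finset ℕ) : ℕ := N / del t

/-- exponent `μ(δ) rad(N) / δ`. -/
def rexp (N : ℕ) (t : Finset ℕ) : ℤ := (-1) ^ t.card * ∏ p ∈ N.primeFactors \ t, (p : ℤ)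

/-- `φ(rad N)`. -/
def wt (N : ℕ) : ℕ := ∏ p ∈ N.primeFactors, (p - 1)

theorem wt_pos (N : ℕ) : 0 < wt N := by
  refine Finset.prod_pos fun p hp => ?_
  have := (Nat.prime_of_mem_primeFactors hp).two_le
  omega

theorem del_pos {N : ℕ} {t : Finset ℕ} (ht : t ⊆ N.primeFactors) : 0 < del t :=
  Finset.prod_pos fun p hp => (Nat.prime_of_mem_primeFactors (ht hp)).pos

theorem del_dvd {N : ℕ} {t : Finset ℕ} (ht : t ⊆ N.primeFactors) : del t ∣ N :=
  (Finset.prod_dvd_prod_of_subset _ _ _ ht).trans (Nat.prod_primeFactors_dvd N)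

theorem lev_dvd {N : ℕ} {t : Finset ℕ} (ht : t ⊆ N.primeFactors) : lev N t ∣ N :=
  Nat.div_dvd_of_dvd (del_dvd ht)

theorem lev_mul_del {N : ℕ} {t : Finset ℕ} (ht : t ⊆ N.primeFactors) : lev N t * del t = N :=
  Nat.div_mul_cancel (del_dvd ht)

theorem lev_pos {N : ℕ} (hN : N ≠ 0) {t : Finset ℕ} (ht : t ⊆ N.primeFactors) : 0 < lev N t :=
  Nat.div_pos (Nat.le_of_dvd (Nat.pos_of_ne_zero hN) (del_dvd ht)) (del_pos ht)

theorem sum_rexp (N : ℕ) : ∑ t ∈ N.primeFactors.powerset, rexp N t = (wt N : ℤ) := by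
  have h := Finset.prod_add (fun _ : ℕ => (-1 : ℤ)) (fun p : ℕ => (p : ℤ)) N.primeFactors
  simp only [Finset.prod_const] at h
  unfold rexp wt
  rw [← h, Nat.cast_prod]
  refine Finset.prod_congr rfl fun p hp => ?_
  have := (Nat.prime_of_mem_primeFactors hp).one_le
  push_cast [Nat.cast_sub this]
  ring

theorem gcd_prime_mul_eq {p e M c : ℕ} (hp : p.Prime) (hpe : p ^ e ∣ p * M) (hc : ¬ p ^ e ∣ c) :
    Nat.gcd (p * M) c = Nat.gcd M c := by
  apply Nat.dvd_antisymm
  · refine Nat.dvd_gcd ?_ (Nat.gcd_dvd_right _ _)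
    obtain ⟨h, hh⟩ := Nat.gcd_dvd_left (p * M) c
    set g := Nat.gcd (p * M) c with hg
    by_cases hph : p ∣ h
    · obtain ⟨h', rfl⟩ := hph
      refine ⟨h', ?_⟩
      have : p * M = p * (g * h') := by rw [hh]; ring
      exact Nat.eq_of_mul_eq_mul_left hp.pos this
    · exfalso
      apply hc
      have hcop : Nat.Coprime (p ^ e) h := Nat.Coprime.pow_left _ ((Nat.Prime.coprime_iff_not_dvd hp).2 hph)
      rw [hh] at hpe
      exact (hcop.dvd_of_dvd_mul_right hpe).trans (Nat.gcd_dvd_right _ _)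
  · exact Nat.dvd_gcd (Dvd.dvd.mul_left (Nat.gcd_dvd_left _ _) _) (Nat.gcd_dvd_right _ _)

theorem del_insert {p : ℕ} {t : Finset ℕ} (hp : p ∉ t) : del (insert p t) = p * del t := by
  unfold del; rw [Finset.prod_insert hp]

theorem exists_prime_pow_not_dvd {N c : ℕ} (hN : N ≠ 0) (hc : ¬ N ∣ c) :
    ∃ p ∈ N.primeFactors, ¬ p ^ (N.factorization p) ∣ c := by
  by_contra hcon
  push Not at hcon
  apply hc
  have hc0 : c ≠ 0 := by rintro rfl; exact hc (dvd_zero _)
  rw [← Nat.factorization_le_iff_dvd hN hc0]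
  intro p
  by_cases hp : p ∈ N.primeFactors
  · exact ((Nat.prime_of_mem_primeFactors hp).pow_dvd_iff_le_factorization hc0).1 (hcon p hp)
  · rw [← Nat.support_factorization, Finsupp.notMem_support_iff] at hp
    rw [hp]; exact Nat.zero_le _

/-- toggling a prime `p` with `v_p(c) < v_p(N)` does not change `gcd (N / δ) c`. -/
theorem gcd_lev_insert {N c p : ℕ} (hN : N ≠ 0) (hp : p ∈ N.primeFactors)
    (hpc : ¬ p ^ (N.factorization p) ∣ c) {t : Finset ℕ} (ht : t ⊆ N.primeFactors.erase p) :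
    Nat.gcd (lev N (insert p t)) c = Nat.gcd (lev N t) c := by
  have hpp := Nat.prime_of_mem_primeFactors hp
  have hpt : p ∉ t := fun h => (Finset.mem_erase.1 (ht h)).1 rfl
  have ht' : t ⊆ N.primeFactors := ht.trans (Finset.erase_subset _ _)
  have hins : insert p t ⊆ N.primeFactors := Finset.insert_subset hp ht'
  have h1 : lev N t = p * lev N (insert p t) := by
    have e1 := lev_mul_del hins
    have e2 := lev_mul_del ht'
    rw [del_insert hpt] at e1
    have : lev N t * del t = (p * lev N (insert p t)) * del t := by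
      rw [e2]; conv_lhs => rw [← e1]
      ring
    exact Nat.eq_of_mul_eq_mul_right (del_pos ht') this
  rw [h1]
  refine (gcd_prime_mul_eq hpp (e := N.factorization p) ?_ hpc).symm
  rw [← h1]
  have hcop : Nat.Coprime (p ^ N.factorization p) (del t) := by
    apply Nat.Coprime.pow_left
    unfold del
    apply Nat.Coprime.prod_right
    intro q hq
    rw [Nat.coprime_primes hpp (Nat.prime_of_mem_primeFactors (ht' hq))]
    rintro rfl; exact hpt hq
  apply hcop.dvd_of_dvd_mul_right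
  rw [lev_mul_del ht']
  exact Nat.ordProj_dvd N p

theorem sum_sign_gcd_sq {N c : ℕ} (hN : N ≠ 0) (hc : ¬ N ∣ c) :
    ∑ t ∈ N.primeFactors.powerset, (-1 : ℤ) ^ t.card * (Nat.gcd (lev N t) c : ℤ) ^ 2 = 0 := by
  obtain ⟨p, hp, hpc⟩ := exists_prime_pow_not_dvd hN hc
  conv_lhs => rw [← Finset.insert_erase hp]
  rw [Finset.sum_powerset_insert (Finset.notMem_erase p _), ← Finset.sum_add_distrib]
  refine Finset.sum_eq_zero fun t ht => ?_
  rw [Finset.mem_powerset] at ht
  have hpt : p ∉ t := fun h => (Finset.mem_erase.1 (ht h)).1 rfl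
  rw [gcd_lev_insert hN hp hpc ht, Finset.card_insert_of_notMem hpt]
  ring

theorem rexp_mul_del {N : ℕ} {t : Finset ℕ} (ht : t ⊆ N.primeFactors) :
    rexp N t * (del t : ℤ) = (-1) ^ t.card * (del N.primeFactors : ℤ) := by
  unfold rexp del
  rw [← Finset.prod_sdiff ht]
  push_cast
  ring

/-- **A3, vanishing of the order at the cusps different from `∞`.** -/
theorem sum_rexp_gcd {N : ℕ} (hN : N ≠ 0) (c : ℤ) (hc : ¬ (N : ℤ) ∣ c) :
    ∑ t ∈ N.primeFactors.powerset,
      (rexp N t : ℚ) * ((Int.gcd (lev N t) c : ℚ) / ((lev N t / Int.gcd (lev N t) c : ℕ) : ℚ)) = 0 := by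
  have hc' : ¬ N ∣ c.natAbs := fun h => hc (Int.natCast_dvd.2 h)
  have key := sum_sign_gcd_sq hN hc'
  have h2 : ∀ t ∈ N.primeFactors.powerset,
      (rexp N t : ℚ) * ((Int.gcd (lev N t) c : ℚ) / ((lev N t / Int.gcd (lev N t) c : ℕ) : ℚ)) =
      ((del N.primeFactors : ℚ) / N) * (((-1 : ℤ) ^ t.card * (Nat.gcd (lev N t) c.natAbs : ℤ) ^ 2 : ℤ) : ℚ) := by
    intro t ht
    rw [Finset.mem_powerset] at ht
    have hg : Int.gcd (lev N t) c = Nat.gcd (lev N t) c.natAbs := by simp [Int.gcd]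
    rw [hg]
    set g := Nat.gcd (lev N t) c.natAbs with hgdef
    have hgdvd : g ∣ lev N t := Nat.gcd_dvd_left _ _
    have hlev := lev_pos hN ht
    have hgpos : 0 < g := Nat.gcd_pos_of_pos_left _ hlev
    rw [Nat.cast_div hgdvd (by exact_mod_cast hgpos.ne')]
    have e1 : (rexp N t : ℚ) * (del t : ℚ) = (-1) ^ t.card * (del N.primeFactors : ℚ) := by
      exact_mod_cast rexp_mul_del ht
    have e2 : (lev N t : ℚ) * (del t : ℚ) = N := by exact_mod_cast lev_mul_del ht
    have hd : (del t : ℚ) ≠ 0 := by exact_mod_cast (del_pos ht).ne'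
    have hl : (lev N t : ℚ) ≠ 0 := by exact_mod_cast hlev.ne'
    have hgq : (g : ℚ) ≠ 0 := by exact_mod_cast hgpos.ne'
    have hNq : (N : ℚ) ≠ 0 := by exact_mod_cast hN
    push_cast
    rw [← e2]
    field_simp
    linear_combination e1
  rw [Finset.sum_congr rfl h2, ← Finset.mul_sum, ← Int.cast_sum, key]
  simp

theorem lev_eq_mul {N : ℕ} {t : Finset ℕ} (ht : t ⊆ N.primeFactors) :
    lev N t = lev N N.primeFactors * ∏ p ∈ N.primeFactors \ t, p := by
  have e1 := lev_mul_del ht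
  have e2 := lev_mul_del (N := N) (Finset.Subset.refl _)
  have e3 : del N.primeFactors = (∏ p ∈ N.primeFactors \ t, p) * del t := by
    unfold del; rw [Finset.prod_sdiff ht]
  have : lev N t * del t = (lev N N.primeFactors * ∏ p ∈ N.primeFactors \ t, p) * del t := by
    rw [e1, mul_assoc, ← e3, e2]
  exact Nat.eq_of_mul_eq_mul_right (del_pos ht) this

/-- **A3, the order of `g_N` at `∞`.** -/
theorem sum_rexp_lev {N : ℕ} :
    ∑ t ∈ N.primeFactors.powerset, rexp N t * (lev N t : ℤ) =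
      (lev N N.primeFactors : ℤ) * ∏ p ∈ N.primeFactors, ((p : ℤ) ^ 2 - 1) := by
  have h := Finset.prod_add (fun _ : ℕ => (-1 : ℤ)) (fun p : ℕ => (p : ℤ) ^ 2) N.primeFactors
  simp only [Finset.prod_const] at h
  have h3 : ∏ p ∈ N.primeFactors, ((p : ℤ) ^ 2 - 1) = ∏ p ∈ N.primeFactors, (-1 + (p : ℤ) ^ 2) :=
    Finset.prod_congr rfl fun p _ => by ring
  rw [h3, h, Finset.mul_sum]
  refine Finset.sum_congr rfl fun t ht => ?_
  rw [Finset.mem_powerset] at ht
  rw [lev_eq_mul ht]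
  unfold rexp
  push_cast
  rw [Finset.prod_pow]
  ring

theorem sum_rexp_lev_pos {N : ℕ} (hN : N ≠ 0) :
    0 < ∑ t ∈ N.primeFactors.powerset, rexp N t * (lev N t : ℤ) := by
  rw [sum_rexp_lev]
  apply mul_pos
  · exact_mod_cast lev_pos hN (Finset.Subset.refl _)
  · refine Finset.prod_pos fun p hp => ?_
    have : (2 : ℤ) ≤ p := by exact_mod_cast (Nat.prime_of_mem_primeFactors hp).two_le
    nlinarith

end Fermat.Agent.S28.Analytic
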