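import Mathlib

/-!
# S28 (A4), general part: products of integer powers of `Δ((a τ + b) / d)`

* `Efun z = ∏ (1 - q^n)^24`, so that `Δ z = q * Efun z`, `Efun → 1` at `i∞`;
* limits at `i∞` of `∏ i, Δ((a i τ + b i) / d i) ^ r i`.
-/

set_option autoImplicit false

open Filter Topology Complex ModularForm
open UpperHalfPlane hiding I
open scoped Real MatrixGroups Manifold

namespace Fermat.Agent.S28.EtaQuot

local notation "Δ" => ModularForm.discriminant

/-- The point `(a τ + b) / d` of the upper half plane. -/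
noncomputable def aff (a d : ℕ) (b : ℤ) (τ : ℍ) : ℍ := ofComplex (((a : ℂ) * τ + b) / d)

lemma aff_im_pos {a d : ℕ} (ha : 0 < a) (hd : 0 < d) (b : ℤ) (τ : ℍ) :
    0 < ((((a : ℂ) * τ + b) / d)).im := by
  have h1 : ((((a : ℂ) * τ + b) / d)).im = a * τ.im / d := by
    rw [show (((a : ℂ) * τ + b) / d) = (((a : ℂ) * τ + b) / ((d : ℝ) : ℂ)) by simp,
      Complex.div_ofReal_im]
    simp
  rw [h1]
  have := τ.im_pos
  positivity

lemma coe_aff {a d : ℕ} (ha : 0 < a) (hd : 0 < d) (b : ℤ) (τ : ℍ) :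
    (aff a d b τ : ℂ) = ((a : ℂ) * τ + b) / d := by
  rw [aff, ofComplex_apply_of_im_pos (aff_im_pos ha hd b τ)]

lemma im_aff {a d : ℕ} (ha : 0 < a) (hd : 0 < d) (b : ℤ) (τ : ℍ) :
    (aff a d b τ).im = a * τ.im / d := by
  rw [← UpperHalfPlane.coe_im, coe_aff ha hd,
    show (((a : ℂ) * τ + b) / d) = (((a : ℂ) * τ + b) / ((d : ℝ) : ℂ)) by simp,
      Complex.div_ofReal_im]
  simp

lemma tendsto_im_atImInfty : Tendsto UpperHalfPlane.im atImInfty atTop :=
  Filter.tendsto_comap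

lemma tendsto_aff {a d : ℕ} (ha : 0 < a) (hd : 0 < d) (b : ℤ) :
    Tendsto (aff a d b) atImInfty atImInfty := by
  rw [atImInfty, tendsto_comap_iff]
  have h : (UpperHalfPlane.im ∘ aff a d b) = fun τ : ℍ => ((a : ℝ) / d) * τ.im := by
    funext τ
    simp only [Function.comp_apply, im_aff ha hd]
    ring
  rw [h]
  exact tendsto_im_atImInfty.const_mul_atTop (by positivity)

/-- `Efun z = ∏ (1 - q^n)^24`. -/
noncomputable def Efun (z : ℍ) : ℂ := ∏' n : ℕ, (1 - eta_q n z) ^ 24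

lemma discriminant_eq (z : ℍ) : Δ z = cexp (2 * π * I * z) * Efun z := by
  rw [discriminant_eq_q_prod, Efun]
  simp [Function.Periodic.qParam]

lemma Efun_ne_zero (z : ℍ) : Efun z ≠ 0 := by
  intro h
  apply discriminant_ne_zero z
  rw [discriminant_eq, h, mul_zero]

lemma tendsto_Efun : Tendsto Efun atImInfty (𝓝 1) :=
  tendsto_atImInfty_tprod_one_sub_eta_q_pow

section prod

variable {ι : Type*} (s : Finset ι) (a d : ι → ℕ) (b r : ι → ℤ)

/-- The product `∏ i, Δ((a i τ + b i) / d i) ^ r i`. -/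
noncomputable def affProd (τ : ℍ) : ℂ := ∏ i ∈ s, Δ (aff (a i) (d i) (b i) τ) ^ r i

/-- The "order at `i∞`" of `affProd`. -/
noncomputable def ordQ : ℚ := ∑ i ∈ s, (r i : ℚ) * ((a i : ℚ) / d i)

/-- The phase of `affProd`. -/
noncomputable def phaseQ : ℚ := ∑ i ∈ s, (r i : ℚ) * ((b i : ℚ) / d i)

variable {s a d}

lemma affProd_eq (ha : ∀ i ∈ s, 0 < a i) (hd : ∀ i ∈ s, 0 < d i) (τ : ℍ) :
    affProd s a d b r τ =
      cexp (2 * π * I * (ordQ s a d r : ℂ) * τ) * cexp (2 * π * I * (phaseQ s d b r : ℂ)) *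
        ∏ i ∈ s, Efun (aff (a i) (d i) (b i) τ) ^ r i := by
  have h1 : ∀ i ∈ s, Δ (aff (a i) (d i) (b i) τ) ^ r i =
      cexp (2 * π * I * ((r i : ℂ) * ((a i : ℂ) / d i)) * τ + 2 * π * I * ((r i : ℂ) * ((b i : ℂ) / d i)))
        * Efun (aff (a i) (d i) (b i) τ) ^ r i := by
    intro i hi
    rw [discriminant_eq, mul_zpow, ← Complex.exp_int_mul, coe_aff (ha i hi) (hd i hi)]
    congr 2
    ring
  rw [affProd, Finset.prod_congr rfl h1, Finset.prod_mul_distrib, ← Complex.exp_sum, ← Complex.exp_add]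
  congr 2
  rw [Finset.sum_add_distrib, ordQ, phaseQ]
  push_cast
  rw [Finset.mul_sum, Finset.mul_sum, Finset.sum_mul]

lemma tendsto_prod_Efun (ha : ∀ i ∈ s, 0 < a i) (hd : ∀ i ∈ s, 0 < d i) :
    Tendsto (fun τ : ℍ => ∏ i ∈ s, Efun (aff (a i) (d i) (b i) τ) ^ r i) atImInfty (𝓝 1) := by
  have : Tendsto (fun τ : ℍ => ∏ i ∈ s, Efun (aff (a i) (d i) (b i) τ) ^ r i) atImInfty
      (𝓝 (∏ i ∈ s, (1 : ℂ) ^ r i)) := by
    apply tendsto_finsetProd
    intro i hi
    exact (tendsto_Efun.comp (tendsto_aff (ha i hi) (hd i hi) (b i))).zpow₀ _ (Or.inl one_ne_zero)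
  simpa using this

/-- If the order vanishes, `affProd` tends to the phase factor. -/
theorem tendsto_affProd_of_ordQ_eq_zero (ha : ∀ i ∈ s, 0 < a i) (hd : ∀ i ∈ s, 0 < d i)
    (h0 : ordQ s a d r = 0) :
    Tendsto (affProd s a d b r) atImInfty (𝓝 (cexp (2 * π * I * (phaseQ s d b r : ℂ)))) := by
  have h1 : affProd s a d b r = fun τ : ℍ => cexp (2 * π * I * (phaseQ s d b r : ℂ)) *
        ∏ i ∈ s, Efun (aff (a i) (d i) (b i) τ) ^ r i := by
    funext τ
    rw [affProd_eq b r ha hd, h0]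
    simp
  rw [h1]
  simpa using (tendsto_prod_Efun b r ha hd).const_mul (cexp (2 * π * I * (phaseQ s d b r : ℂ)))

/-- If the order is positive, `affProd` tends to zero. -/
theorem tendsto_affProd_of_ordQ_pos (ha : ∀ i ∈ s, 0 < a i) (hd : ∀ i ∈ s, 0 < d i)
    (h0 : 0 < ordQ s a d r) :
    Tendsto (affProd s a d b r) atImInfty (𝓝 0) := by
  have h1 : affProd s a d b r = fun τ : ℍ => cexp (2 * π * I * (ordQ s a d r : ℂ) * τ) *
      (cexp (2 * π * I * (phaseQ s d b r : ℂ)) *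
        ∏ i ∈ s, Efun (aff (a i) (d i) (b i) τ) ^ r i) := by
    funext τ
    rw [affProd_eq b r ha hd, mul_assoc]
  have h2 : Tendsto (fun τ : ℍ => cexp (2 * π * I * (ordQ s a d r : ℂ) * τ)) atImInfty (𝓝 0) := by
    rw [tendsto_zero_iff_norm_tendsto_zero]
    have h3 : (fun τ : ℍ => ‖cexp (2 * π * I * (ordQ s a d r : ℂ) * τ)‖) =
        fun τ : ℍ => Real.exp (-((2 * π * (ordQ s a d r : ℝ)) * τ.im)) := by
      funext τ
      rw [Complex.norm_exp]
      congr 1
      simp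
    rw [h3]
    apply Real.tendsto_exp_neg_atTop_nhds_zero.comp
    apply Tendsto.const_mul_atTop _ tendsto_im_atImInfty
    have : (0 : ℝ) < (ordQ s a d r : ℝ) := by exact_mod_cast h0
    positivity
  rw [h1]
  simpa using h2.mul ((tendsto_prod_Efun b r ha hd).const_mul (cexp (2 * π * I * (phaseQ s d b r : ℂ))))

end prod

end Fermat.Agent.S28.EtaQuot
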