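import Mathlib

/-!
# S28, nodes A1 and A2: `diag(D,1) γ = γ' [[a,b],[0,d]]` and the resulting slash formula
-/

set_option autoImplicit false

namespace Fermat.Agent.S28.Analytic

open UpperHalfPlane ModularForm
open scoped MatrixGroups ModularForm

/-- **A1** in scalar form. For `γ = [[α,β],[c,e]] ∈ SL₂(ℤ)`, `a = gcd(D,c)`, `d = D / a` there are
`γ' = [[α',β'],[c',e']] ∈ SL₂(ℤ)` and `b` with `diag(D,1) γ = γ' [[a,b],[0,d]]`. -/
theorem exists_upper (D : ℕ) (hD : 0 < D) (γ : SL(2, ℤ)) :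
    ∃ (γ' : SL(2, ℤ)) (b : ℤ),
      γ' 0 0 * (Int.gcd D (γ 1 0) : ℤ) = D * γ 0 0 ∧
      γ' 0 0 * b + γ' 0 1 * ((D / Int.gcd D (γ 1 0) : ℕ) : ℤ) = D * γ 0 1 ∧
      γ' 1 0 * (Int.gcd D (γ 1 0) : ℤ) = γ 1 0 ∧
      γ' 1 0 * b + γ' 1 1 * ((D / Int.gcd D (γ 1 0) : ℕ) : ℤ) = γ 1 1 := by
  set a : ℕ := Int.gcd D (γ 1 0) with ha
  have hdet : γ 0 0 * γ 1 1 - γ 0 1 * γ 1 0 = 1 := by
    have := γ.det_coe
    rwa [Matrix.det_fin_two] at this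
  have haD : (a : ℤ) ∣ (D : ℤ) := Int.gcd_dvd_left _ _
  have hac : (a : ℤ) ∣ γ 1 0 := Int.gcd_dvd_right _ _
  have hapos : 0 < a := Int.gcd_pos_of_ne_zero_left _ (by exact_mod_cast hD.ne')
  have haD' : a ∣ D := by exact_mod_cast haD
  obtain ⟨D', hD'⟩ := haD'
  obtain ⟨c', hc'⟩ := hac
  have hdiv : D / a = D' := by rw [hD']; exact Nat.mul_div_cancel_left _ hapos
  rw [hdiv]
  have hcop1 : IsCoprime (D' : ℤ) c' := by
    rw [Int.isCoprime_iff_gcd_eq_one]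
    have h := Int.gcd_mul_left (a : ℤ) (D' : ℤ) c'
    rw [← hc', Int.natAbs_natCast] at h
    have h2 : Int.gcd ((a : ℤ) * (D' : ℤ)) (γ 1 0) = a := by
      have : ((a : ℤ) * (D' : ℤ)) = (D : ℤ) := by exact_mod_cast hD'.symm
      rw [this]
    rw [h2] at h
    exact Nat.eq_of_mul_eq_mul_left hapos (by rw [mul_one]; exact h.symm)
  have hcop2 : IsCoprime (γ 0 0) c' := by
    refine ⟨γ 1 1, -γ 0 1 * a, ?_⟩
    rw [hc'] at hdet
    linear_combination hdet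
  obtain ⟨x, y, hxy⟩ := hcop1.mul_left hcop2
  have hdet' : (!![(D' : ℤ) * γ 0 0, -y; c', x] : Matrix (Fin 2) (Fin 2) ℤ).det = 1 := by
    rw [Matrix.det_fin_two_of]
    linear_combination hxy
  refine ⟨⟨!![(D' : ℤ) * γ 0 0, -y; c', x], hdet'⟩, x * D * γ 0 1 + y * γ 1 1, ?_, ?_, ?_, ?_⟩
  · show (D' : ℤ) * γ 0 0 * a = D * γ 0 0
    rw [hD']; push_cast; ring
  · show (D' : ℤ) * γ 0 0 * (x * D * γ 0 1 + y * γ 1 1) + (-y) * (D' : ℤ) = D * γ 0 1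
    have hDz : (D : ℤ) = a * D' := by exact_mod_cast hD'
    rw [hc'] at hdet
    rw [hDz]
    linear_combination ((a : ℤ) * D' * γ 0 1) * hxy + (y * D') * hdet
  · show c' * (a : ℤ) = γ 1 0
    rw [hc']; ring
  · show c' * (x * D * γ 0 1 + y * γ 1 1) + x * (D' : ℤ) = γ 1 1
    have hDz : (D : ℤ) = a * D' := by exact_mod_cast hD'
    rw [hc'] at hdet
    rw [hDz]
    linear_combination (γ 1 1) * hxy - (x * D') * hdet

theorem gcd_pos_of_pos (D : ℕ) (hD : 0 < D) (c : ℤ) : 0 < Int.gcd D c :=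
  Int.gcd_pos_of_ne_zero_left _ (by exact_mod_cast hD.ne')

theorem div_gcd_pos (D : ℕ) (hD : 0 < D) (c : ℤ) : 0 < D / Int.gcd D c := by
  have h : Int.gcd D c ∣ D := by exact_mod_cast Int.gcd_dvd_left (D : ℤ) c
  exact Nat.div_pos (Nat.le_of_dvd hD h) (gcd_pos_of_pos D hD c)

theorem im_affine_pos {a d : ℕ} (ha : 0 < a) (hd : 0 < d) (b : ℤ) (τ : ℍ) :
    0 < ((((a : ℂ) * τ + b) / d : ℂ)).im := by
  have h : ((((a : ℂ) * τ + b) / d : ℂ)).im = a * τ.im / d := by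
    have : (((a : ℂ) * τ + b) / d : ℂ) = ((((a : ℝ) * (τ : ℂ).re + b) / d : ℝ) : ℂ)
        + (((a : ℝ) * τ.im / d : ℝ) : ℂ) * Complex.I := by
      apply Complex.ext <;> simp [Complex.div_natCast_re, Complex.div_natCast_im]
    rw [this]; simp
  rw [h]
  have := τ.im_pos
  positivity

/-- **A2.** For `f` of weight `k` invariant under `SL₂(ℤ)`:
`f(D γτ) (cτ+e)^{-k} = d^{-k} f((aτ+b)/d)`, `a = gcd(D,c)`, `d = D/a`. -/
theorem slash_dil (k : ℤ) (f : ℍ → ℂ) (hf : ∀ γ : SL(2, ℤ), f ∣[k] γ = f) (D : ℕ) (hD : 0 < D)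
    (γ : SL(2, ℤ)) :
    ∃ b : ℤ, ∀ τ : ℍ,
      f (ofComplex ((D : ℂ) * ((γ • τ : ℍ) : ℂ))) * denom γ τ ^ (-k) =
        ((D / Int.gcd D (γ 1 0) : ℕ) : ℂ) ^ (-k) *
          f (ofComplex ((((Int.gcd D (γ 1 0) : ℕ) : ℂ) * τ + b) / ((D / Int.gcd D (γ 1 0) : ℕ) : ℂ))) := by
  obtain ⟨γ', b, h1, h2, h3, h4⟩ := exists_upper D hD γ
  refine ⟨b, fun τ => ?_⟩
  set a : ℕ := Int.gcd D (γ 1 0) with ha
  set d : ℕ := D / a with hd
  have hapos : 0 < a := gcd_pos_of_pos D hD _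
  have hdpos : 0 < d := div_gcd_pos D hD _
  have hdC : (d : ℂ) ≠ 0 := by exact_mod_cast hdpos.ne'
  have him := im_affine_pos hapos hdpos b τ
  set z : ℍ := ⟨(((a : ℂ) * τ + b) / d : ℂ), him⟩ with hz
  have hzc : (z : ℂ) = ((a : ℂ) * τ + b) / d := rfl
  rw [ofComplex_apply_of_im_pos him]
  have h1' : (γ' 0 0 : ℂ) * a = D * γ 0 0 := by exact_mod_cast h1
  have h2' : (γ' 0 0 : ℂ) * b + γ' 0 1 * d = D * γ 0 1 := by exact_mod_cast h2
  have h3' : (γ' 1 0 : ℂ) * a = γ 1 0 := by exact_mod_cast h3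
  have h4' : (γ' 1 0 : ℂ) * b + γ' 1 1 * d = γ 1 1 := by exact_mod_cast h4
  have hden : denom γ' z = denom γ τ / d := by
    rw [ModularGroup.denom_apply, ModularGroup.denom_apply, hzc, ← h3', ← h4']
    field_simp
    ring
  have hden0 : denom γ τ ≠ 0 := denom_ne_zero _ τ
  have hpt : ((γ' • z : ℍ) : ℂ) = (D : ℂ) * ((γ • τ : ℍ) : ℂ) := by
    have hd1 : ((γ' 1 0 : ℤ) : ℂ) * z + ((γ' 1 1 : ℤ) : ℂ) = denom γ τ / d := by
      rw [← hden, ModularGroup.denom_apply]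
    have hd2 : ((γ 1 0 : ℤ) : ℂ) * τ + ((γ 1 1 : ℤ) : ℂ) = denom γ τ := by
      rw [ModularGroup.denom_apply]
    rw [coe_specialLinearGroup_apply, coe_specialLinearGroup_apply]
    simp only [algebraMap_int_eq, Int.coe_castRingHom, Complex.ofReal_intCast]
    rw [hd1, hd2, hzc]
    field_simp
    linear_combination (τ : ℂ) * h1' + h2'
  have hpt' : ofComplex ((D : ℂ) * ((γ • τ : ℍ) : ℂ)) = γ' • z := by
    rw [← hpt, ofComplex_apply]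
  rw [hpt']
  have hs := congrFun (hf γ') z
  rw [SL_slash_apply, hden] at hs
  rw [← hs]
  have : (denom γ τ / (d : ℂ)) ^ (-k) = denom γ τ ^ (-k) * ((d : ℂ) ^ (-k))⁻¹ := by
    rw [div_zpow, div_eq_mul_inv]
  rw [this]
  have hdk : (d : ℂ) ^ (-k) ≠ 0 := zpow_ne_zero _ hdC
  field_simp

end Fermat.Agent.S28.Analytic
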