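import Mathlib
import Fermat.Agent.S28.Analytic.Arith
import Fermat.Agent.S28.Analytic.Matrix
import Fermat.Agent.S28.Analytic.EtaQuot

/-!
# S28 (A4): the eta quotient `g_N`
-/

set_option autoImplicit false

open Filter Topology Complex ModularForm
open UpperHalfPlane hiding I
open scoped Real MatrixGroups Manifold

namespace Fermat.Agent.S28.EtaQuot

local notation "Δ" => ModularForm.discriminant

theorem Delta_slash_dil (D : ℕ) (hD : 0 < D) (γ : SL(2, ℤ)) :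
    ∃ b : ℤ, ∀ τ : ℍ, Δ (ofComplex ((D : ℂ) * ((γ • τ : ℍ) : ℂ))) * denom γ τ ^ (-12 : ℤ) =
      ((D / Int.gcd D (γ 1 0) : ℕ) : ℂ) ^ (-12 : ℤ) *
        Δ (aff (Int.gcd D (γ 1 0)) (D / Int.gcd D (γ 1 0)) b τ) :=
  Analytic.slash_dil 12 Δ (fun γ => SlashInvariantForm.slash_action_generators_SL2Z
    discriminant_S_invariant discriminant_T_invariant γ) D hD γ

lemma prod_zpow_eq_zpow_sum {ι : Type*} (s : Finset ι) (r : ι → ℤ) {x : ℂ} (hx : x ≠ 0) :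
    ∏ i ∈ s, x ^ r i = x ^ ∑ i ∈ s, r i := by
  classical
  induction s using Finset.induction_on with
  | empty => simp
  | insert a s ha ih => rw [Finset.prod_insert ha, Finset.sum_insert ha, ih, zpow_add₀ hx]

section general

variable {ι : Type*} (s : Finset ι) (D : ι → ℕ) (r : ι → ℤ)

/-- The eta quotient `∏ i, Δ(D i τ) ^ r i`. -/
noncomputable def etaQ (τ : ℍ) : ℂ := ∏ i ∈ s, Δ (ofComplex ((D i : ℂ) * τ)) ^ r i

lemma etaQ_ne_zero (τ : ℍ) : etaQ s D r τ ≠ 0 :=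
  Finset.prod_ne_zero_iff.mpr fun _ _ => zpow_ne_zero _ (discriminant_ne_zero _)

/-- `gcd(D i, c)`. -/
def gA (c : ℤ) (i : ι) : ℕ := Int.gcd (D i) c

/-- `D i / gcd(D i, c)`. -/
def gD (c : ℤ) (i : ι) : ℕ := D i / Int.gcd (D i) c

variable {s D}

lemma gA_pos (hD : ∀ i ∈ s, 0 < D i) (c : ℤ) : ∀ i ∈ s, 0 < gA D c i := fun i hi =>
  Int.gcd_pos_of_ne_zero_left _ (by exact_mod_cast (hD i hi).ne')

lemma gA_dvd (c : ℤ) (i : ι) : gA D c i ∣ D i := by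
  have := Int.gcd_dvd_left (D i : ℤ) c
  exact_mod_cast this

lemma gD_pos (hD : ∀ i ∈ s, 0 < D i) (c : ℤ) : ∀ i ∈ s, 0 < gD D c i := fun i hi =>
  Nat.div_pos (Nat.le_of_dvd (hD i hi) (gA_dvd c i)) (gA_pos hD c i hi)

lemma gD_dvd (c : ℤ) (i : ι) : gD D c i ∣ D i := Nat.div_dvd_of_dvd (gA_dvd c i)

/-- The slash of an eta quotient by an arbitrary element of `SL(2, ℤ)`. -/
theorem etaQ_slash (hD : ∀ i ∈ s, 0 < D i) (γ : SL(2, ℤ)) :
    ∃ b : ι → ℤ, ∀ τ : ℍ, (etaQ s D r ∣[12 * ∑ i ∈ s, r i] γ) τ =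
      (∏ i ∈ s, ((gD D (γ 1 0) i : ℂ) ^ (-12 : ℤ)) ^ r i) *
        affProd s (gA D (γ 1 0)) (gD D (γ 1 0)) b r τ := by
  classical
  have h : ∀ i, ∃ b : ℤ, i ∈ s → ∀ τ : ℍ,
      Δ (ofComplex ((D i : ℂ) * ((γ • τ : ℍ) : ℂ))) * denom γ τ ^ (-12 : ℤ) =
      ((gD D (γ 1 0) i : ℕ) : ℂ) ^ (-12 : ℤ) * Δ (aff (gA D (γ 1 0) i) (gD D (γ 1 0) i) b τ) := by
    intro i
    by_cases hi : i ∈ s
    · obtain ⟨b, hb⟩ := Delta_slash_dil (D i) (hD i hi) γ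
      exact ⟨b, fun _ => hb⟩
    · exact ⟨0, fun h => absurd h hi⟩
  choose b hb using h
  refine ⟨b, fun τ => ?_⟩
  rw [ModularForm.SL_slash_apply, etaQ, affProd, ← Finset.prod_mul_distrib]
  have h1 : denom γ τ ^ (-(12 * ∑ i ∈ s, r i)) = ∏ i ∈ s, (denom γ τ ^ (-12 : ℤ)) ^ r i := by
    rw [prod_zpow_eq_zpow_sum s r (zpow_ne_zero _ (denom_ne_zero γ τ)), ← zpow_mul]
    congr 1
    ring
  rw [h1, ← Finset.prod_mul_distrib]
  refine Finset.prod_congr rfl fun i hi => ?_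
  rw [← mul_zpow, ← mul_zpow, hb i hi τ]

/-- `Δ` is `ℤ`-periodic. -/
lemma Delta_ofComplex_add_int (w : ℂ) (b : ℤ) : Δ (ofComplex (w + b)) = Δ (ofComplex w) := by
  have h := SlashInvariantFormClass.periodic_comp_ofComplex CuspForm.discriminant
    one_mem_strictPeriods_SL
  have h2 := (h.int_mul b) w
  simpa using h2

lemma mdiff_Delta_dil {D : ℕ} (hD : 0 < D) :
    MDiff (fun τ : ℍ => Δ (ofComplex ((D : ℂ) * τ))) := by
  have h0 : MDiff (Δ : ℍ → ℂ) := CuspForm.discriminant.holo'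
  rw [UpperHalfPlane.mdifferentiable_iff] at h0 ⊢
  have hmaps : Set.MapsTo (fun z : ℂ => (D : ℂ) * z) {z | 0 < z.im} {z | 0 < z.im} := by
    intro z hz
    simp only [Set.mem_ofPred_eq] at hz ⊢
    have : ((D : ℂ) * z).im = D * z.im := by simp
    rw [this]
    positivity
  have h1 : DifferentiableOn ℂ ((Δ ∘ ofComplex) ∘ fun z : ℂ => (D : ℂ) * z) {z | 0 < z.im} :=
    h0.comp (by fun_prop) hmaps
  refine h1.congr fun z hz => ?_
  simp only [Function.comp_apply]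
  rw [ofComplex_apply_of_im_pos hz]

lemma mdiff_etaQ (hD : ∀ i ∈ s, 0 < D i) : MDiff (etaQ s D r) := by
  rw [UpperHalfPlane.mdifferentiable_iff]
  have h1 : ∀ i ∈ s, DifferentiableOn ℂ
      (fun z : ℂ => ((fun τ : ℍ => Δ (ofComplex ((D i : ℂ) * τ))) ∘ ofComplex) z ^ r i)
      {z | 0 < z.im} := by
    intro i hi
    exact (UpperHalfPlane.mdifferentiable_iff.mp (mdiff_Delta_dil (hD i hi))).zpow
      (Or.inl fun x _ => discriminant_ne_zero _)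
  exact (DifferentiableOn.fun_finsetProd h1).congr fun z _ => by simp [etaQ]

/-- Invariance under the matrices whose lower left entry is divisible by all the `D i`. -/
theorem etaQ_slash_eq (hD : ∀ i ∈ s, 0 < D i) (γ : SL(2, ℤ))
    (hγ : ∀ i ∈ s, (D i : ℤ) ∣ γ 1 0) :
    etaQ s D r ∣[12 * ∑ i ∈ s, r i] γ = etaQ s D r := by
  obtain ⟨b, hb⟩ := etaQ_slash (r := r) hD γ
  funext τ
  rw [hb τ, affProd, etaQ, ← Finset.prod_mul_distrib]
  refine Finset.prod_congr rfl fun i hi => ?_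
  have h1 : gA D (γ 1 0) i = D i := by
    rw [gA, Int.gcd_eq_natAbs_left (hγ i hi)]
    simp
  have h2 : gD D (γ 1 0) i = 1 := by
    have : gD D (γ 1 0) i = D i / gA D (γ 1 0) i := rfl
    rw [this, h1, Nat.div_self (hD i hi)]
  rw [h1, h2, aff]
  simp only [Nat.cast_one, one_zpow, one_mul, div_one]
  rw [Delta_ofComplex_add_int]

variable (s D) in
/-- The limit of `etaQ ∣ γ` at `i∞` when the order vanishes. -/
noncomputable def kappa (c : ℤ) (b : ι → ℤ) : ℂ :=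
  (∏ i ∈ s, ((gD D c i : ℂ) ^ (-12 : ℤ)) ^ r i) * cexp (2 * π * I * (phaseQ s (gD D c) b r : ℂ))

theorem tendsto_etaQ_slash (hD : ∀ i ∈ s, 0 < D i) (γ : SL(2, ℤ))
    (h0 : ordQ s (gA D (γ 1 0)) (gD D (γ 1 0)) r = 0) :
    ∃ b : ι → ℤ, Tendsto (etaQ s D r ∣[12 * ∑ i ∈ s, r i] γ) atImInfty
      (𝓝 (kappa s D r (γ 1 0) b)) := by
  obtain ⟨b, hb⟩ := etaQ_slash (r := r) hD γ
  refine ⟨b, ?_⟩
  have h1 : etaQ s D r ∣[12 * ∑ i ∈ s, r i] γ = fun τ =>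
      (∏ i ∈ s, ((gD D (γ 1 0) i : ℂ) ^ (-12 : ℤ)) ^ r i) *
        affProd s (gA D (γ 1 0)) (gD D (γ 1 0)) b r τ := funext hb
  rw [h1]
  exact (tendsto_affProd_of_ordQ_eq_zero b r (gA_pos hD _) (gD_pos hD _) h0).const_mul _

theorem tendsto_etaQ_slash_zero (hD : ∀ i ∈ s, 0 < D i) (γ : SL(2, ℤ))
    (h0 : 0 < ordQ s (gA D (γ 1 0)) (gD D (γ 1 0)) r) :
    Tendsto (etaQ s D r ∣[12 * ∑ i ∈ s, r i] γ) atImInfty (𝓝 0) := by
  obtain ⟨b, hb⟩ := etaQ_slash (r := r) hD γ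
  have h1 : etaQ s D r ∣[12 * ∑ i ∈ s, r i] γ = fun τ =>
      (∏ i ∈ s, ((gD D (γ 1 0) i : ℂ) ^ (-12 : ℤ)) ^ r i) *
        affProd s (gA D (γ 1 0)) (gD D (γ 1 0)) b r τ := funext hb
  rw [h1]
  simpa using (tendsto_affProd_of_ordQ_pos b r (gA_pos hD _) (gD_pos hD _) h0).const_mul
    (∏ i ∈ s, ((gD D (γ 1 0) i : ℂ) ^ (-12 : ℤ)) ^ r i)

lemma zpow_neg_mul_pow_toNat {x : ℂ} (hx : x ≠ 0) (e : ℤ) :
    x ^ (-e) * x ^ e.toNat = x ^ (-e).toNat := by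
  rw [← zpow_natCast, ← zpow_natCast, ← zpow_add₀ hx]
  congr 1
  omega

lemma exp_phase_pow (hD : ∀ i ∈ s, 0 < D i) (c : ℤ) (b : ι → ℤ) {M : ℕ}
    (hM : ∀ i ∈ s, D i ∣ M) :
    cexp (2 * π * I * (phaseQ s (gD D c) b r : ℂ)) ^ M = 1 := by
  have h1 : ((M : ℚ) * phaseQ s (gD D c) b r) =
      ((∑ i ∈ s, r i * b i * ((M / gD D c i : ℕ) : ℤ) : ℤ) : ℚ) := by
    rw [phaseQ, Finset.mul_sum, Int.cast_sum]
    refine Finset.sum_congr rfl fun i hi => ?_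
    have hd : (gD D c i : ℚ) ≠ 0 := by exact_mod_cast (gD_pos hD c i hi).ne'
    rw [Int.cast_mul, Int.cast_mul, Int.cast_natCast,
      Nat.cast_div ((gD_dvd c i).trans (hM i hi)) hd]
    field_simp
  have h2 : ((M : ℂ) * (phaseQ s (gD D c) b r : ℂ)) =
      ((∑ i ∈ s, r i * b i * ((M / gD D c i : ℕ) : ℤ) : ℤ) : ℂ) := by
    exact_mod_cast congrArg (fun x : ℚ => (x : ℂ)) h1
  rw [← Complex.exp_nat_mul, show (M : ℂ) * (2 * π * I * (phaseQ s (gD D c) b r : ℂ)) =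
    ((M : ℂ) * (phaseQ s (gD D c) b r : ℂ)) * (2 * π * I) by ring, h2,
    Complex.exp_int_mul_two_pi_mul_I]

/-- `kappa` is, up to a root of unity, a quotient of products of divisors of the `D i`. -/
theorem kappa_pow_mul (hD : ∀ i ∈ s, 0 < D i) (c : ℤ) (b : ι → ℤ) {M : ℕ}
    (hM : ∀ i ∈ s, D i ∣ M) :
    kappa s D r c b ^ M * ((∏ i ∈ s, gD D c i ^ (12 * r i * M).toNat : ℕ) : ℂ) =
      ((∏ i ∈ s, gD D c i ^ (-(12 * r i * M)).toNat : ℕ) : ℂ) := by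
  rw [kappa, mul_pow, exp_phase_pow r hD c b hM, mul_one, ← Finset.prod_pow]
  push_cast
  rw [← Finset.prod_mul_distrib]
  refine Finset.prod_congr rfl fun i hi => ?_
  have hd : (gD D c i : ℂ) ≠ 0 := by exact_mod_cast (gD_pos hD c i hi).ne'
  rw [← zpow_neg_mul_pow_toNat hd, ← zpow_mul, ← zpow_natCast, ← zpow_mul]
  congr 2
  ring

lemma primeFactors_prod_gD_subset (c : ℤ) (e : ι → ℕ) {M : ℕ}
    (hM0 : M ≠ 0) (hM : ∀ i ∈ s, D i ∣ M) :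
    (∏ i ∈ s, gD D c i ^ e i).primeFactors ⊆ M.primeFactors := by
  intro p hp
  rw [Nat.mem_primeFactors] at hp ⊢
  obtain ⟨hp1, hp2, -⟩ := hp
  obtain ⟨i, hi, h⟩ := (hp1.prime.dvd_finsetProd_iff _).mp hp2
  exact ⟨hp1, ((hp1.dvd_of_dvd_pow h).trans (gD_dvd c i)).trans (hM i hi), hM0⟩

lemma prod_gD_pos (hD : ∀ i ∈ s, 0 < D i) (c : ℤ) (e : ι → ℕ) :
    0 < ∏ i ∈ s, gD D c i ^ e i :=
  Finset.prod_pos fun i hi => pow_pos (gD_pos hD c i hi) _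

end general

section gN

open Analytic CongruenceSubgroup

/-- The eta quotient `g_N(τ) = ∏_{t ⊆ primeFactors N} Δ((N / δ(t)) τ) ^ (μ(δ(t)) rad(N) / δ(t))`. -/
noncomputable def gfun (N : ℕ) (τ : ℍ) : ℂ :=
  ∏ t ∈ N.primeFactors.powerset, Δ (ofComplex ((lev N t : ℂ) * τ)) ^ Analytic.rexp N t

lemma gfun_eq_etaQ (N : ℕ) : gfun N = etaQ N.primeFactors.powerset (lev N) (Analytic.rexp N) := rfl

lemma gfun_ne_zero (N : ℕ) (τ : ℍ) : gfun N τ ≠ 0 := etaQ_ne_zero _ _ _ τ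

lemma lev_dvd' (N : ℕ) : ∀ t ∈ N.primeFactors.powerset, lev N t ∣ N := fun _ ht =>
  lev_dvd (Finset.mem_powerset.mp ht)

lemma mem_Gamma0_iff_dvd (N : ℕ) (γ : SL(2, ℤ)) : γ ∈ Gamma0 N ↔ (N : ℤ) ∣ γ 1 0 := by
  rw [Gamma0_mem]
  exact ZMod.intCast_zmod_eq_zero_iff_dvd _ _

lemma weight_eq (N : ℕ) :
    12 * ∑ t ∈ N.primeFactors.powerset, Analytic.rexp N t = 12 * (wt N : ℤ) := by
  rw [sum_rexp]

variable (N : ℕ) [NeZero N]

lemma lev_pos' : ∀ t ∈ N.primeFactors.powerset, 0 < lev N t := fun _ ht =>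
  lev_pos (NeZero.ne N) (Finset.mem_powerset.mp ht)

lemma mdiff_gfun : MDiff (gfun N) := mdiff_etaQ _ (lev_pos' N)

theorem gfun_slash_of_mem {γ : SL(2, ℤ)} (hγ : γ ∈ Gamma0 N) :
    gfun N ∣[12 * (wt N : ℤ)] γ = gfun N := by
  rw [← weight_eq, gfun_eq_etaQ]
  refine etaQ_slash_eq _ (lev_pos' N) γ fun t ht => ?_
  exact (Int.natCast_dvd_natCast.mpr (lev_dvd' N t ht)).trans ((mem_Gamma0_iff_dvd N γ).mp hγ)

theorem tendsto_gfun : Tendsto (gfun N) atImInfty (𝓝 0) := by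
  have h := tendsto_etaQ_slash_zero (s := N.primeFactors.powerset) (D := lev N) (Analytic.rexp N)
    (lev_pos' N) 1 ?_
  · rwa [SlashAction.slash_one] at h
  · have h1 : ordQ N.primeFactors.powerset (gA (lev N) ((1 : SL(2, ℤ)) 1 0))
        (gD (lev N) ((1 : SL(2, ℤ)) 1 0)) (Analytic.rexp N) =
        ((∑ t ∈ N.primeFactors.powerset, Analytic.rexp N t * (lev N t : ℤ) : ℤ) : ℚ) := by
      rw [ordQ, Int.cast_sum]
      refine Finset.sum_congr rfl fun t ht => ?_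
      have h2 : gA (lev N) ((1 : SL(2, ℤ)) 1 0) t = lev N t := by simp [gA]
      have h3 : gD (lev N) ((1 : SL(2, ℤ)) 1 0) t = 1 := by
        have : gD (lev N) ((1 : SL(2, ℤ)) 1 0) t = lev N t / gA (lev N) ((1 : SL(2, ℤ)) 1 0) t :=
          rfl
        rw [this, h2, Nat.div_self (lev_pos' N t ht)]
      rw [h2, h3]
      simp
    rw [h1]
    exact_mod_cast sum_rexp_lev_pos (NeZero.ne N)

/-- The behaviour of `g_N` at the cusps different from `∞`: a nonzero limit, which is a unit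
outside `N` up to a root of unity. -/
theorem tendsto_gfun_slash {γ : SL(2, ℤ)} (hγ : γ ∉ Gamma0 N) :
    ∃ κ : ℂ, Tendsto (gfun N ∣[12 * (wt N : ℤ)] γ) atImInfty (𝓝 κ) ∧
      ∃ A B : ℕ, 0 < A ∧ 0 < B ∧ A.primeFactors ⊆ N.primeFactors ∧
        B.primeFactors ⊆ N.primeFactors ∧ κ ^ N * A = B := by
  have hc : ¬ (N : ℤ) ∣ γ 1 0 := fun h => hγ ((mem_Gamma0_iff_dvd N γ).mpr h)
  obtain ⟨b, hb⟩ := tendsto_etaQ_slash (s := N.primeFactors.powerset) (D := lev N) (Analytic.rexp N)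
    (lev_pos' N) γ (sum_rexp_gcd (NeZero.ne N) _ hc)
  rw [weight_eq] at hb
  exact ⟨_, hb, _, _, prod_gD_pos (lev_pos' N) _ _, prod_gD_pos (lev_pos' N) _ _,
    primeFactors_prod_gD_subset _ _ (NeZero.ne N) (lev_dvd' N),
    primeFactors_prod_gD_subset _ _ (NeZero.ne N) (lev_dvd' N),
    kappa_pow_mul (Analytic.rexp N) (lev_pos' N) _ b (lev_dvd' N)⟩

theorem isBoundedAtImInfty_gfun_slash (γ : SL(2, ℤ)) :
    IsBoundedAtImInfty (gfun N ∣[12 * (wt N : ℤ)] γ) := by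
  by_cases hγ : γ ∈ Gamma0 N
  · rw [gfun_slash_of_mem N hγ]
    exact (tendsto_gfun N).isBigO_one ℝ
  · obtain ⟨κ, hκ, -⟩ := tendsto_gfun_slash N hγ
    exact hκ.isBigO_one ℝ

/-- The eta quotient `g_N` as a modular form of weight `12 φ(rad N)` on `Γ₀(N)`. -/
noncomputable def gN : ModularForm (Gamma0 N : Subgroup (GL (Fin 2) ℝ)) (12 * (wt N : ℤ)) where
  toFun := gfun N
  slash_action_eq' := by
    rintro _ ⟨γ, hγ, rfl⟩
    exact gfun_slash_of_mem N hγ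
  holo' := mdiff_gfun N
  bdd_at_cusps' := by
    intro c hc
    have hc' : IsCusp c 𝒮ℒ := hc.mono (Subgroup.map_le_range _ _)
    rw [OnePoint.isBoundedAt_iff_forall_SL2Z hc']
    exact fun γ _ => isBoundedAtImInfty_gfun_slash N γ

@[simp] theorem coe_gN : (gN N : ℍ → ℂ) = gfun N := rfl

theorem gN_ne_zero (τ : ℍ) : gN N τ ≠ 0 := gfun_ne_zero N τ

theorem tendsto_gN : Tendsto (gN N) atImInfty (𝓝 0) := tendsto_gfun N

theorem tendsto_gN_slash {γ : SL(2, ℤ)} (hγ : γ ∉ Gamma0 N) :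
    ∃ κ : ℂ, Tendsto ((gN N : ℍ → ℂ) ∣[12 * (wt N : ℤ)] γ) atImInfty (𝓝 κ) ∧
      ∃ A B : ℕ, 0 < A ∧ 0 < B ∧ A.primeFactors ⊆ N.primeFactors ∧
        B.primeFactors ⊆ N.primeFactors ∧ κ ^ N * A = B :=
  tendsto_gfun_slash N hγ

end gN

end Fermat.Agent.S28.EtaQuot
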