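import Fermat.Agent.S28.DefsT7
import Fermat.Agent.Lib.JExpansion

/-!
# S28, U1: dictionary between the analytic and the formal `q`-expansions of `E₄` and `Δ`
(owner: helper47)
-/

set_option autoImplicit false

noncomputable section

open ModularCurve Polynomial UpperHalfPlane ModularForm EisensteinSeries
open scoped MatrixGroups

namespace Fermat.Agent.S28

local notation "Δ" => ModularForm.discriminant

open Fermat.Agent.Lib.JExpansion in
theorem qExpansion_E4 : qExpansion 1 E₄ = E4S ℂ := by
  ext m
  refine (ModularFormClass.qExpansion_coeff_unique (c := fun m => (E4S ℂ).coeff m) one_pos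
    one_mem_strictPeriods_SL (f := E₄) (fun τ => ?_) m).symm
  simpa [Ev, E4S, toC, smul_eq_mul] using ev_E₄ τ

open Fermat.Agent.Lib.JExpansion in
theorem qExpansion_Delta : qExpansion 1 Δ = DeltaS ℂ := by
  ext m
  rw [← CuspForm.coe_discriminant]
  refine (ModularFormClass.qExpansion_coeff_unique (c := fun m => (DeltaS ℂ).coeff m) one_pos
    one_mem_strictPeriods_SL (f := CuspForm.discriminant) (fun τ => ?_) m).symm
  have h := ev_discriminant τ
  rw [CuspForm.coe_discriminant]
  simpa [Ev, DeltaS, toC, dedekindEtaUnit, smul_eq_mul] using h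

end Fermat.Agent.S28

end
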