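import Mathlib

/-!
# S28 (A6, A7): level one forms of weight `12 m` are `Δ ^ m * P (E₄ ^ 3 / Δ)`
-/

set_option autoImplicit false

namespace Fermat.Agent.S28.LevelOnePoly

open UpperHalfPlane ModularForm EisensteinSeries ModularFormClass
open scoped MatrixGroups

local notation "Δ" => ModularForm.discriminant

/-- `E₄ ^ (3 m)` as a level one form of weight `k = 12 m`. -/
noncomputable def E4pow (m : ℕ) {k : ℤ} (hk : k = 12 * m) : ModularForm 𝒮ℒ k :=
  ModularForm.mcast (by rw [hk]; push_cast; ring) (E₄.pow (3 * m))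

lemma E4pow_apply (m : ℕ) {k : ℤ} (hk : k = 12 * m) (z : ℍ) :
    E4pow m hk z = E₄ z ^ (3 * m) := by
  rw [E4pow, ModularForm.mcast_apply, ModularForm.coe_pow, Pi.pow_apply]

lemma qExpansion_E4pow (m : ℕ) {k : ℤ} (hk : k = 12 * m) :
    qExpansion 1 (E4pow m hk) = qExpansion 1 E₄ ^ (3 * m) := by
  rw [E4pow, ModularForm.qExpansion_mcast, ModularForm.qExpansion_pow one_pos one_mem_strictPeriods_SL]

lemma coeff_zero_E4 : (qExpansion 1 E₄).coeff 0 = 1 := E_qExpansion_coeff_zero _ ⟨2, rfl⟩

lemma coeff_zero_E4pow (m : ℕ) {k : ℤ} (hk : k = 12 * m) :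
    (qExpansion 1 (E4pow m hk)).coeff 0 = 1 := by
  rw [qExpansion_E4pow, PowerSeries.coeff_zero_eq_constantCoeff, map_pow,
    ← PowerSeries.coeff_zero_eq_constantCoeff, coeff_zero_E4, one_pow]

/-- **(A6)** coefficient form. -/
theorem exists_coeffs (m : ℕ) : ∀ {k : ℤ} (_ : k = 12 * m) (f : ModularForm 𝒮ℒ k),
    ∃ β : ℕ → ℂ,
      (∀ z : ℍ, f z = ∑ a ∈ Finset.range (m + 1), β a * E₄ z ^ (3 * a) * Δ z ^ (m - a)) ∧
      qExpansion 1 f = ∑ a ∈ Finset.range (m + 1),
        PowerSeries.C (β a) * qExpansion 1 E₄ ^ (3 * a) * qExpansion 1 Δ ^ (m - a) := by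
  induction m with
  | zero =>
    intro k hk f
    obtain rfl : k = 0 := by simpa using hk
    obtain ⟨c, hc⟩ := levelOne_weight_zero_const f
    refine ⟨fun _ => c, fun z => by simp [hc], ?_⟩
    have h1 : (f : ℍ → ℂ) = ((c • (1 : ModularForm 𝒮ℒ 0) : ModularForm 𝒮ℒ 0) : ℍ → ℂ) := by
      rw [hc]; ext z; simp
    rw [h1, FunLike.coe_smul, ModularForm.qExpansion_smul one_pos one_mem_strictPeriods_SL,
      ModularForm.qExpansion_one]
    simp [PowerSeries.smul_eq_C_mul]
  | succ m ih =>
    intro k hk f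
    set a₀ := (qExpansion 1 f).coeff 0 with ha₀
    set F : ModularForm 𝒮ℒ k := f - a₀ • E4pow (m + 1) hk with hF
    have hFq : qExpansion 1 F = qExpansion 1 f - a₀ • qExpansion 1 (E4pow (m + 1) hk) := by
      rw [hF, FunLike.coe_sub, ModularForm.qExpansion_sub one_pos one_mem_strictPeriods_SL,
        FunLike.coe_smul, ModularForm.qExpansion_smul one_pos one_mem_strictPeriods_SL]
    have hcusp : (qExpansion 1 F).coeff 0 = 0 := by
      rw [hFq, map_sub, PowerSeries.coeff_smul, coeff_zero_E4pow]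
      simp [ha₀]
    set g := CuspForm.discriminantEquiv (toCuspForm F hcusp) with hg
    obtain ⟨β, hβ, hβq⟩ := ih (k := k - 12) (by rw [hk]; push_cast; ring) g
    refine ⟨fun a => if a = m + 1 then a₀ else β a, fun z => ?_, ?_⟩
    · have hfz : f z = a₀ * E₄ z ^ (3 * (m + 1)) + Δ z * g z := by
        rw [hg, discriminant_mul_discriminantEquiv_apply]
        have : (toCuspForm F hcusp) z = F z := rfl
        rw [this, hF]
        simp [E4pow_apply]
      rw [hfz, hβ z, Finset.sum_range_succ _ (m + 1), Finset.mul_sum, add_comm]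
      congr 1
      · refine Finset.sum_congr rfl fun a ha => ?_
        have ha' : a < m + 1 := Finset.mem_range.mp ha
        have hne : a ≠ m + 1 := by omega
        simp only [if_neg hne]
        rw [show m + 1 - a = (m - a) + 1 by omega, pow_succ]
        ring
      · simp
    · have hfq : qExpansion 1 f = PowerSeries.C a₀ * qExpansion 1 E₄ ^ (3 * (m + 1)) +
          qExpansion 1 Δ * qExpansion 1 g := by
        rw [hg, ← qExpansion_eq_qExpansion_discriminant_mul F hcusp, hFq, qExpansion_E4pow,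
          PowerSeries.smul_eq_C_mul]
        ring
      rw [hfq, hβq, Finset.sum_range_succ _ (m + 1), Finset.mul_sum, add_comm]
      congr 1
      · refine Finset.sum_congr rfl fun a ha => ?_
        have ha' : a < m + 1 := Finset.mem_range.mp ha
        have hne : a ≠ m + 1 := by omega
        simp only [if_neg hne]
        rw [show m + 1 - a = (m - a) + 1 by omega, pow_succ]
        ring
      · simp

section Formal

variable {B : Type*} [CommRing B]

/-- triangular extraction of coefficients -/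
lemma coeff_sum_triangular (t : ℕ → PowerSeries B) (ht0 : ∀ b r, r < b → (t b).coeff r = 0)
    (ht1 : ∀ b, (t b).coeff b = 1) (γ : ℕ → B) (m r : ℕ) (hr : r ≤ m) :
    (∑ b ∈ Finset.range (m + 1), PowerSeries.C (γ b) * t b).coeff r =
      γ r + ∑ b ∈ Finset.range r, γ b * (t b).coeff r := by
  rw [map_sum]
  simp only [PowerSeries.coeff_C_mul]
  rw [← Finset.sum_subset (s₁ := Finset.range (r + 1)) (by
      intro x hx; simp only [Finset.mem_range] at hx ⊢; omega)
    (by
      intro x _ hx
      simp only [Finset.mem_range, not_lt] at hx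
      rw [ht0 x r (by omega), mul_zero])]
  rw [Finset.sum_range_succ, ht1, mul_one, add_comm]

lemma mem_of_triangular (A : Subring B) (t : ℕ → PowerSeries B)
    (ht0 : ∀ b r, r < b → (t b).coeff r = 0)
    (ht1 : ∀ b, (t b).coeff b = 1) (htA : ∀ b r, (t b).coeff r ∈ A) (γ : ℕ → B) (m : ℕ)
    (hS : ∀ r, (∑ b ∈ Finset.range (m + 1), PowerSeries.C (γ b) * t b).coeff r ∈ A) :
    ∀ r ≤ m, γ r ∈ A := by
  intro r
  induction r using Nat.strong_induction_on with | _ r ih =>
  intro hr
  have h := coeff_sum_triangular t ht0 ht1 γ m r hr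
  have h2 : γ r = (∑ b ∈ Finset.range (m + 1), PowerSeries.C (γ b) * t b).coeff r -
      ∑ b ∈ Finset.range r, γ b * (t b).coeff r := by rw [h]; ring
  rw [h2]
  refine A.sub_mem (hS r) (A.sum_mem fun b hb => A.mul_mem (ih b (Finset.mem_range.mp hb) ?_) (htA b r))
  have := Finset.mem_range.mp hb
  omega

lemma zero_of_triangular (t : ℕ → PowerSeries B)
    (ht0 : ∀ b r, r < b → (t b).coeff r = 0)
    (ht1 : ∀ b, (t b).coeff b = 1) (γ : ℕ → B) (m s : ℕ)
    (hS : ∀ r < s, (∑ b ∈ Finset.range (m + 1), PowerSeries.C (γ b) * t b).coeff r = 0) :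
    ∀ r ≤ m, r < s → γ r = 0 := by
  intro r
  induction r using Nat.strong_induction_on with | _ r ih =>
  intro hr hrs
  have h := coeff_sum_triangular t ht0 ht1 γ m r hr
  rw [hS r hrs] at h
  have h3 : ∑ b ∈ Finset.range r, γ b * (t b).coeff r = 0 := by
    refine Finset.sum_eq_zero fun b hb => ?_
    have := Finset.mem_range.mp hb
    rw [ih b this (by omega) (by omega), zero_mul]
  rw [h3, add_zero] at h
  exact h.symm

lemma coeff_eq_of_triangular (t : ℕ → PowerSeries B)
    (ht0 : ∀ b r, r < b → (t b).coeff r = 0)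
    (ht1 : ∀ b, (t b).coeff b = 1) (γ : ℕ → B) (m s : ℕ) (hs : s ≤ m)
    (hS : ∀ r < s, (∑ b ∈ Finset.range (m + 1), PowerSeries.C (γ b) * t b).coeff r = 0) :
    (∑ b ∈ Finset.range (m + 1), PowerSeries.C (γ b) * t b).coeff s = γ s := by
  rw [coeff_sum_triangular t ht0 ht1 γ m s hs]
  have h3 : ∑ b ∈ Finset.range s, γ b * (t b).coeff s = 0 := by
    refine Finset.sum_eq_zero fun b hb => ?_
    have := Finset.mem_range.mp hb
    rw [zero_of_triangular t ht0 ht1 γ m s hS b (by omega) this, zero_mul]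
  rw [h3, add_zero]

/-- power series with coefficients in a subring -/
def InSub (A : Subring B) (f : PowerSeries B) : Prop := ∀ n, f.coeff n ∈ A

lemma InSub.mul {A : Subring B} {f g : PowerSeries B} (hf : InSub A f) (hg : InSub A g) :
    InSub A (f * g) := by
  intro n
  rw [PowerSeries.coeff_mul]
  exact A.sum_mem fun p _ => A.mul_mem (hf _) (hg _)

lemma InSub.one {A : Subring B} : InSub A (1 : PowerSeries B) := by
  intro n
  rw [PowerSeries.coeff_one]
  split_ifs
  · exact A.one_mem
  · exact A.zero_mem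

lemma InSub.pow {A : Subring B} {f : PowerSeries B} (hf : InSub A f) (n : ℕ) :
    InSub A (f ^ n) := by
  induction n with
  | zero => simpa using InSub.one
  | succ n ih => rw [pow_succ]; exact ih.mul hf

/-- the basic triangular family `e ^ i * d ^ b` -/
lemma coeff_mul_pow_of_lt (e d : PowerSeries B) (hd0 : d.coeff 0 = 0) (b r : ℕ) (h : r < b) :
    (e * d ^ b).coeff r = 0 := by
  obtain ⟨d', rfl⟩ : PowerSeries.X ∣ d := by
    rw [PowerSeries.X_dvd_iff, ← PowerSeries.coeff_zero_eq_constantCoeff_apply]; exact hd0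
  rw [mul_pow, ← mul_assoc, mul_comm e, mul_assoc, PowerSeries.coeff_X_pow_mul', if_neg (by omega)]

lemma coeff_mul_pow_self (e d : PowerSeries B) (he0 : e.coeff 0 = 1) (hd0 : d.coeff 0 = 0)
    (hd1 : d.coeff 1 = 1) (b : ℕ) :
    (e * d ^ b).coeff b = 1 := by
  obtain ⟨d', rfl⟩ : PowerSeries.X ∣ d := by
    rw [PowerSeries.X_dvd_iff, ← PowerSeries.coeff_zero_eq_constantCoeff_apply]; exact hd0
  have hd' : PowerSeries.constantCoeff d' = 1 := by
    have := PowerSeries.coeff_succ_X_mul 0 d'
    rw [zero_add, hd1] at this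
    rw [← PowerSeries.coeff_zero_eq_constantCoeff_apply]; exact this.symm
  rw [mul_pow, ← mul_assoc, mul_comm e, mul_assoc, PowerSeries.coeff_X_pow_mul', if_pos le_rfl,
    Nat.sub_self, PowerSeries.coeff_zero_eq_constantCoeff_apply, map_mul, map_pow, hd', one_pow,
    mul_one, ← PowerSeries.coeff_zero_eq_constantCoeff_apply, he0]

end Formal

lemma coeff_zero_Delta : (qExpansion 1 Δ).coeff 0 = 0 := by
  simpa using CuspFormClass.qExpansion_coeff_zero CuspForm.discriminant one_pos
    one_mem_strictPeriods_SL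

lemma E4_coeff_int (n : ℕ) : ∃ z : ℤ, (qExpansion 1 E₄).coeff n = z := by
  rw [E_qExpansion_coeff _ ⟨2, rfl⟩]
  split_ifs with h
  · exact ⟨1, by simp⟩
  · refine ⟨240 * (ArithmeticFunction.sigma 3 n : ℕ), ?_⟩
    norm_num [show bernoulli 4 = -1 / 30 by decide +kernel]

lemma inSub_E4 (A : Subring ℂ) : InSub A (qExpansion 1 E₄) := by
  intro n
  obtain ⟨z, hz⟩ := E4_coeff_int n
  rw [hz]
  exact intCast_mem A z

/-- **(A6) + (A7)**: a level one form of weight `12 m` is `Δ ^ m * P (j)`, `deg P ≤ m`; the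
coefficients of `P` lie in every subring containing the `q`-expansion coefficients (of `f` and
of `Δ`), and the vanishing order of `f` at `∞` bounds the degree of `P`. -/
theorem exists_poly (m : ℕ) {k : ℤ} (hk : k = 12 * m) (f : ModularForm 𝒮ℒ k) :
    ∃ P : Polynomial ℂ, P.natDegree ≤ m ∧
      (∀ z : ℍ, f z = Δ z ^ m * P.eval (E₄ z ^ 3 / Δ z)) ∧
      (qExpansion 1 f = ∑ a ∈ Finset.range (m + 1),
        PowerSeries.C (P.coeff a) * qExpansion 1 E₄ ^ (3 * a) * qExpansion 1 Δ ^ (m - a)) ∧
      (∀ A : Subring ℂ, InSub A (qExpansion 1 Δ) → InSub A (qExpansion 1 f) →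
        ∀ a, P.coeff a ∈ A) ∧
      (∀ s ≤ m, (∀ r < s, (qExpansion 1 f).coeff r = 0) →
        P.natDegree ≤ m - s ∧ P.coeff (m - s) = (qExpansion 1 f).coeff s) := by
  obtain ⟨β, hβ, hβq⟩ := exists_coeffs m hk f
  set P : Polynomial ℂ := ∑ a ∈ Finset.range (m + 1), Polynomial.monomial a (β a) with hP
  have hPc : ∀ a, P.coeff a = if a ≤ m then β a else 0 := by
    intro a
    rw [hP, Polynomial.finsetSum_coeff]
    simp only [Polynomial.coeff_monomial]
    rw [Finset.sum_ite_eq' (Finset.range (m + 1)) a]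
    simp only [Finset.mem_range, Nat.lt_succ_iff]
  have hPc' : ∀ a ≤ m, P.coeff a = β a := fun a ha => by rw [hPc, if_pos ha]
  set e := qExpansion 1 E₄ with he
  set d := qExpansion 1 Δ with hd
  set t : ℕ → PowerSeries ℂ := fun b => e ^ (3 * (m - b)) * d ^ b with ht
  set γ : ℕ → ℂ := fun b => β (m - b) with hγ
  have he0 : ∀ i, (e ^ i).coeff 0 = 1 := by
    intro i
    rw [PowerSeries.coeff_zero_eq_constantCoeff, map_pow,
      ← PowerSeries.coeff_zero_eq_constantCoeff, he, coeff_zero_E4, one_pow]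
  have ht0 : ∀ b r, r < b → (t b).coeff r = 0 := fun b r h =>
    coeff_mul_pow_of_lt _ d coeff_zero_Delta b r h
  have ht1 : ∀ b, (t b).coeff b = 1 := fun b =>
    coeff_mul_pow_self _ d (he0 _) coeff_zero_Delta discriminant_qExpansion_coeff_one b
  have hS : qExpansion 1 f = ∑ b ∈ Finset.range (m + 1), PowerSeries.C (γ b) * t b := by
    rw [hβq, ← Finset.sum_range_reflect]
    refine Finset.sum_congr rfl fun b hb => ?_
    have hb' : b ≤ m := Nat.lt_succ_iff.mp (Finset.mem_range.mp hb)
    simp only [hγ, ht, Nat.add_sub_cancel]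
    rw [Nat.sub_sub_self hb', mul_assoc]
  refine ⟨P, ?_, fun z => ?_, ?_, fun A hdA hfA a => ?_, fun s hs hvan => ⟨?_, ?_⟩⟩
  · rw [Polynomial.natDegree_le_iff_coeff_eq_zero]
    intro a ha
    rw [hPc, if_neg (by omega)]
  · rw [hβ z, hP, Polynomial.eval_finsetSum, Finset.mul_sum]
    refine Finset.sum_congr rfl fun a ha => ?_
    have ha' : a ≤ m := Nat.lt_succ_iff.mp (Finset.mem_range.mp ha)
    have hΔ := discriminant_ne_zero z
    rw [Polynomial.eval_monomial, div_pow, ← pow_mul]
    conv_rhs => rw [← Nat.sub_add_cancel ha', pow_add]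
    field_simp
  · rw [hβq]
    refine Finset.sum_congr rfl fun a ha => ?_
    rw [hPc' a (Nat.lt_succ_iff.mp (Finset.mem_range.mp ha))]
  · rw [hPc]
    split_ifs with ha
    · have htA : ∀ b r, (t b).coeff r ∈ A := fun b =>
        ((inSub_E4 A).pow _).mul (hdA.pow b)
      have := mem_of_triangular A t ht0 ht1 htA γ m (by rw [← hS]; exact hfA) (m - a) (by omega)
      simpa [hγ, Nat.sub_sub_self ha] using this
    · exact A.zero_mem
  · rw [Polynomial.natDegree_le_iff_coeff_eq_zero]
    intro a ha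
    rw [hPc]
    split_ifs with ham
    · have := zero_of_triangular t ht0 ht1 γ m s (by rw [← hS]; exact hvan) (m - a) (by omega)
        (by omega)
      simpa [hγ, Nat.sub_sub_self ham] using this
    · rfl
  · rw [hPc' _ (by omega)]
    have := coeff_eq_of_triangular t ht0 ht1 γ m s hs (by rw [← hS]; exact hvan)
    rw [← hS] at this
    rw [this]

end Fermat.Agent.S28.LevelOnePoly
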