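import Fermat.Agent.S28.DefsT7
import Fermat.Agent.S28.Analytic.LevelOnePoly
import Fermat.Agent.S28.Analytic.Dict
import Fermat.Agent.S23.LevelNQ

/-!
# S28, U8: closure properties of `IsQExp`, Sturm vanishing, `E₄³(q^d)` and `Δ(q^d)`
-/

set_option autoImplicit false

noncomputable section

open ModularCurve Polynomial UpperHalfPlane ModularForm EisensteinSeries
open scoped MatrixGroups

namespace Fermat.Agent.S28

local notation "Δ" => ModularForm.discriminant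
local notation "ofPS" => HahnSeries.ofPowerSeries ℤ

theorem IsQExp.add {N m : ℕ} [NeZero N] {p p' : PowerSeries ℚ} (h : IsQExp N m p)
    (h' : IsQExp N m p') : IsQExp N m (p + p') := by
  obtain ⟨f, hf⟩ := h
  obtain ⟨f', hf'⟩ := h'
  refine ⟨f + f', ?_⟩
  rw [FunLike.coe_add, ModularForm.qExpansion_add one_pos
    (CongruenceSubgroup.one_mem_strictPeriods_Gamma0 N), hf, hf', map_add]

theorem IsQExp.smul {N m : ℕ} [NeZero N] {p : PowerSeries ℚ} (c : ℚ) (h : IsQExp N m p) :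
    IsQExp N m (c • p) := by
  obtain ⟨f, hf⟩ := h
  refine ⟨(c : ℂ) • f, ?_⟩
  rw [FunLike.coe_smul, ModularForm.qExpansion_smul one_pos
    (CongruenceSubgroup.one_mem_strictPeriods_Gamma0 N), hf]
  ext n
  simp

theorem IsQExp.zero {N m : ℕ} [NeZero N] : IsQExp N m 0 := by
  refine ⟨0, ?_⟩
  rw [FunLike.coe_zero, qExpansion_zero, map_zero]

theorem IsQExp.one {N : ℕ} [NeZero N] : IsQExp N 0 1 := by
  refine ⟨ModularForm.mcast (by simp) (1 : ModularForm (CongruenceSubgroup.Gamma0 N) 0), ?_⟩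
  rw [ModularForm.qExpansion_mcast, ModularForm.qExpansion_one, map_one]

theorem IsQExp.mul {N m m' : ℕ} [NeZero N] {p p' : PowerSeries ℚ} (h : IsQExp N m p)
    (h' : IsQExp N m' p') : IsQExp N (m + m') (p * p') := by
  obtain ⟨f, hf⟩ := h
  obtain ⟨f', hf'⟩ := h'
  refine ⟨ModularForm.mcast (by push_cast; ring) (f.mul f'), ?_⟩
  rw [ModularForm.qExpansion_mcast, ModularForm.qExpansion_mul one_pos
    (CongruenceSubgroup.one_mem_strictPeriods_Gamma0 N), hf, hf', map_mul]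

theorem IsQExp.pow {N m : ℕ} [NeZero N] {p : PowerSeries ℚ} (h : IsQExp N m p) (k : ℕ) :
    IsQExp N (k * m) (p ^ k) := by
  obtain ⟨f, hf⟩ := h
  refine ⟨ModularForm.mcast (by push_cast; ring) (f.pow k), ?_⟩
  rw [ModularForm.qExpansion_mcast, ModularForm.qExpansion_pow one_pos
    (CongruenceSubgroup.one_mem_strictPeriods_Gamma0 N), hf, map_pow]

theorem IsQExp.eq_zero {N m : ℕ} [NeZero N] {p : PowerSeries ℚ} (h : IsQExp N m p)
    (h0 : ∀ k ≤ m * (CongruenceSubgroup.Gamma0 N).index, p.coeff k = 0) : p = 0 := by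
  obtain ⟨f, hf⟩ := h
  have hf0 : f = 0 := by
    apply ModularForm.sturm_bound_Gamma0 N f
    intro n hn
    have e : ((12 * (m : ℤ)) * ((CongruenceSubgroup.Gamma0 N).index : ℤ)).toNat / 12 =
        m * (CongruenceSubgroup.Gamma0 N).index := by
      have : (12 * (m : ℤ)) * ((CongruenceSubgroup.Gamma0 N).index : ℤ) =
          ((12 * (m * (CongruenceSubgroup.Gamma0 N).index) : ℕ) : ℤ) := by
        push_cast; ring
      rw [this, Int.toNat_natCast, Nat.mul_div_cancel_left _ (by norm_num)]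
    rw [e] at hn
    rw [hf, PowerSeries.coeff_map, h0 n hn, map_zero]
  rw [hf0, FunLike.coe_zero, qExpansion_zero] at hf
  ext n
  have := congrArg (PowerSeries.coeff n) hf
  rw [PowerSeries.coeff_map, map_zero] at this
  rw [map_zero]
  exact (map_eq_zero_iff (algebraMap ℚ ℂ) (algebraMap ℚ ℂ).injective).mp this.symm

/-! ## Dilation `q ↦ q ^ d` -/

namespace QExpSpace

theorem Gamma0_le_Gamma0 {d N : ℕ} (hd : d ∣ N) :
    CongruenceSubgroup.Gamma0 N ≤ CongruenceSubgroup.Gamma0 d := by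
  intro A hA
  rw [CongruenceSubgroup.Gamma0_mem, ZMod.intCast_zmod_eq_zero_iff_dvd] at hA ⊢
  exact (Int.natCast_dvd_natCast.mpr hd).trans hA

/-- the power series `P(q^d)` -/
def dil (d : ℕ) (P : PowerSeries ℚ) : PowerSeries ℚ :=
  PowerSeries.mk fun m => if d ∣ m then P.coeff (m / d) else 0

theorem ofPS_dil (d : ℕ) [NeZero d] (P : PowerSeries ℚ) :
    ofPS ℚ (dil d P) = qExpand ℚ d (ofPS ℚ P) := by
  ext k
  by_cases hk : (d : ℤ) ∣ k
  · obtain ⟨m, rfl⟩ := hk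
    rw [qExpand_coeff_mul]
    rcases lt_or_ge m 0 with hm | hm
    · have hd0 : (0 : ℤ) < d := by exact_mod_cast NeZero.pos d
      rw [ordGE_ofPowerSeries _ _ hm, ordGE_ofPowerSeries _ _ (mul_neg_of_pos_of_neg hd0 hm)]
    · obtain ⟨n, rfl⟩ := Int.eq_ofNat_of_zero_le hm
      rw [← Nat.cast_mul, HahnSeries.ofPowerSeries_apply_coeff,
        HahnSeries.ofPowerSeries_apply_coeff, dil, PowerSeries.coeff_mk,
        if_pos (Dvd.intro n rfl), Nat.mul_div_cancel_left _ (NeZero.pos d)]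
  · rw [qExpand_coeff_of_not_dvd d _ hk]
    rcases lt_or_ge k 0 with hm | hm
    · rw [ordGE_ofPowerSeries _ _ hm]
    · obtain ⟨n, rfl⟩ := Int.eq_ofNat_of_zero_le hm
      rw [HahnSeries.ofPowerSeries_apply_coeff, dil, PowerSeries.coeff_mk, if_neg]
      exact fun h => hk (Int.natCast_dvd_natCast.mpr h)

theorem map_map_int (P : PowerSeries ℤ) :
    (P.map (Int.castRingHom ℚ)).map (algebraMap ℚ ℂ) = P.map (Int.castRingHom ℂ) := by
  ext n
  simp

/-- If `P` is the `q`-expansion of a level one form of weight `12`, then `P(q^d)` is the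
`q`-expansion of a form of weight `12` on `Γ₀(N)`, for `d ∣ N`. -/
theorem isQExp_dil (N : ℕ) [NeZero N] (d : ℕ) [NeZero d] (hd : d ∣ N) (b : ModularForm 𝒮ℒ 12)
    (P : PowerSeries ℚ) (hb : qExpansion 1 b = P.map (algebraMap ℚ ℂ)) :
    IsQExp N 1 (dil d P) := by
  have hd0 : ((d : ℂ) ^ ((12 : ℤ) - 1)) ≠ 0 :=
    zpow_ne_zero _ (Nat.cast_ne_zero.mpr (NeZero.ne d))
  refine ⟨ModularForm.mcast (by norm_num) ((((d : ℂ) ^ ((12 : ℤ) - 1))⁻¹) •
    Fermat.Agent.S23.restrict (Subgroup.map_mono (Gamma0_le_Gamma0 hd))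
      (Fermat.Agent.S23.LevelN.lvl d b)), ?_⟩
  rw [ModularForm.qExpansion_mcast, FunLike.coe_smul, ModularForm.qExpansion_smul one_pos
    (CongruenceSubgroup.one_mem_strictPeriods_Gamma0 N), Fermat.Agent.S23.coe_restrict]
  ext m
  rw [PowerSeries.coeff_smul, Fermat.Agent.S23.LevelN.coeff_qExpansion_lvl,
    PowerSeries.coeff_map, dil, PowerSeries.coeff_mk]
  split_ifs with h
  · rw [smul_eq_mul, inv_mul_cancel_left₀ hd0, hb, PowerSeries.coeff_map]
  · simp

end QExpSpace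

open QExpSpace

/-- `F(q^d)` for `d ∣ N` and `F = E₄^3` or `Δ`. -/
theorem isQExp_E4_cube (N : ℕ) [NeZero N] (d : ℕ) [NeZero d] (hd : d ∣ N) :
    ∃ p, IsQExp N 1 p ∧ ofPS ℚ p = qExpand ℚ d (ofPS ℚ (E4S ℚ ^ 3)) := by
  refine ⟨dil d (E4S ℚ ^ 3), isQExp_dil N d hd (LevelOnePoly.E4pow 1 (by norm_num)) _ ?_,
    ofPS_dil d _⟩
  rw [LevelOnePoly.qExpansion_E4pow, qExpansion_E4, mul_one, map_pow, E4S, E4S, map_map_int]

theorem isQExp_Delta (N : ℕ) [NeZero N] (d : ℕ) [NeZero d] (hd : d ∣ N) :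
    ∃ p, IsQExp N 1 p ∧ ofPS ℚ p = qExpand ℚ d (ofPS ℚ (DeltaS ℚ)) := by
  refine ⟨dil d (DeltaS ℚ), isQExp_dil N d hd Fermat.Agent.S23.DeltaMF _ ?_, ofPS_dil d _⟩
  rw [Fermat.Agent.S23.coe_DeltaMF, qExpansion_Delta, DeltaS, DeltaS, map_map_int]

end Fermat.Agent.S28

end
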