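import Fermat.Agent.S28.Analytic.Rational

/-!
# S28-A9, last step: a relation `D(t,u) v = S(t,u)` over `ℂ` between rational Laurent series
puts `v` in `ℚ(t,u)`.
-/

set_option autoImplicit false

noncomputable section

open ModularCurve Polynomial

namespace Fermat.Agent.S28

namespace Rational

theorem evalL_mem_adjoin (t u : LaurentSeries ℚ) (P : ℚ[X]) :
    evalL ℚ t P ∈ IntermediateField.adjoin ℚ {t, u} := by
  have ht : t ∈ IntermediateField.adjoin ℚ {t, u} :=
    IntermediateField.subset_adjoin ℚ _ (Set.mem_insert _ _)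
  simp only [evalL, coe_eval₂RingHom]
  rw [eval₂_eq_sum_range]
  refine sum_mem fun i _ => mul_mem ?_ (pow_mem ht i)
  have hC : (HahnSeries.C (P.coeff i) : LaurentSeries ℚ) =
      algebraMap ℚ (LaurentSeries ℚ) (P.coeff i) := (algebraMap_apply_eq_single _).symm
  rw [hC]
  exact (IntermediateField.adjoin ℚ {t, u}).algebraMap_mem (P.coeff i)

theorem eval₂_mem_adjoin (t u : LaurentSeries ℚ) (F : ℚ[X][X]) :
    F.eval₂ (evalL ℚ t) u ∈ IntermediateField.adjoin ℚ {t, u} := by
  have hu : u ∈ IntermediateField.adjoin ℚ {t, u} :=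
    IntermediateField.subset_adjoin ℚ _ (Set.mem_insert_of_mem _ rfl)
  rw [eval₂_eq_sum_range]
  exact sum_mem fun i _ => mul_mem (evalL_mem_adjoin t u _) (pow_mem hu i)

/-- A relation `D(t,u) v = S(t,u)` with complex coefficients and `D(t,u) ≠ 0` between rational
Laurent series `t, u, v` implies `v ∈ ℚ(t,u)`. -/
theorem mem_adjoin_of_relation (t u v : LaurentSeries ℚ) (D S : ℂ[X][X])
    (hD : D.eval₂ (evalL ℂ (toC t)) (toC u) ≠ 0)
    (h : D.eval₂ (evalL ℂ (toC t)) (toC u) * toC v = S.eval₂ (evalL ℂ (toC t)) (toC u)) :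
    v ∈ IntermediateField.adjoin ℚ {t, u} := by
  obtain ⟨k, hk⟩ : ∃ k, (D.eval₂ (evalL ℂ (toC t)) (toC u)).coeff k ≠ 0 := by
    by_contra hcon
    push Not at hcon
    exact hD (HahnSeries.ext (funext hcon))
  obtain ⟨π, hπ⟩ := exists_functional_ne_zero _ hk
  have hD' : (map₂ π D).eval₂ (evalL ℚ t) u ≠ 0 := by
    intro h0
    rw [coeff_eval₂, h0] at hπ
    exact hπ rfl
  have hrel : (map₂ π D).eval₂ (evalL ℚ t) u * v = (map₂ π S).eval₂ (evalL ℚ t) u := by
    ext m
    rw [← coeff_eval₂_mul, h, coeff_eval₂]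
  have hv : v = ((map₂ π D).eval₂ (evalL ℚ t) u)⁻¹ * (map₂ π S).eval₂ (evalL ℚ t) u := by
    rw [← hrel, inv_mul_cancel_left₀ hD']
  rw [hv]
  exact mul_mem (inv_mem (eval₂_mem_adjoin t u _)) (eval₂_mem_adjoin t u _)

end Rational

end Fermat.Agent.S28

end
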