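import Fermat.Agent.S28.Analytic.Formal
import Fermat.Agent.S28.IntLaurent
import Fermat.Agent.S28.ZlRing

/-!
# S28, modular half: elementary facts on the formal series `uL` and on `LUnit`
-/

set_option autoImplicit false

noncomputable section

open ModularCurve Polynomial

namespace Fermat.Agent.S28

section uL

variable {N ℓ : ℕ} (D : EtaData N ℓ)

theorem coeffMap_uL {R S : Type*} [CommRing R] [CommRing S] (f : R →+* S) :
    coeffMap f (uL D R) = uL D S := by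
  rw [uL, map_mul, coeffMap_single, map_one, coeffMap_ofPowerSeries,
    ← RingHom.comp_apply (PowerSeries.map f) (PowerSeries.map (Int.castRingHom R)),
    ← PowerSeries.map_comp, RingHom.ext_int (f.comp (Int.castRingHom R)) (Int.castRingHom S)]
  rfl

theorem isInt_uL : IsInt ℓ (uL D ℚ) := fun k => by
  rw [← coeffMap_uL D (Int.castRingHom ℚ), coeffMap_coeff]
  exact intCast_mem _ _

theorem ordGE_uL (R : Type*) [CommRing R] : OrdGE (uL D R) ((D.r : ℤ) - (D.w : ℤ)) := by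
  have := (ordGE_single ((D.r : ℤ) - (D.w : ℤ)) (1 : R)).mul (ordGE_ofPowerSeries
    ((D.g₀ * dedekindEtaUnitInv ^ D.w).map (Int.castRingHom R)))
  rwa [add_zero] at this

theorem coeff_uL (R : Type*) [CommRing R] : (uL D R).coeff ((D.r : ℤ) - (D.w : ℤ)) = 1 := by
  rw [uL, HahnSeries.coeff_single_mul, one_mul, sub_self,
    show (0 : ℤ) = ((0 : ℕ) : ℤ) from rfl, HahnSeries.ofPowerSeries_apply_coeff,
    PowerSeries.coeff_map, PowerSeries.coeff_zero_eq_constantCoeff, map_mul, map_pow,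
    D.g₀_const, constantCoeff_dedekindEtaUnitInv]
  simp

end uL

section LUnit

variable {ℓ : ℕ} [Fact ℓ.Prime]

theorem lunit_ne_zero' {z : ℂ} (h : LUnit ℓ z) : z ≠ 0 := by
  obtain ⟨m, a, b, hm, -, hb, h⟩ := h
  rintro rfl
  rw [zero_pow (by omega), zero_mul] at h
  have : b = 0 := by exact_mod_cast h.symm
  exact hb (this ▸ dvd_zero _)

/-- A rational `LUnit` is a unit of `ℤ_(ℓ)`. -/
theorem lunit_mem_and_inv_mem {x : ℚ} (h : LUnit ℓ (x : ℂ)) :
    x ∈ GaloisRep.ratLocalizedAt ℓ ∧ x⁻¹ ∈ GaloisRep.ratLocalizedAt ℓ := by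
  have hp : ℓ.Prime := Fact.out
  have hx0 : x ≠ 0 := by
    have := lunit_ne_zero' h
    exact_mod_cast this
  obtain ⟨m, a, b, hm, ha, hb, h⟩ := h
  have hq : x ^ m * (a : ℚ) = (b : ℚ) := by exact_mod_cast h
  have hden : (x.den : ℚ) ≠ 0 := by exact_mod_cast x.den_nz
  have hz : x.num ^ m * (a : ℤ) = (b : ℤ) * (x.den : ℤ) ^ m := by
    have h1 : ((x.num : ℚ) / (x.den : ℚ)) ^ m * (a : ℚ) = (b : ℚ) := by rwa [Rat.num_div_den]
    rw [div_pow, div_mul_eq_mul_div, div_eq_iff (pow_ne_zero _ hden)] at h1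
    exact_mod_cast h1
  have hpZ : Prime (ℓ : ℤ) := Nat.prime_iff_prime_int.mp hp
  have hcop : ¬ ((ℓ : ℤ) ∣ x.num ∧ (ℓ : ℤ) ∣ (x.den : ℤ)) := by
    rintro ⟨h1, h2⟩
    have h3 : ℓ ∣ x.num.natAbs := Int.natCast_dvd.mp h1
    have h4 : ℓ ∣ x.den := Int.natCast_dvd_natCast.mp h2
    have := Nat.dvd_gcd h3 h4
    rw [x.reduced] at this
    exact hp.one_lt.ne' (Nat.dvd_one.mp this)
  have hden' : ¬ (ℓ : ℤ) ∣ (x.den : ℤ) := by
    intro hd
    have : (ℓ : ℤ) ∣ x.num ^ m * (a : ℤ) := by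
      rw [hz]; exact Dvd.dvd.mul_left (dvd_pow hd (by omega)) _
    rcases hpZ.dvd_or_dvd this with h1 | h1
    · exact hcop ⟨hpZ.dvd_of_dvd_pow h1, hd⟩
    · exact ha (Int.natCast_dvd_natCast.mp h1)
  have hnum' : ¬ (ℓ : ℤ) ∣ x.num := by
    intro hd
    have : (ℓ : ℤ) ∣ (b : ℤ) * (x.den : ℤ) ^ m := by
      rw [← hz]; exact Dvd.dvd.mul_right (dvd_pow hd (by omega)) _
    rcases hpZ.dvd_or_dvd this with h1 | h1
    · exact hb (Int.natCast_dvd_natCast.mp h1)
    · exact hden' (hpZ.dvd_of_dvd_pow h1)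
  constructor
  · rw [ZlRing.mem_iff]
    exact ((Nat.Prime.coprime_iff_not_dvd hp).mpr
      (fun hd => hden' (Int.natCast_dvd_natCast.mpr hd))).symm
  · have : x⁻¹ = (x.den : ℚ) * ((x.num : ℚ))⁻¹ := by
      conv_lhs => rw [← Rat.num_div_den x]
      rw [inv_div, div_eq_mul_inv]
    rw [this]
    exact mul_mem (natCast_mem _ _) (ZlRing.inv_int_mem ℓ hnum')

end LUnit

end Fermat.Agent.S28

end
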