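import Fermat.Agent.S28.Analytic.NiceH

/-!
# S28 analytic toolkit, part K2: affine substitutions `τ ↦ (a τ + b) / d`
-/

set_option autoImplicit false

open UpperHalfPlane Filter Topology
open scoped Manifold MatrixGroups ModularForm Real

namespace Fermat.Agent.S28.Analytic

local notation "𝕢" => Function.Periodic.qParam

section affine

variable {a d N e : ℕ} {b : ℤ} {φ : ℍ → ℍ}

lemma affine_im_pos (ha : 0 < a) (hd : 0 < d) {z : ℂ} (hz : 0 < z.im) :
    0 < (((a : ℂ) * z + b) / d).im := by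
  have h2 : (((a : ℂ) * z + b) / d) = (((a : ℝ) / d : ℝ) : ℂ) * z + (((b : ℝ) / d : ℝ) : ℂ) := by
    have : (d : ℂ) ≠ 0 := by exact_mod_cast hd.ne'
    push_cast
    field_simp
  rw [h2, Complex.add_im, Complex.im_ofReal_mul, Complex.ofReal_im, add_zero]
  positivity

lemma affine_im (hd : 0 < d) (hφ : ∀ τ : ℍ, (φ τ : ℂ) = ((a : ℂ) * τ + b) / d) (τ : ℍ) :
    (φ τ).im = ((a : ℝ) / d) * τ.im := by
  have h1 : (φ τ).im = ((φ τ : ℂ)).im := rfl
  have h2 : (((a : ℂ) * τ + b) / d) = (((a : ℝ) / d : ℝ) : ℂ) * τ + (((b : ℝ) / d : ℝ) : ℂ) := by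
    have : (d : ℂ) ≠ 0 := by exact_mod_cast hd.ne'
    push_cast
    field_simp
  rw [h1, hφ, h2, Complex.add_im, Complex.im_ofReal_mul, Complex.ofReal_im, add_zero]
  rfl

lemma tendsto_affine (ha : 0 < a) (hd : 0 < d)
    (hφ : ∀ τ : ℍ, (φ τ : ℂ) = ((a : ℂ) * τ + b) / d) : Tendsto φ atImInfty atImInfty := by
  rw [atImInfty, tendsto_comap_iff]
  have him : (UpperHalfPlane.im ∘ φ) = fun τ : ℍ => ((a : ℝ) / d) * τ.im := by
    funext τ
    exact affine_im hd hφ τ
  rw [him]
  have hpos : (0 : ℝ) < (a : ℝ) / d := by positivity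
  exact Tendsto.const_mul_atTop hpos tendsto_comap

/-- **K2 (a).** Affine substitution preserves niceness (the period changes). -/
theorem NiceH.comp_affine {f : ℍ → ℂ} (hf : NiceH 1 f) (ha : 0 < a) (hd : 0 < d)
    (he : N * a = e * d) (hφ : ∀ τ : ℍ, (φ τ : ℂ) = ((a : ℂ) * τ + b) / d) :
    NiceH N (f ∘ φ) := by
  have hd' : (d : ℂ) ≠ 0 := by exact_mod_cast hd.ne'
  have key : ∀ z : ℂ, 0 < z.im →
      (f ∘ φ) (ofComplex z) = (f ∘ ofComplex) (((a : ℂ) * z + b) / d) := by
    intro z hz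
    have h1 : ((φ (ofComplex z) : ℍ) : ℂ) = ((a : ℂ) * z + b) / d := by
      rw [hφ, ofComplex_apply_of_im_pos hz]
    simp only [Function.comp_apply]
    rw [← h1, ofComplex_apply]
  refine ⟨?_, ?_, ?_⟩
  · intro z
    by_cases hz : 0 < z.im
    · have hz' : 0 < (z + (N : ℝ)).im := by simpa using hz
      have h1 := key z hz
      have h2 := key _ hz'
      simp only [Function.comp_apply] at h1 h2 ⊢
      rw [h1, h2]
      have h3 : ((a : ℂ) * (z + ((N : ℝ) : ℂ)) + b) / d = ((a : ℂ) * z + b) / d + (e : ℕ) * (1 : ℝ) := by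
        have : (N : ℂ) * a = e * d := by exact_mod_cast he
        push_cast
        field_simp
        linear_combination this
      rw [h3]
      exact (hf.per.nat_mul e) _
    · have hz0 : z.im ≤ 0 := not_lt.mp hz
      have hz' : (z + (N : ℝ)).im ≤ 0 := by simpa using hz0
      simp only [Function.comp_apply]
      rw [ofComplex_apply_of_im_nonpos hz0, ofComplex_apply_of_im_nonpos hz']
  · rw [UpperHalfPlane.mdifferentiable_iff]
    have h1 : DifferentiableOn ℂ (f ∘ ofComplex) upperHalfPlaneSet :=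
      (UpperHalfPlane.mdifferentiable_iff).mp hf.holo
    have h2 : DifferentiableOn ℂ (fun z : ℂ => ((a : ℂ) * z + b) / d) upperHalfPlaneSet := by
      fun_prop
    have h3 : DifferentiableOn ℂ ((f ∘ ofComplex) ∘ fun z : ℂ => ((a : ℂ) * z + b) / d)
        upperHalfPlaneSet :=
      h1.comp h2 fun z hz => affine_im_pos ha hd hz
    refine h3.congr fun z hz => ?_
    exact key z hz
  · exact hf.bdd.comp_tendsto (tendsto_affine ha hd hφ)

lemma qParam_affine (hd : 0 < d) (hN : 0 < N) (he : N * a = e * d)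
    (hφ : ∀ τ : ℍ, (φ τ : ℂ) = ((a : ℂ) * τ + b) / d) (τ : ℍ) :
    𝕢 1 (φ τ) = Complex.exp (2 * π * Complex.I * b / d) * 𝕢 N τ ^ e := by
  have hd' : (d : ℂ) ≠ 0 := by exact_mod_cast hd.ne'
  have hN' : (N : ℂ) ≠ 0 := by exact_mod_cast hN.ne'
  have h : (N : ℂ) * a = e * d := by exact_mod_cast he
  simp only [Function.Periodic.qParam]
  rw [← Complex.exp_nat_mul, ← Complex.exp_add, hφ]
  congr 1
  push_cast
  field_simp
  linear_combination (τ : ℂ) * h

/-- **K2 (b).** The `q`-expansion of an affine substitution. -/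
theorem NiceH.qExp_comp_affine {f : ℍ → ℂ} (hf : NiceH 1 f) (ha : 0 < a) (hd : 0 < d)
    (hN : 0 < N) (he : N * a = e * d) (hφ : ∀ τ : ℍ, (φ τ : ℂ) = ((a : ℂ) * τ + b) / d) (m : ℕ) :
    (qExpansion N (f ∘ φ)).coeff m =
      if e ∣ m then (qExpansion 1 f).coeff (m / e) * Complex.exp (2 * π * Complex.I * b / d) ^ (m / e)
      else 0 := by
  have he0 : 0 < e := by
    rcases Nat.eq_zero_or_pos e with h | h
    · subst h
      have : 0 < N * a := Nat.mul_pos hN ha
      omega
    · exact h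
  have hN' : (0 : ℝ) < N := by exact_mod_cast hN
  refine (hf.comp_affine ha hd he hφ).coeff_unique hN' (c := fun m => if e ∣ m then
    (qExpansion 1 f).coeff (m / e) * Complex.exp (2 * π * Complex.I * b / d) ^ (m / e) else 0)
    (fun τ => ?_) m
  have h1 := hf.hasSum one_pos (φ τ)
  have hinj : Function.Injective (fun n : ℕ => e * n) := fun x y hxy =>
    Nat.eq_of_mul_eq_mul_left he0 hxy
  rw [← hinj.hasSum_iff]
  · have hfun : ((fun m => (if e ∣ m then (qExpansion 1 f).coeff (m / e) *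
        Complex.exp (2 * π * Complex.I * b / d) ^ (m / e) else 0) • 𝕢 N τ ^ m) ∘ fun n : ℕ => e * n)
        = fun m => (qExpansion 1 f).coeff m • 𝕢 1 (φ τ) ^ m := by
      funext n
      simp only [Function.comp_apply]
      rw [if_pos (Dvd.intro _ rfl), Nat.mul_div_cancel_left _ he0, qParam_affine hd hN he hφ τ,
        mul_pow, ← pow_mul, smul_eq_mul, smul_eq_mul]
      ring
    rw [hfun]
    exact h1
  · intro x hx
    rw [if_neg, zero_smul]
    rintro ⟨n, rfl⟩
    exact hx ⟨n, rfl⟩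

/-- **K2 (c).** Affine substitution preserves integrality of the expansion, as soon as the root of
unity `e(b/d)` lies in `O`. -/
theorem IntExp.comp_affine {O : Subring ℂ} {f : ℍ → ℂ} (hf : IntExp O 1 f) (ha : 0 < a) (hd : 0 < d)
    (hN : 0 < N) (he : N * a = e * d) (hφ : ∀ τ : ℍ, (φ τ : ℂ) = ((a : ℂ) * τ + b) / d)
    (hζ : Complex.exp (2 * π * Complex.I * b / d) ∈ O) : IntExp O N (f ∘ φ) :=
  ⟨hf.nice.comp_affine ha hd he hφ, fun m => by
    rw [hf.nice.qExp_comp_affine ha hd hN he hφ]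
    split_ifs
    · exact O.mul_mem (hf.coeff_mem _) (O.pow_mem hζ _)
    · exact O.zero_mem⟩

/-- The constant term is unchanged by an affine substitution. -/
theorem NiceH.coeff_zero_comp_affine {f : ℍ → ℂ} (hf : NiceH 1 f) (ha : 0 < a) (hd : 0 < d)
    (hN : 0 < N) (he : N * a = e * d) (hφ : ∀ τ : ℍ, (φ τ : ℂ) = ((a : ℂ) * τ + b) / d) :
    (qExpansion N (f ∘ φ)).coeff 0 = (qExpansion 1 f).coeff 0 := by
  rw [hf.qExp_comp_affine ha hd hN he hφ]
  simp

end affine

section period

variable {N : ℕ} {f : ℍ → ℂ}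

/-- A `1`-periodic nice function is `N`-periodic nice. -/
theorem NiceH.of_one (hf : NiceH 1 f) : NiceH N f := by
  have := hf.comp_affine (a := 1) (d := 1) (N := N) (e := N) (b := 0) (φ := id) one_pos one_pos
    (by ring) (fun τ => by simp)
  simpa using this

/-- The expansion in `q_N` of a `1`-periodic function. -/
theorem NiceH.qExp_of_one (hf : NiceH 1 f) (hN : 0 < N) (m : ℕ) :
    (qExpansion N f).coeff m = if N ∣ m then (qExpansion 1 f).coeff (m / N) else 0 := by
  have := hf.qExp_comp_affine (a := 1) (d := 1) (N := N) (e := N) (b := 0) (φ := id) one_pos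
    one_pos hN (by ring) (fun τ => by simp) m
  simpa using this

theorem NiceH.coeff_one_eq (hf : NiceH 1 f) (hN : 0 < N) (n : ℕ) :
    (qExpansion 1 f).coeff n = (qExpansion N f).coeff (N * n) := by
  rw [hf.qExp_of_one hN, if_pos (Dvd.intro _ rfl), Nat.mul_div_cancel_left _ hN]

theorem IntExp.of_one {O : Subring ℂ} (hf : IntExp O 1 f) (hN : 0 < N) : IntExp O N f :=
  ⟨hf.nice.of_one, fun m => by
    rw [hf.nice.qExp_of_one hN]
    split_ifs
    · exact hf.coeff_mem _
    · exact O.zero_mem⟩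

/-- A `1`-periodic function whose `q_N`-expansion is in `O` has its `q`-expansion in `O`. -/
theorem IntExp.to_one {O : Subring ℂ} (hf1 : NiceH 1 f) (hf : IntExp O N f) (hN : 0 < N) :
    IntExp O 1 f :=
  ⟨hf1, fun n => by
    rw [hf1.coeff_one_eq hN]
    exact hf.coeff_mem _⟩

end period

end Fermat.Agent.S28.Analytic
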