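import Fermat.Agent.S28.Analytic.EtaData
import Fermat.Agent.S28.Analytic.Matrix
import Fermat.Agent.S28.Analytic.Expansion

/-!
# S28 (A9, sub-node): the dilation `f(τ) ↦ f(d τ)` from level one to level `Γ₀(N)`, `d ∣ N`
-/

set_option autoImplicit false

noncomputable section

open UpperHalfPlane ModularForm Matrix.SpecialLinearGroup Filter Topology
open scoped MatrixGroups ModularForm Manifold

namespace Fermat.Agent.S28.LevelD

open Fermat.Agent.S28.Analytic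

/-- `τ ↦ f (d τ)`. -/
def dilFun (d : ℕ) (f : ℍ → ℂ) (τ : ℍ) : ℂ := f (ofComplex ((d : ℂ) * τ))

/-- the point `d τ`. -/
def dilPt (d : ℕ) (τ : ℍ) : ℍ := ofComplex ((d : ℂ) * τ)

lemma dilFun_eq_comp (d : ℕ) (f : ℍ → ℂ) : dilFun d f = f ∘ dilPt d := rfl

lemma coe_dilPt {d : ℕ} (hd : 0 < d) (τ : ℍ) :
    (dilPt d τ : ℂ) = ((d : ℂ) * τ + (0 : ℤ)) / (1 : ℕ) := by
  have h : 0 < ((d : ℂ) * τ).im := by
    have : ((d : ℂ) * τ).im = d * τ.im := by simp
    rw [this]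
    have := τ.im_pos
    positivity
  rw [dilPt, ofComplex_apply_of_im_pos h]
  simp

section slash

variable {k : ℤ} {f : ℍ → ℂ}

/-- the slash of a dilation by any element of `SL₂(ℤ)`. -/
theorem dilFun_slash (hf : ∀ γ : SL(2, ℤ), f ∣[k] γ = f) {d : ℕ} (hd : 0 < d) (γ : SL(2, ℤ)) :
    ∃ b : ℤ, ∀ τ : ℍ, (dilFun d f ∣[k] γ) τ =
      ((d / Int.gcd d (γ 1 0) : ℕ) : ℂ) ^ (-k) *
        f (ofComplex ((((Int.gcd d (γ 1 0) : ℕ) : ℂ) * τ + b) / ((d / Int.gcd d (γ 1 0) : ℕ) : ℂ))) := by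
  obtain ⟨b, hb⟩ := slash_dil k f hf d hd γ
  refine ⟨b, fun τ => ?_⟩
  rw [ModularForm.SL_slash_apply, dilFun, hb τ]

lemma periodic_of_slash (hf : ∀ γ : SL(2, ℤ), f ∣[k] γ = f) (w : ℂ) (b : ℤ) :
    f (ofComplex (w + b)) = f (ofComplex w) := by
  by_cases hw : 0 < w.im
  · have hw' : 0 < (w + b).im := by simpa using hw
    have h := congrFun (hf (ModularGroup.T ^ b)) ⟨w, hw⟩
    rw [ModularForm.SL_slash_apply] at h
    rw [ofComplex_apply_of_im_pos hw, ofComplex_apply_of_im_pos hw', ← h]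
    have h1 : denom (ModularGroup.T ^ b : SL(2, ℤ)) (⟨w, hw⟩ : ℍ) = 1 := by
      rw [ModularGroup.denom_apply, ModularGroup.coe_T_zpow]
      simp
    rw [h1, one_zpow, mul_one, modular_T_zpow_smul]
    congr 1
    ext
    simp [add_comm]
  · have hw0 : w.im ≤ 0 := not_lt.mp hw
    have hw' : (w + b).im ≤ 0 := by simpa using hw0
    rw [ofComplex_apply_of_im_nonpos hw0, ofComplex_apply_of_im_nonpos hw']

theorem dilFun_slash_of_dvd (hf : ∀ γ : SL(2, ℤ), f ∣[k] γ = f) {d : ℕ} (hd : 0 < d)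
    {γ : SL(2, ℤ)} (hγ : (d : ℤ) ∣ γ 1 0) : dilFun d f ∣[k] γ = dilFun d f := by
  obtain ⟨b, hb⟩ := dilFun_slash hf hd γ
  funext τ
  have h1 : Int.gcd d (γ 1 0) = d := by
    rw [Int.gcd_eq_natAbs_left hγ]
    simp
  rw [hb τ, h1, Nat.div_self hd]
  simp only [Nat.cast_one, one_zpow, one_mul, div_one]
  rw [periodic_of_slash hf, dilFun]

end slash

section form

variable {k : ℤ}

lemma slash_eq_of_levelOne (f : ModularForm 𝒮ℒ k) (γ : SL(2, ℤ)) : (f : ℍ → ℂ) ∣[k] γ = f :=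
  SlashInvariantForm.slash_action_eqn f _ ⟨γ, rfl⟩

lemma niceH_levelOne (f : ModularForm 𝒮ℒ k) : NiceH 1 (f : ℍ → ℂ) :=
  NiceH.of_modularFormClass one_pos one_mem_strictPeriods_SL f

lemma niceH_dilFun (f : ModularForm 𝒮ℒ k) {d : ℕ} (hd : 0 < d) : NiceH 1 (dilFun d f) := by
  have h := (niceH_levelOne f).comp_affine (N := 1) (e := d) (a := d) (d := 1) (b := 0)
    (φ := dilPt d) hd one_pos (by ring) (coe_dilPt hd)
  simpa [dilFun_eq_comp] using h

theorem isBoundedAtImInfty_dilFun_slash (f : ModularForm 𝒮ℒ k) {d : ℕ} (hd : 0 < d)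
    (γ : SL(2, ℤ)) : IsBoundedAtImInfty (dilFun d f ∣[k] γ) := by
  obtain ⟨b, hb⟩ := dilFun_slash (slash_eq_of_levelOne f) hd γ
  set a' : ℕ := Int.gcd d (γ 1 0) with ha'
  set d' : ℕ := d / a' with hd'
  have ha0 : 0 < a' := gcd_pos_of_pos d hd _
  have hd0 : 0 < d' := div_gcd_pos d hd _
  have hφ : ∀ τ : ℍ, ((ofComplex (((a' : ℂ) * τ + b) / (d' : ℂ)) : ℍ) : ℂ) =
      ((a' : ℂ) * τ + b) / d' := fun τ => by
    rw [ofComplex_apply_of_im_pos (im_affine_pos ha0 hd0 b τ)]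
  have h1 : IsBoundedAtImInfty ((f : ℍ → ℂ) ∘ fun τ : ℍ => ofComplex (((a' : ℂ) * τ + b) / (d' : ℂ))) :=
    (niceH_levelOne f).bdd.comp_tendsto (tendsto_affine ha0 hd0 hφ)
  have h2 : dilFun d f ∣[k] γ = (fun _ => ((d' : ℂ) ^ (-k))) *
      ((f : ℍ → ℂ) ∘ fun τ : ℍ => ofComplex (((a' : ℂ) * τ + b) / (d' : ℂ))) := by
    funext τ
    exact hb τ
  rw [h2]
  exact (Filter.const_boundedAtFilter _ _).mul h1

/-- `f(d τ)` as a modular form on `Γ₀(N)`, for `d ∣ N`. -/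
def dil (N d : ℕ) [NeZero N] (hd : d ∣ N) (f : ModularForm 𝒮ℒ k) : ModularForm (G0 N) k where
  toFun := dilFun d f
  slash_action_eq' := by
    rintro _ ⟨γ, hγ, rfl⟩
    have hd0 : 0 < d := Nat.pos_of_dvd_of_pos hd (Nat.pos_of_ne_zero (NeZero.ne N))
    have h1 : (N : ℤ) ∣ γ 1 0 := by
      have hγ' : γ ∈ CongruenceSubgroup.Gamma0 N := hγ
      rw [CongruenceSubgroup.Gamma0_mem] at hγ'
      exact (ZMod.intCast_zmod_eq_zero_iff_dvd _ _).mp hγ'
    exact dilFun_slash_of_dvd (slash_eq_of_levelOne f) hd0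
      ((Int.natCast_dvd_natCast.mpr hd).trans h1)
  holo' := (niceH_dilFun f (Nat.pos_of_dvd_of_pos hd (Nat.pos_of_ne_zero (NeZero.ne N)))).holo
  bdd_at_cusps' := by
    intro c hc
    have hc' : IsCusp c 𝒮ℒ := hc.mono (Subgroup.map_le_range _ _)
    rw [OnePoint.isBoundedAt_iff_forall_SL2Z hc']
    exact fun γ _ => isBoundedAtImInfty_dilFun_slash f
      (Nat.pos_of_dvd_of_pos hd (Nat.pos_of_ne_zero (NeZero.ne N))) γ

@[simp] theorem coe_dil (N d : ℕ) [NeZero N] (hd : d ∣ N) (f : ModularForm 𝒮ℒ k) :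
    (dil N d hd f : ℍ → ℂ) = dilFun d f := rfl

theorem dil_apply (N d : ℕ) [NeZero N] (hd : d ∣ N) (f : ModularForm 𝒮ℒ k) (τ : ℍ) :
    dil N d hd f τ = f (ofComplex ((d : ℂ) * τ)) := rfl

theorem coeff_qExpansion_dilFun (f : ModularForm 𝒮ℒ k) {d : ℕ} (hd : 0 < d) (m : ℕ) :
    (qExpansion 1 (dilFun d f)).coeff m =
      if d ∣ m then (qExpansion 1 f).coeff (m / d) else 0 := by
  have h := (niceH_levelOne f).qExp_comp_affine (N := 1) (e := d) (a := d) (d := 1) (b := 0)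
    (φ := dilPt d) hd one_pos one_pos (by ring) (coe_dilPt hd) m
  simpa [dilFun_eq_comp] using h

theorem coeff_qExpansion_dil (N d : ℕ) [NeZero N] (hd : d ∣ N) (f : ModularForm 𝒮ℒ k) (m : ℕ) :
    (qExpansion 1 (dil N d hd f)).coeff m =
      if d ∣ m then (qExpansion 1 f).coeff (m / d) else 0 :=
  coeff_qExpansion_dilFun f (Nat.pos_of_dvd_of_pos hd (Nat.pos_of_ne_zero (NeZero.ne N))) m

end form

section laurent

variable {k : ℤ}

/-- A power series whose coefficients are those of `p`, spread out by `d`, is `qExpand d p`. -/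
theorem ofPowerSeries_eq_qExpand {R : Type*} [CommRing R] (d : ℕ) [NeZero d] (p p' : PowerSeries R)
    (h : ∀ m : ℕ, p'.coeff m = if d ∣ m then p.coeff (m / d) else 0) :
    HahnSeries.ofPowerSeries ℤ R p' = ModularCurve.qExpand R d (HahnSeries.ofPowerSeries ℤ R p) := by
  have hd0 : 0 < d := Nat.pos_of_ne_zero (NeZero.ne d)
  ext n
  by_cases hn : (d : ℤ) ∣ n
  · obtain ⟨m, rfl⟩ := hn
    rw [ModularCurve.qExpand_coeff_mul]
    rcases le_or_gt 0 m with hm | hm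
    · lift m to ℕ using hm
      rw [HahnSeries.ofPowerSeries_apply_coeff, show (d : ℤ) * (m : ℤ) = ((d * m : ℕ) : ℤ) by
        push_cast; ring, HahnSeries.ofPowerSeries_apply_coeff, h, if_pos (Dvd.intro _ rfl),
        Nat.mul_div_cancel_left _ hd0]
    · rw [ModularCurve.ofPowerSeries_coeff_of_neg _ hm, ModularCurve.ofPowerSeries_coeff_of_neg]
      have : (0 : ℤ) < d := by exact_mod_cast hd0
      nlinarith
  · rw [ModularCurve.qExpand_coeff_of_not_dvd _ _ hn]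
    rcases le_or_gt 0 n with hm | hm
    · lift n to ℕ using hm
      rw [HahnSeries.ofPowerSeries_apply_coeff, h, if_neg]
      intro h'
      exact hn (Int.natCast_dvd_natCast.mpr h')
    · exact ModularCurve.ofPowerSeries_coeff_of_neg _ hm

theorem ofPowerSeries_qExpansion_dil (N d : ℕ) [NeZero N] [NeZero d] (hd : d ∣ N)
    (f : ModularForm 𝒮ℒ k) :
    HahnSeries.ofPowerSeries ℤ ℂ (qExpansion 1 (dil N d hd f)) =
      ModularCurve.qExpand ℂ d (HahnSeries.ofPowerSeries ℤ ℂ (qExpansion 1 f)) :=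
  ofPowerSeries_eq_qExpand d _ _ (coeff_qExpansion_dil N d hd f)

end laurent

section instances

/-- `E₄ ^ 3` as a level one form of weight `12`. -/
def E4cube : ModularForm 𝒮ℒ 12 := ModularForm.mcast (by norm_num) (E₄.pow 3)

theorem E4cube_apply (z : ℍ) : E4cube z = E₄ z ^ 3 := by
  rw [E4cube, ModularForm.mcast_apply, ModularForm.coe_pow, Pi.pow_apply]

theorem qExpansion_E4cube : qExpansion 1 E4cube = qExpansion 1 E₄ ^ 3 := by
  rw [E4cube, ModularForm.qExpansion_mcast,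
    ModularForm.qExpansion_pow one_pos one_mem_strictPeriods_SL]

/-- `Δ` as a level one modular form of weight `12`. -/
def DeltaMF : ModularForm 𝒮ℒ 12 := ModularFormClass.modularForm CuspForm.discriminant

theorem DeltaMF_apply (z : ℍ) : DeltaMF z = ModularForm.discriminant z := rfl

theorem coe_DeltaMF : (DeltaMF : ℍ → ℂ) = ModularForm.discriminant := rfl

theorem qExpansion_DeltaMF : qExpansion 1 DeltaMF = qExpansion 1 ModularForm.discriminant := rfl

end instances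

end Fermat.Agent.S28.LevelD

end
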