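import Fermat.Agent.S28.Analytic.ChiCBridge
import Fermat.Agent.S28.Analytic.Descent
import Fermat.Agent.S28.Analytic.FormalLemmas
import Fermat.Agent.S28.Analytic.LevelD

/-!
# S28 (A9): generation of `ℚ(j, j_d)` by `j` and `u`, by interpolation
-/

set_option autoImplicit false
set_option linter.unusedSectionVars false

noncomputable section

open UpperHalfPlane ModularForm Matrix.SpecialLinearGroup Filter Topology SlashInvariantForm
open ModularCurve Polynomial Fermat.Agent.S23 Fermat.Agent.S23.Sym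
open scoped MatrixGroups ModularForm

namespace Fermat.Agent.S28.GenInterp

open ChiC (toL DL EL jL DL_ne_zero)
open NoZeros (nice_levelOne tendsto_of_nice)

local notation "Δ" => ModularForm.discriminant

/-- the Laurent series of the `q`-expansion of a function. -/
def Lq (f : ℍ → ℂ) : LaurentSeries ℂ := toL (qExpansion 1 f)

section Lq

variable {f g : ℍ → ℂ}

lemma Lq_mul (hf : Nice f) (hg : Nice g) : Lq (f * g) = Lq f * Lq g := by
  rw [Lq, Nice.qExp_mul hf hg, map_mul]; rfl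

lemma Lq_pow (hf : Nice f) (n : ℕ) : Lq (f ^ n) = Lq f ^ n := by
  rw [Lq, Nice.qExp_pow hf, map_pow]; rfl

lemma Lq_sum {ι : Type*} (s : Finset ι) {F : ι → ℍ → ℂ} (hF : ∀ i ∈ s, Nice (F i)) :
    Lq (∑ i ∈ s, F i) = ∑ i ∈ s, Lq (F i) := by
  rw [Lq, Nice.qExp_sum s hF, map_sum]; rfl

lemma Lq_ne_zero (hf : Nice f) (h : f ≠ 0) : Lq f ≠ 0 := by
  intro h0
  apply h
  rw [← hf.qExp_eq_zero_iff]
  exact HahnSeries.ofPowerSeries_injective (Γ := ℤ) (R := ℂ) (by rw [map_zero]; exact h0)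

lemma Lq_Delta : Lq Δ = DL := rfl

lemma nice_of_isMF {k : ℤ} (h : IsMF 𝒮ℒ k f) : Nice f := by
  obtain ⟨F, rfl⟩ := h
  exact nice_levelOne F

/-- a level one form of weight `12 K` is `Δ ^ K * P(j)`. -/
lemma Lq_of_isMF {K : ℕ} (h : IsMF 𝒮ℒ (12 * K) f) :
    ∃ P : ℂ[X], Lq f = DL ^ K * ChiC.evalL jL P := by
  obtain ⟨F, rfl⟩ := h
  obtain ⟨P, h1, -, h3, -, -⟩ := LevelOnePoly.exists_poly K rfl F
  exact ⟨P, by rw [Lq, h3, ChiC.toL_levelOne P K h1]⟩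

end Lq

/-- Quotients of level one forms of the same weight are rational functions of `j`
(with a common denominator). -/
theorem exists_ratio {k : ℤ} {b : ℍ → ℂ} (hbM : IsMF 𝒮ℒ k b) (hb : b ≠ 0) :
    ∃ Q : ℂ[X], Q ≠ 0 ∧ ∀ a : ℍ → ℂ, IsMF 𝒮ℒ k a → ∃ P : ℂ[X],
      Lq a * ChiC.evalL jL Q = Lq b * ChiC.evalL jL P := by
  have hk : 0 ≤ k := by
    by_contra hk
    obtain ⟨B, rfl⟩ := hbM
    exact hb (ModularFormClass.levelOne_neg_weight_eq_zero (not_le.mp hk) B)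
  obtain ⟨K, rfl⟩ := Int.eq_ofNat_of_zero_le hk
  have hbN := nice_of_isMF hbM
  have hb0 := Lq_ne_zero hbN hb
  obtain ⟨Q, hQ⟩ := Lq_of_isMF (f := b ^ 12) (K := K) ((hbM.pow 12).cast (by push_cast; ring))
  rw [Lq_pow hbN] at hQ
  refine ⟨Q, ?_, fun a haM => ?_⟩
  · rintro rfl
    rw [map_zero, mul_zero] at hQ
    exact hb0 (pow_eq_zero_iff (by norm_num) |>.mp hQ)
  · have haN := nice_of_isMF haM
    obtain ⟨P, hP⟩ := Lq_of_isMF (f := a * b ^ 11) (K := K)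
      ((haM.mul (hbM.pow 11)).cast (by push_cast; ring))
    rw [Lq_mul haN (hbN.pow 11), Lq_pow hbN] at hP
    refine ⟨P, ?_⟩
    have hD : DL ^ K ≠ 0 := pow_ne_zero _ DL_ne_zero
    apply mul_left_cancel₀ hD
    calc DL ^ K * (Lq a * ChiC.evalL jL Q) = Lq a * (DL ^ K * ChiC.evalL jL Q) := by ring
      _ = Lq a * Lq b ^ 12 := by rw [hQ]
      _ = Lq b * (Lq a * Lq b ^ 11) := by ring
      _ = Lq b * (DL ^ K * ChiC.evalL jL P) := by rw [hP]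
      _ = DL ^ K * (Lq b * ChiC.evalL jL P) := by ring

section main

variable {N ℓ : ℕ} [NeZero N] [Fact ℓ.Prime] (D : EtaData N ℓ)

lemma nice_G0 {k : ℤ} (f : ModularForm (G0 N) k) : Nice f :=
  Nice.of_modularFormClass (CongruenceSubgroup.one_mem_strictPeriods_Gamma0 N) f

lemma tendsto_g_zero : Tendsto D.g atImInfty (𝓝 0) := by
  have h := tendsto_of_nice (nice_G0 D.g)
  have h0 : (qExpansion 1 D.g).coeff 0 = 0 := by
    rw [D.qExp, PowerSeries.coeff_map, PowerSeries.coeff_X_pow_mul', if_neg (by have := D.hr; omega)]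
    simp
  rwa [h0] at h

/-- the translates of `g` are pairwise distinct. -/
lemma injective_quotientFunc_g :
    Function.Injective (quotientFunc D.g : Q0 N → ℍ → ℂ) := by
  refine injective_quotientFunc_of_stabilizer D.g ?_
  rintro _ ⟨γ, rfl⟩ hγ
  by_contra hmem
  have hγN : γ ∉ CongruenceSubgroup.Gamma0 N := fun h => hmem ⟨γ, h, rfl⟩
  obtain ⟨κ, hκ, hlim⟩ := D.lim γ hγN
  have h1 : ((D.g : ℍ → ℂ) ∣[12 * (D.w : ℤ)] γ) = D.g := hγ
  rw [h1] at hlim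
  exact ChiCBridge.LU.ne_zero hκ (tendsto_nhds_unique hlim (tendsto_g_zero D))

/-- the Laurent series of `u = g / Δ ^ w`. -/
local notation "𝔲" => ChiC.uL D.w (qExpansion 1 D.g)

lemma Lq_g : Lq D.g = ChiC.uL D.w (qExpansion 1 D.g) * DL ^ D.w := by
  rw [ChiC.uL, div_mul_cancel₀ _ (pow_ne_zero _ DL_ne_zero)]
  rfl

lemma isMF_Delta : IsMF 𝒮ℒ 12 Δ := ⟨LevelD.DeltaMF, rfl⟩

lemma Delta_ne_zero' : (Δ : ℍ → ℂ) ≠ 0 := fun h =>
  discriminant_ne_zero UpperHalfPlane.I (congrFun h _)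

/-- every form of weight `12` on `Γ₀(N)` is `Δ` times a rational function of `j` and `u`. -/
theorem exists_rel (f : ModularForm (G0 N) 12) :
    ∃ (Q : ℂ[X]) (S : ℂ[X][X]), Q ≠ 0 ∧
      ChiC.evalL jL Q * Lq f = DL * S.eval₂ (ChiC.evalL jL) (ChiC.uL D.w (qExpansion 1 D.g)) := by
  obtain ⟨m, D₁, c, hD₁, hrel⟩ := exists_interpolation f D.g (injective_quotientFunc_g D)
  set n := Nat.card (Q0 N) with hn
  have hD₁N : Nice D₁ := nice_levelOne D₁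
  have hΔN : Nice Δ := ChiC.nice_Delta
  have hfN := nice_G0 f
  have hgN := nice_G0 D.g
  have hD₁0 : (D₁ : ℍ → ℂ) ≠ 0 := fun h => hD₁ (DFunLike.coe_injective h)
  have hbM : IsMF 𝒮ℒ (m + 12) ((D₁ : ℍ → ℂ) * Δ) := IsMF.mul ⟨D₁, rfl⟩ isMF_Delta
  have hLb : Lq ((D₁ : ℍ → ℂ) * Δ) = Lq D₁ * DL := Lq_mul hD₁N hΔN
  have hLb0 : Lq D₁ * DL ≠ 0 := mul_ne_zero (Lq_ne_zero hD₁N hD₁0) DL_ne_zero
  have hb0 : (D₁ : ℍ → ℂ) * Δ ≠ 0 := by
    intro h
    rw [h] at hLb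
    apply hLb0
    rw [← hLb, Lq, qExpansion_zero, map_zero]
  obtain ⟨Q, hQ, hP⟩ := exists_ratio hbM hb0
  have haM : ∀ j : ℕ, IsMF 𝒮ℒ (m + 12) ((c j : ℍ → ℂ) * Δ ^ (D.w * j)) := fun j =>
    (IsMF.mul ⟨c j, rfl⟩ (isMF_Delta.pow (D.w * j))).cast (by push_cast; ring)
  choose P hP using fun j => hP _ (haM j)
  refine ⟨Q, ∑ j ∈ Finset.range n, Polynomial.C (P j) * Polynomial.X ^ j, hQ, ?_⟩
  have hfun : (D₁ : ℍ → ℂ) * f = ∑ j ∈ Finset.range n, (c j : ℍ → ℂ) * (D.g : ℍ → ℂ) ^ j := by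
    funext z
    rw [Pi.mul_apply, hrel z, Finset.sum_apply]
    rfl
  have hL : Lq D₁ * Lq f = ∑ j ∈ Finset.range n, Lq (c j) * Lq D.g ^ j := by
    rw [← Lq_mul hD₁N hfN, hfun, Lq_sum _ fun j _ => (nice_levelOne (c j)).mul (hgN.pow j)]
    refine Finset.sum_congr rfl fun j _ => ?_
    rw [Lq_mul (nice_levelOne (c j)) (hgN.pow j), Lq_pow hgN]
  apply mul_left_cancel₀ hLb0
  rw [Polynomial.eval₂_finsetSum]
  simp only [Polynomial.eval₂_mul, Polynomial.eval₂_C, Polynomial.eval₂_pow, Polynomial.eval₂_X]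
  calc Lq D₁ * DL * (ChiC.evalL jL Q * Lq f)
      = DL * ChiC.evalL jL Q * (Lq D₁ * Lq f) := by ring
    _ = DL * ChiC.evalL jL Q * ∑ j ∈ Finset.range n, Lq (c j) * Lq D.g ^ j := by rw [hL]
    _ = ∑ j ∈ Finset.range n, DL * ((Lq ((c j : ℍ → ℂ) * Δ ^ (D.w * j)) * ChiC.evalL jL Q) *
          ChiC.uL D.w (qExpansion 1 D.g) ^ j) := by
        rw [Finset.mul_sum]
        refine Finset.sum_congr rfl fun j _ => ?_
        rw [Lq_mul (nice_levelOne (c j)) (hΔN.pow _), Lq_pow hΔN, Lq_g, mul_pow, ← pow_mul,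
          Lq_Delta]
        ring
    _ = ∑ j ∈ Finset.range n, DL * ((Lq ((D₁ : ℍ → ℂ) * Δ) * ChiC.evalL jL (P j)) *
          ChiC.uL D.w (qExpansion 1 D.g) ^ j) := by
        refine Finset.sum_congr rfl fun j _ => ?_
        rw [hP j]
    _ = Lq D₁ * DL * (DL * ∑ j ∈ Finset.range n, ChiC.evalL jL (P j) *
          ChiC.uL D.w (qExpansion 1 D.g) ^ j) := by
        rw [Finset.mul_sum, Finset.mul_sum]
        refine Finset.sum_congr rfl fun j _ => ?_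
        rw [hLb]
        ring

end main

section final

variable {N ℓ : ℕ} [NeZero N] [Fact ℓ.Prime] (D : EtaData N ℓ)

lemma coeffMap_qExpand {R S : Type*} [CommRing R] [CommRing S] (φ : R →+* S) (d : ℕ) [NeZero d]
    (x : LaurentSeries R) : coeffMap φ (qExpand R d x) = qExpand S d (coeffMap φ x) := by
  ext k
  rw [coeffMap_coeff]
  by_cases hk : (d : ℤ) ∣ k
  · obtain ⟨m, rfl⟩ := hk
    rw [qExpand_coeff_mul, qExpand_coeff_mul, coeffMap_coeff]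
  · rw [qExpand_coeff_of_not_dvd _ _ hk, qExpand_coeff_of_not_dvd _ _ hk, map_zero]

lemma jL_eq : jL = jqModC ℂ :=
  ChiCBridge.ChiC_jL_eq ChiCBridge.qExpansion_E4 ChiCBridge.qExpansion_discriminant

lemma uL_eq : ChiC.uL D.w (qExpansion 1 D.g) = uL D ℂ :=
  ChiCBridge.ChiC_uL_eq ChiCBridge.qExpansion_discriminant D

/-- **(A9)** over `ℂ`: an explicit relation. -/
theorem exists_relation (d : ℕ) [NeZero d] (hd : d ∣ N) :
    ∃ Dp Sp : ℂ[X][X], Dp.eval₂ (evalL ℂ (jqModC ℂ)) (uL D ℂ) ≠ 0 ∧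
      Dp.eval₂ (evalL ℂ (jqModC ℂ)) (uL D ℂ) * qExpand ℂ d (jqModC ℂ) =
        Sp.eval₂ (evalL ℂ (jqModC ℂ)) (uL D ℂ) := by
  obtain ⟨Q₁, S₁, hQ₁, h₁⟩ := exists_rel D (LevelD.dil N d hd LevelD.E4cube)
  obtain ⟨Q₂, S₂, hQ₂, h₂⟩ := exists_rel D (LevelD.dil N d hd LevelD.DeltaMF)
  rw [ChiCBridge.ChiC_evalL_eq, jL_eq, uL_eq] at h₁ h₂
  have hf₁ : Lq (LevelD.dil N d hd LevelD.E4cube) = qExpand ℂ d (EL ^ 3) := by
    rw [Lq, ChiC.toL, LevelD.ofPowerSeries_qExpansion_dil, LevelD.qExpansion_E4cube, map_pow]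
    rfl
  have hf₂ : Lq (LevelD.dil N d hd LevelD.DeltaMF) = qExpand ℂ d DL := by
    rw [Lq, ChiC.toL, LevelD.ofPowerSeries_qExpansion_dil]
    rfl
  have hVD : qExpand ℂ d DL ≠ 0 := fun h =>
    DL_ne_zero (qExpand_injective d (by rw [h, map_zero]))
  have hj : qExpand ℂ d (jqModC ℂ) * qExpand ℂ d DL = qExpand ℂ d (EL ^ 3) := by
    rw [← map_mul, ← jL_eq, ChiC.jL, div_mul_cancel₀ _ DL_ne_zero]
  rw [hf₁] at h₁
  rw [hf₂] at h₂
  have hinj := Rational.evalL_jqModC_injective ℂ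
  have hq₁ : evalL ℂ (jqModC ℂ) Q₁ ≠ 0 := fun h => hQ₁ (hinj (by rw [h, map_zero]))
  have hq₂ : evalL ℂ (jqModC ℂ) Q₂ ≠ 0 := fun h => hQ₂ (hinj (by rw [h, map_zero]))
  refine ⟨Polynomial.C Q₁ * S₂, Polynomial.C Q₂ * S₁, ?_, ?_⟩
  · rw [Polynomial.eval₂_mul, Polynomial.eval₂_C]
    refine mul_ne_zero hq₁ fun h => ?_
    rw [h, mul_zero] at h₂
    exact (mul_ne_zero hq₂ hVD) h₂
  · rw [Polynomial.eval₂_mul, Polynomial.eval₂_C, Polynomial.eval₂_mul, Polynomial.eval₂_C]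
    apply mul_left_cancel₀ DL_ne_zero
    calc DL * (evalL ℂ (jqModC ℂ) Q₁ * S₂.eval₂ (evalL ℂ (jqModC ℂ)) (uL D ℂ) *
          qExpand ℂ d (jqModC ℂ))
        = evalL ℂ (jqModC ℂ) Q₁ * qExpand ℂ d (jqModC ℂ) *
          (DL * S₂.eval₂ (evalL ℂ (jqModC ℂ)) (uL D ℂ)) := by ring
      _ = evalL ℂ (jqModC ℂ) Q₁ * qExpand ℂ d (jqModC ℂ) *
          (evalL ℂ (jqModC ℂ) Q₂ * qExpand ℂ d DL) := by rw [h₂]
      _ = evalL ℂ (jqModC ℂ) Q₂ * (evalL ℂ (jqModC ℂ) Q₁ *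
          (qExpand ℂ d (jqModC ℂ) * qExpand ℂ d DL)) := by ring
      _ = evalL ℂ (jqModC ℂ) Q₂ * (DL * S₁.eval₂ (evalL ℂ (jqModC ℂ)) (uL D ℂ)) := by
          rw [hj, h₁]
      _ = _ := by ring

/-- **(A9)**, skeleton statement. -/
theorem generation (N : ℕ) [NeZero N] (ℓ : ℕ) [Fact ℓ.Prime] (D : EtaData N ℓ)
    (d : ℕ) [NeZero d] (hd : d ∣ N) :
    qExpand ℚ d jq ∈ IntermediateField.adjoin ℚ {jq, uL D ℚ} := by
  obtain ⟨Dp, Sp, h0, h⟩ := exists_relation D d hd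
  have e1 : Rational.toC jq = jqModC ℂ := Rational.toC_jq
  have e2 : Rational.toC (uL D ℚ) = uL D ℂ := coeffMap_uL D _
  have e3 : Rational.toC (qExpand ℚ d jq) = qExpand ℂ d (jqModC ℂ) := by
    rw [Rational.toC, coeffMap_qExpand, ← e1]
  exact Rational.mem_adjoin_of_relation jq (uL D ℚ) (qExpand ℚ d jq) Dp Sp
    (by rw [e1, e2]; exact h0) (by rw [e1, e2, e3]; exact h)

end final

end Fermat.Agent.S28.GenInterp

end
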