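import Mathlib

/-!
# S28 analytic toolkit, part K0: functions on `ℍ` which are `h`-periodic, holomorphic, bounded at `i∞`

`NiceH h f` : `f` is `h`-periodic, holomorphic and bounded at `i∞`.  On such functions
`qExpansion h` is an injective ring homomorphism.

`IntExp O h f` : moreover all the coefficients of `qExpansion h f` lie in the subring `O ⊆ ℂ`.
-/

set_option autoImplicit false

open UpperHalfPlane Filter Topology
open scoped Manifold MatrixGroups ModularForm

namespace Fermat.Agent.S28.Analytic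

/-- Functions on the upper half plane which are `h`-periodic, holomorphic and bounded at `i∞`. -/
structure NiceH (h : ℝ) (f : ℍ → ℂ) : Prop where
  per : Function.Periodic (f ∘ ofComplex) h
  holo : MDiff f
  bdd : IsBoundedAtImInfty f

namespace NiceH

variable {h : ℝ} {f g : ℍ → ℂ}

lemma analyticAt (hh : 0 < h) (hf : NiceH h f) : AnalyticAt ℂ (cuspFunction h f) 0 :=
  analyticAt_cuspFunction_zero hh hf.per hf.holo hf.bdd

lemma of_modularFormClass {F : Type*} [FunLike F ℍ ℂ] {Γ : Subgroup (GL (Fin 2) ℝ)} {k : ℤ}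
    [ModularFormClass F Γ k] (hh : 0 < h) (h1 : h ∈ Γ.strictPeriods) (f : F) :
    NiceH h (f : ℍ → ℂ) :=
  have : Fact (IsCusp OnePoint.infty Γ) := ⟨Γ.isCusp_of_mem_strictPeriods hh h1⟩
  ⟨SlashInvariantFormClass.periodic_comp_ofComplex f h1, ModularFormClass.holo f,
    ModularFormClass.bdd_at_infty f⟩

lemma zero : NiceH h (0 : ℍ → ℂ) :=
  ⟨fun _ => rfl, mdifferentiable_const, zero_form_isBoundedAtImInfty⟩

lemma const (c : ℂ) : NiceH h (fun _ => c : ℍ → ℂ) :=
  ⟨fun _ => rfl, mdifferentiable_const, Filter.const_boundedAtFilter _ c⟩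

lemma one : NiceH h (1 : ℍ → ℂ) := const 1

lemma add (hf : NiceH h f) (hg : NiceH h g) : NiceH h (f + g) :=
  ⟨fun z => by
      have h1 := hf.per z
      have h2 := hg.per z
      simp only [Function.comp_apply, Pi.add_apply] at h1 h2 ⊢
      rw [h1, h2],
    hf.holo.add hg.holo, hf.bdd.add hg.bdd⟩

lemma mul (hf : NiceH h f) (hg : NiceH h g) : NiceH h (f * g) :=
  ⟨fun z => by
      have h1 := hf.per z
      have h2 := hg.per z
      simp only [Function.comp_apply, Pi.mul_apply] at h1 h2 ⊢
      rw [h1, h2],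
    hf.holo.mul hg.holo, hf.bdd.mul hg.bdd⟩

lemma neg (hf : NiceH h f) : NiceH h (-f) := by
  have : -f = (fun _ => (-1 : ℂ)) * f := by ext z; simp
  rw [this]
  exact (const _).mul hf

lemma sub (hf : NiceH h f) (hg : NiceH h g) : NiceH h (f - g) := by
  rw [sub_eq_add_neg]
  exact hf.add hg.neg

lemma smul (c : ℂ) (hf : NiceH h f) : NiceH h (c • f) := by
  have : c • f = (fun _ => c) * f := by ext z; simp
  rw [this]
  exact (const _).mul hf

lemma pow (hf : NiceH h f) (n : ℕ) : NiceH h (f ^ n) := by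
  induction n with
  | zero => simpa using one
  | succ n ih => rw [pow_succ]; exact ih.mul hf

lemma sum {ι : Type*} (s : Finset ι) {F : ι → ℍ → ℂ} (hF : ∀ i ∈ s, NiceH h (F i)) :
    NiceH h (∑ i ∈ s, F i) := by
  classical
  induction s using Finset.induction_on with
  | empty => simpa using zero
  | insert a s ha ih =>
    rw [Finset.sum_insert ha]
    exact (hF a (Finset.mem_insert_self _ _)).add
      (ih fun i hi => hF i (Finset.mem_insert_of_mem hi))

lemma prod {ι : Type*} (s : Finset ι) {F : ι → ℍ → ℂ} (hF : ∀ i ∈ s, NiceH h (F i)) :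
    NiceH h (∏ i ∈ s, F i) := by
  classical
  induction s using Finset.induction_on with
  | empty => simpa using one
  | insert a s ha ih =>
    rw [Finset.prod_insert ha]
    exact (hF a (Finset.mem_insert_self _ _)).mul
      (ih fun i hi => hF i (Finset.mem_insert_of_mem hi))

lemma qExp_add (hh : 0 < h) (hf : NiceH h f) (hg : NiceH h g) :
    qExpansion h (f + g) = qExpansion h f + qExpansion h g :=
  qExpansion_add (hf.analyticAt hh) (hg.analyticAt hh)

lemma qExp_mul (hh : 0 < h) (hf : NiceH h f) (hg : NiceH h g) :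
    qExpansion h (f * g) = qExpansion h f * qExpansion h g :=
  qExpansion_mul (hf.analyticAt hh) (hg.analyticAt hh)

lemma qExp_neg (hh : 0 < h) (hf : NiceH h f) : qExpansion h (-f) = -qExpansion h f :=
  qExpansion_neg (hf.analyticAt hh)

lemma qExp_sub (hh : 0 < h) (hf : NiceH h f) (hg : NiceH h g) :
    qExpansion h (f - g) = qExpansion h f - qExpansion h g :=
  qExpansion_sub (hf.analyticAt hh) (hg.analyticAt hh)

lemma qExp_smul (hh : 0 < h) (c : ℂ) (hf : NiceH h f) :
    qExpansion h (c • f) = c • qExpansion h f :=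
  qExpansion_smul (hf.analyticAt hh) c

lemma qExp_pow (hh : 0 < h) (hf : NiceH h f) (n : ℕ) :
    qExpansion h (f ^ n) = qExpansion h f ^ n := by
  induction n with
  | zero => simpa using qExpansion_one h
  | succ n ih => rw [pow_succ, qExp_mul hh (hf.pow n) hf, ih, pow_succ]

lemma qExp_sum (hh : 0 < h) {ι : Type*} (s : Finset ι) {F : ι → ℍ → ℂ}
    (hF : ∀ i ∈ s, NiceH h (F i)) :
    qExpansion h (∑ i ∈ s, F i) = ∑ i ∈ s, qExpansion h (F i) := by
  classical
  induction s using Finset.induction_on with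
  | empty => simpa using qExpansion_zero h
  | insert a s ha ih =>
    rw [Finset.sum_insert ha, Finset.sum_insert ha,
      qExp_add hh (hF a (Finset.mem_insert_self _ _))
        (sum s fun i hi => hF i (Finset.mem_insert_of_mem hi)),
      ih fun i hi => hF i (Finset.mem_insert_of_mem hi)]

lemma qExp_prod (hh : 0 < h) {ι : Type*} (s : Finset ι) {F : ι → ℍ → ℂ}
    (hF : ∀ i ∈ s, NiceH h (F i)) :
    qExpansion h (∏ i ∈ s, F i) = ∏ i ∈ s, qExpansion h (F i) := by
  classical
  induction s using Finset.induction_on with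
  | empty => simpa using qExpansion_one h
  | insert a s ha ih =>
    rw [Finset.prod_insert ha, Finset.prod_insert ha,
      qExp_mul hh (hF a (Finset.mem_insert_self _ _))
        (prod s fun i hi => hF i (Finset.mem_insert_of_mem hi)),
      ih fun i hi => hF i (Finset.mem_insert_of_mem hi)]

lemma qExp_eq_zero_iff (hh : 0 < h) (hf : NiceH h f) : qExpansion h f = 0 ↔ f = 0 :=
  qExpansion_eq_zero_iff hh hf.per hf.holo hf.bdd

lemma qExp_injective (hh : 0 < h) (hf : NiceH h f) (hg : NiceH h g)
    (H : qExpansion h f = qExpansion h g) : f = g := by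
  have := ((hf.sub hg).qExp_eq_zero_iff hh).mp (by rw [qExp_sub hh hf hg, H, sub_self])
  exact sub_eq_zero.mp this

lemma qExp_const (hh : 0 < h) (c : ℂ) :
    qExpansion h (fun _ => c : ℍ → ℂ) = PowerSeries.C c := by
  have : (fun _ => c : ℍ → ℂ) = c • (1 : ℍ → ℂ) := by ext z; simp
  rw [this, qExp_smul hh c one, qExpansion_one]
  ext n
  simp [PowerSeries.coeff_C, PowerSeries.coeff_one]

lemma hasSum (hh : 0 < h) (hf : NiceH h f) (τ : ℍ) :
    HasSum (fun m : ℕ => (qExpansion h f).coeff m • Function.Periodic.qParam h τ ^ m) (f τ) :=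
  hasSum_qExpansion hh hf.per hf.holo hf.bdd τ

/-- uniqueness of `q`-expansion coefficients, for plain functions -/
lemma coeff_unique (hh : 0 < h) (hf : NiceH h f) {c : ℕ → ℂ}
    (H : ∀ τ : ℍ, HasSum (fun m => c m • Function.Periodic.qParam h τ ^ m) (f τ)) (m : ℕ) :
    (qExpansion h f).coeff m = c m := by
  let _ : FunLike (ℍ → ℂ) ℍ ℂ := ⟨id, fun _ _ h => h⟩
  exact (qExpansion_coeff_unique (F := ℍ → ℂ) f hh (hf.analyticAt hh) H m).symm

/-- **K3.** A nice function tends to the constant coefficient of its `q`-expansion. -/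
lemma tendsto_coeff_zero (hh : 0 < h) (hf : NiceH h f) :
    Tendsto f atImInfty (𝓝 ((qExpansion h f).coeff 0)) := by
  have h1 : ContinuousAt (cuspFunction h f) 0 := (hf.analyticAt hh).continuousAt
  have h2 := h1.tendsto.comp (qParam_tendsto_atImInfty hh)
  have h3 : (cuspFunction h f ∘ fun τ : ℍ => Function.Periodic.qParam h τ) = f := by
    funext τ
    exact eq_cuspFunction τ hh.ne' hf.per
  rw [h3] at h2
  have h4 : (qExpansion h f).coeff 0 = cuspFunction h f 0 := by
    simp [qExpansion_coeff]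
  rwa [h4]

lemma coeff_zero_eq_of_tendsto (hh : 0 < h) (hf : NiceH h f) {L : ℂ}
    (hL : Tendsto f atImInfty (𝓝 L)) : (qExpansion h f).coeff 0 = L :=
  tendsto_nhds_unique (hf.tendsto_coeff_zero hh) hL

end NiceH

/-- `f` is nice of period `h` and its `q`-expansion has all coefficients in the subring `O`. -/
structure IntExp (O : Subring ℂ) (h : ℝ) (f : ℍ → ℂ) : Prop where
  nice : NiceH h f
  coeff_mem : ∀ n : ℕ, (qExpansion h f).coeff n ∈ O

namespace IntExp

variable {O : Subring ℂ} {h : ℝ} {f g : ℍ → ℂ}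

lemma mono {O' : Subring ℂ} (hO : O ≤ O') (hf : IntExp O h f) : IntExp O' h f :=
  ⟨hf.nice, fun n => hO (hf.coeff_mem n)⟩

lemma zero : IntExp O h (0 : ℍ → ℂ) :=
  ⟨NiceH.zero, fun n => by rw [qExpansion_zero]; simp⟩

lemma const (hh : 0 < h) {c : ℂ} (hc : c ∈ O) : IntExp O h (fun _ => c : ℍ → ℂ) :=
  ⟨NiceH.const c, fun n => by
    rw [NiceH.qExp_const hh, PowerSeries.coeff_C]
    split_ifs
    · exact hc
    · exact O.zero_mem⟩

lemma one (hh : 0 < h) : IntExp O h (1 : ℍ → ℂ) := const hh O.one_mem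

lemma add (hh : 0 < h) (hf : IntExp O h f) (hg : IntExp O h g) : IntExp O h (f + g) :=
  ⟨hf.nice.add hg.nice, fun n => by
    rw [NiceH.qExp_add hh hf.nice hg.nice, map_add]
    exact O.add_mem (hf.coeff_mem n) (hg.coeff_mem n)⟩

lemma mul (hh : 0 < h) (hf : IntExp O h f) (hg : IntExp O h g) : IntExp O h (f * g) :=
  ⟨hf.nice.mul hg.nice, fun n => by
    rw [NiceH.qExp_mul hh hf.nice hg.nice, PowerSeries.coeff_mul]
    exact O.sum_mem fun p _ => O.mul_mem (hf.coeff_mem _) (hg.coeff_mem _)⟩

lemma neg (hh : 0 < h) (hf : IntExp O h f) : IntExp O h (-f) :=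
  ⟨hf.nice.neg, fun n => by
    rw [NiceH.qExp_neg hh hf.nice, map_neg]
    exact O.neg_mem (hf.coeff_mem n)⟩

lemma sub (hh : 0 < h) (hf : IntExp O h f) (hg : IntExp O h g) : IntExp O h (f - g) := by
  rw [sub_eq_add_neg]
  exact hf.add hh (hg.neg hh)

lemma smul (hh : 0 < h) {c : ℂ} (hc : c ∈ O) (hf : IntExp O h f) : IntExp O h (c • f) :=
  ⟨hf.nice.smul c, fun n => by
    rw [NiceH.qExp_smul hh c hf.nice, PowerSeries.coeff_smul]
    exact O.mul_mem hc (hf.coeff_mem n)⟩

lemma pow (hh : 0 < h) (hf : IntExp O h f) (n : ℕ) : IntExp O h (f ^ n) := by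
  induction n with
  | zero => simpa using one hh
  | succ n ih => rw [pow_succ]; exact ih.mul hh hf

lemma sum (hh : 0 < h) {ι : Type*} (s : Finset ι) {F : ι → ℍ → ℂ}
    (hF : ∀ i ∈ s, IntExp O h (F i)) : IntExp O h (∑ i ∈ s, F i) := by
  classical
  induction s using Finset.induction_on with
  | empty => simpa using zero
  | insert a s ha ih =>
    rw [Finset.sum_insert ha]
    exact (hF a (Finset.mem_insert_self _ _)).add hh
      (ih fun i hi => hF i (Finset.mem_insert_of_mem hi))

lemma prod (hh : 0 < h) {ι : Type*} (s : Finset ι) {F : ι → ℍ → ℂ}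
    (hF : ∀ i ∈ s, IntExp O h (F i)) : IntExp O h (∏ i ∈ s, F i) := by
  classical
  induction s using Finset.induction_on with
  | empty => simpa using one hh
  | insert a s ha ih =>
    rw [Finset.prod_insert ha]
    exact (hF a (Finset.mem_insert_self _ _)).mul hh
      (ih fun i hi => hF i (Finset.mem_insert_of_mem hi))

/-- Polynomial expressions (with coefficients in `O`) of functions with expansions in `O`. -/
lemma aeval_mvPolynomial (hh : 0 < h) {ι : Type*} {F : ι → ℍ → ℂ} (hF : ∀ i, IntExp O h (F i))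
    (P : MvPolynomial ι ℂ) (hP : ∀ m, P.coeff m ∈ O) :
    IntExp O h (fun z => MvPolynomial.aeval (fun i => F i z) P) := by
  classical
  have key : (fun z => MvPolynomial.aeval (fun i => F i z) P) =
      ∑ m ∈ P.support, P.coeff m • ∏ i ∈ m.support, F i ^ m i := by
    funext z
    rw [MvPolynomial.aeval_def, MvPolynomial.eval₂_eq]
    simp [Finset.sum_apply, Finset.prod_apply]
  rw [key]
  exact sum hh _ fun m _ => smul hh (hP m) (prod hh _ fun i _ => (hF i).pow hh _)

end IntExp

end Fermat.Agent.S28.Analytic
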