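import Mathlib
import Fermat.Agent.S23.Nice

/-!
# S28: a level one modular form without zeros on `ℍ` is `c * Δ ^ m`
-/

set_option autoImplicit false

namespace Fermat.Agent.S28.NoZeros

open UpperHalfPlane ModularForm EisensteinSeries ModularFormClass SlashInvariantFormClass
  CuspFormClass Filter Asymptotics OnePoint SlashInvariantForm
open scoped MatrixGroups Topology Manifold
open Fermat.Agent.S23

local notation "Δ" => ModularForm.discriminant

/-- A nice function tends to the constant term of its `q`-expansion. -/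
lemma tendsto_of_nice {f : ℍ → ℂ} (hf : Nice f) :
    Tendsto f atImInfty (𝓝 ((qExpansion 1 f).coeff 0)) := by
  have hanal := hf.analyticAt
  rw [qExpansion_coeff_zero one_pos hanal hf.per, ← cuspFunction_apply_zero one_pos hanal hf.per]
  exact (hanal.continuousAt.tendsto.comp (qParam_tendsto_atImInfty one_pos)).congr
    (fun τ ↦ eq_cuspFunction τ one_ne_zero hf.per)

lemma coeff_zero_eq_of_tendsto {f : ℍ → ℂ} (hf : Nice f) {c : ℂ}
    (h : Tendsto f atImInfty (𝓝 c)) : (qExpansion 1 f).coeff 0 = c :=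
  tendsto_nhds_unique (tendsto_of_nice hf) h

lemma nice_levelOne {k : ℤ} (f : ModularForm 𝒮ℒ k) : Nice f :=
  Nice.of_modularFormClass one_mem_strictPeriods_SL f

lemma inv_slash_eq {k : ℤ} (f : ModularForm 𝒮ℒ k) (γ : SL(2, ℤ)) :
    (fun z ↦ 1 / f z) ∣[-k] γ = fun z ↦ 1 / f z := by
  have hγ : (γ : GL (Fin 2) ℝ) ∈ 𝒮ℒ := ⟨γ, rfl⟩
  have h1 : (fun z ↦ 1 / f z) = (1 : ℍ → ℂ) / ⇑f := rfl
  rw [h1, show -k = 0 - k by ring, div_slash_SL2, is_invariant_one, SL_slash,
    slash_action_eqn _ _ hγ]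

/-- the inverse of a nowhere vanishing level one form which does not vanish at `∞` -/
noncomputable def invForm {k : ℤ} (f : ModularForm 𝒮ℒ k) (hf : ∀ z, f z ≠ 0)
    (h0 : (qExpansion 1 f).coeff 0 ≠ 0) : ModularForm 𝒮ℒ (-k) where
  toFun z := 1 / f z
  slash_action_eq' := fun _ ⟨γ, hγ⟩ ↦ hγ ▸ inv_slash_eq f γ
  holo' := (mdifferentiable_const (c := (1 : ℂ))).div f.holo' hf
  bdd_at_cusps' {c} hc := by
    rw [Subgroup.IsArithmetic.isCusp_iff_isCusp_SL2Z] at hc
    rw [isBoundedAt_iff_forall_SL2Z hc]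
    intro γ _
    rw [inv_slash_eq f γ, IsBoundedAtImInfty, BoundedAtFilter]
    have := ((tendsto_of_nice (nice_levelOne f)).inv₀ h0)
    simp only [one_div]
    exact this.isBigO_one ℝ

/-- A level one form of positive weight without zeros on `ℍ` vanishes at `∞`. -/
lemma coeff_zero_eq_zero {k : ℤ} (hk : 0 < k) (f : ModularForm 𝒮ℒ k) (hf : ∀ z, f z ≠ 0) :
    (qExpansion 1 f).coeff 0 = 0 := by
  by_contra h0
  have h := levelOne_neg_weight_eq_zero (k := -k) (by omega) (invForm f hf h0)
  have h1 : invForm f hf h0 I = 0 := by rw [h]; rfl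
  have h2 : invForm f hf h0 I = 1 / f I := rfl
  rw [h2] at h1
  exact one_div_ne_zero (hf I) h1

/-- A level one form of weight `12 m` without zeros on `ℍ` is a multiple of `Δ ^ m`. -/
theorem eq_const_mul_discriminant_pow (m : ℕ) : ∀ {k : ℤ} (_ : k = 12 * m)
    (f : ModularForm 𝒮ℒ k) (_ : ∀ z, f z ≠ 0), ∃ c : ℂ, c ≠ 0 ∧ ∀ z, f z = c * Δ z ^ m := by
  induction m with
  | zero =>
    intro k hk f hf
    obtain rfl : k = 0 := by simpa using hk
    obtain ⟨c, hc⟩ := levelOne_weight_zero_const f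
    refine ⟨c, ?_, fun z => by simp [hc]⟩
    have := hf I
    rw [hc] at this
    exact this
  | succ m ih =>
    intro k hk f hf
    have hcusp := coeff_zero_eq_zero (by rw [hk]; positivity) f hf
    set g := CuspForm.discriminantEquiv (toCuspForm f hcusp) with hg
    have hfg : ∀ z, f z = Δ z * g z := fun z => by
      rw [hg, discriminant_mul_discriminantEquiv_apply]; rfl
    obtain ⟨c, hc, h⟩ := ih (k := k - 12) (by rw [hk]; push_cast; ring) g (fun z hz => by
      apply hf z; rw [hfg, hz, mul_zero])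
    exact ⟨c, hc, fun z => by rw [hfg, h, pow_succ]; ring⟩

end Fermat.Agent.S28.NoZeros
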