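import Mathlib
import Fermat.Agent.S23.Nice
import Fermat.Agent.S23.Sym
import Fermat.Agent.S28.Analytic.LevelOnePoly
import Fermat.Agent.S28.Analytic.NoZeros

/-!
# S28 (A5): the complex polynomial `χ` attached to a form `g` with all its zeros at `∞`
-/

set_option autoImplicit false
set_option linter.unusedSectionVars false

namespace Fermat.Agent.S28.ChiC

open UpperHalfPlane ModularForm SlashInvariantForm Filter
open scoped MatrixGroups Topology Manifold ModularForm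
open Fermat.Agent.S23 Fermat.Agent.S23.Sym Fermat.Agent.S28.LevelOnePoly Fermat.Agent.S28.NoZeros

local notation "Δ" => ModularForm.discriminant

section comb

variable {σ : Type*} [Fintype σ] [DecidableEq σ]

lemma aeval_esymm_card (x : σ → ℂ) :
    MvPolynomial.aeval x (MvPolynomial.esymm σ ℂ (Fintype.card σ)) = ∏ q, x q := by
  rw [MvPolynomial.aeval_esymm_eq_multiset_esymm, Finset.esymm_map_val, ← Finset.card_univ,
    Finset.powersetCard_self, Finset.sum_singleton]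

lemma aeval_esymm_card_sub_one (x : σ → ℂ) (a : σ) (ha : x a = 0) :
    MvPolynomial.aeval x (MvPolynomial.esymm σ ℂ (Fintype.card σ - 1)) =
      ∏ q ∈ Finset.univ.erase a, x q := by
  rw [MvPolynomial.aeval_esymm_eq_multiset_esymm, Finset.esymm_map_val]
  rw [Finset.sum_eq_single (Finset.univ.erase a)]
  · intro t ht hne
    rw [Finset.mem_powersetCard] at ht
    have hat : a ∈ t := by
      by_contra hat
      apply hne
      apply Finset.eq_of_subset_of_card_le
      · intro y hy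
        exact Finset.mem_erase.mpr ⟨fun h => hat (h ▸ hy), Finset.mem_univ _⟩
      · rw [Finset.card_erase_of_mem (Finset.mem_univ a), Finset.card_univ, ht.2]
    exact Finset.prod_eq_zero hat ha
  · intro h
    exfalso
    apply h
    rw [Finset.mem_powersetCard]
    exact ⟨Finset.subset_univ _, by rw [Finset.card_erase_of_mem (Finset.mem_univ a),
      Finset.card_univ]⟩

lemma tendsto_aeval {ι : Type*} {l : Filter ι} (p : MvPolynomial σ ℂ) (F : σ → ι → ℂ) (x : σ → ℂ)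
    (h : ∀ q, Tendsto (F q) l (𝓝 (x q))) :
    Tendsto (fun z => MvPolynomial.aeval (fun q => F q z) p) l (𝓝 (MvPolynomial.aeval x p)) := by
  have hc : Continuous fun y : σ → ℂ => MvPolynomial.aeval y p :=
    MvPolynomial.continuous_eval p
  exact (hc.tendsto x).comp (tendsto_pi_nhds.mpr h)

end comb

section translates

variable {𝒢 : Subgroup (GL (Fin 2) ℝ)} {k : ℤ}

local notation "𝒬" => 𝒮ℒ ⧸ (𝒢.subgroupOf 𝒮ℒ)

lemma quotientFunc_ne_zero (g : ModularForm 𝒢 k) (hg : ∀ z, g z ≠ 0) (q : 𝒬) (z : ℍ) :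
    quotientFunc g q z ≠ 0 := by
  induction q using Quotient.inductionOn with
  | h r =>
    rw [quotientFunc_mk]
    obtain ⟨γ, hγ⟩ := (inv_mem r.2 : r.val⁻¹ ∈ 𝒮ℒ)
    rw [← hγ]
    have : ((g : ℍ → ℂ) ∣[k] (Matrix.SpecialLinearGroup.mapGL ℝ γ)) z =
        ((g : ℍ → ℂ) ∣[k] γ) z := rfl
    rw [this, SL_slash_apply]
    exact mul_ne_zero (hg _) (zpow_ne_zero _ (denom_ne_zero _ _))

end translates

section main

variable {𝒢 : Subgroup (GL (Fin 2) ℝ)} [𝒢.HasDetPlusMinusOne] [𝒢.IsArithmetic]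

local notation "𝒬" => 𝒮ℒ ⧸ (𝒢.subgroupOf 𝒮ℒ)

attribute [local instance] Fermat.Agent.S23.Sym.instFintypeQ

open Classical in
/-- the product of the nontrivial translates -/
noncomputable def cofactor {k : ℤ} (g : ModularForm 𝒢 k) : ℍ → ℂ :=
  fun z => ∏ q ∈ (Finset.univ : Finset 𝒬).erase ((1 : 𝒮ℒ) : 𝒬), quotientFunc g q z

lemma esymmFun_card {k : ℤ} (g : ModularForm 𝒢 k) (z : ℍ) :
    esymmFun g (Nat.card 𝒬) z = g z * cofactor g z := by
  classical
  rw [esymmFun, Nat.card_eq_fintype_card, aeval_esymm_card, cofactor,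
    ← Finset.mul_prod_erase Finset.univ _ (Finset.mem_univ (((1 : 𝒮ℒ) : 𝒬))), quotientFunc_one]

lemma esymmFun_card_ne_zero {k : ℤ} (g : ModularForm 𝒢 k) (hg : ∀ z, g z ≠ 0) (z : ℍ) :
    esymmFun g (Nat.card 𝒬) z ≠ 0 := by
  classical
  rw [esymmFun, Nat.card_eq_fintype_card, aeval_esymm_card]
  exact Finset.prod_ne_zero_iff.mpr fun q _ => quotientFunc_ne_zero g hg q z

/-- the norm of `g` is a multiple of a power of `Δ` -/
lemma exists_norm_eq (w : ℕ) (g : ModularForm 𝒢 (12 * w)) (hg : ∀ z, g z ≠ 0) :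
    ∃ c : ℂ, c ≠ 0 ∧ ∀ z, g z * cofactor g z = c * Δ z ^ (Nat.card 𝒬 * w) := by
  obtain ⟨f, hf⟩ := isMF_esymmFun g (Nat.card 𝒬)
  obtain ⟨c, hc, h⟩ := eq_const_mul_discriminant_pow (Nat.card 𝒬 * w)
    (k := (Nat.card 𝒬 : ℤ) * (12 * w)) (by push_cast; ring) f
    (fun z => by rw [hf]; exact esymmFun_card_ne_zero g hg z)
  exact ⟨c, hc, fun z => by rw [← esymmFun_card, ← hf, h]⟩

lemma tendsto_cofactor {k : ℤ} (g : ModularForm 𝒢 k) (κ : 𝒬 → ℂ)
    (hκ : ∀ q, q ≠ ((1 : 𝒮ℒ) : 𝒬) → Tendsto (quotientFunc g q) atImInfty (𝓝 (κ q))) :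
    Tendsto (cofactor g) atImInfty
      (𝓝 (open Classical in ∏ q ∈ (Finset.univ : Finset 𝒬).erase ((1 : 𝒮ℒ) : 𝒬), κ q)) := by
  classical
  exact tendsto_finsetProd _ fun q hq => hκ q (Finset.ne_of_mem_erase hq)

lemma nice_cofactor (h1 : (1 : ℝ) ∈ 𝒢.strictPeriods) (w : ℕ) (g : ModularForm 𝒢 (12 * w))
    (hg : ∀ z, g z ≠ 0) (κ : 𝒬 → ℂ)
    (hκ : ∀ q, q ≠ ((1 : 𝒮ℒ) : 𝒬) → Tendsto (quotientFunc g q) atImInfty (𝓝 (κ q))) :
    Nice (cofactor g) := by
  classical
  obtain ⟨c, -, hc⟩ := exists_norm_eq w g hg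
  have hgN : Nice g := Nice.of_modularFormClass h1 g
  have hΔN : Nice Δ := nice_levelOne (ModularFormClass.modularForm CuspForm.discriminant)
  have heq : ∀ z, cofactor g z = c * Δ z ^ (Nat.card 𝒬 * w) / g z := fun z => by
    rw [← hc z, mul_div_cancel_left₀ _ (hg z)]
  refine ⟨fun z => ?_, ?_, ?_⟩
  · have e1 := hgN.per z
    have e2 := hΔN.per z
    simp only [Function.comp_apply] at e1 e2 ⊢
    rw [heq, heq, e1, e2]
  · unfold cofactor
    have : (fun z => ∏ q ∈ (Finset.univ : Finset 𝒬).erase ((1 : 𝒮ℒ) : 𝒬), quotientFunc g q z) =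
        ∏ q ∈ (Finset.univ : Finset 𝒬).erase ((1 : 𝒮ℒ) : 𝒬), quotientFunc g q := by
      ext z; simp
    rw [this]
    exact MDifferentiable.prod fun q _ => mdiff_quotientFunc g q
  · exact (tendsto_cofactor g κ hκ).isBigO_one ℝ

end main

lemma coeff_mul_pow_self' {B : Type*} [CommRing B] (e d : PowerSeries B) (hd0 : d.coeff 0 = 0)
    (hd1 : d.coeff 1 = 1) (b : ℕ) : (e * d ^ b).coeff b = e.coeff 0 := by
  obtain ⟨d', rfl⟩ : PowerSeries.X ∣ d := by
    rw [PowerSeries.X_dvd_iff, ← PowerSeries.coeff_zero_eq_constantCoeff_apply]; exact hd0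
  have hd' : PowerSeries.constantCoeff d' = 1 := by
    have := PowerSeries.coeff_succ_X_mul 0 d'
    rw [zero_add, hd1] at this
    rw [← PowerSeries.coeff_zero_eq_constantCoeff_apply]; exact this.symm
  rw [mul_pow, ← mul_assoc, mul_comm e, mul_assoc, PowerSeries.coeff_X_pow_mul', if_pos le_rfl,
    Nat.sub_self, PowerSeries.coeff_zero_eq_constantCoeff_apply, map_mul, map_pow, hd', one_pow,
    mul_one, ← PowerSeries.coeff_zero_eq_constantCoeff_apply]

lemma nice_Delta : Nice Δ := nice_levelOne (ModularFormClass.modularForm CuspForm.discriminant)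

section main2

variable {𝒢 : Subgroup (GL (Fin 2) ℝ)} [𝒢.HasDetPlusMinusOne] [𝒢.IsArithmetic]

local notation "𝒬" => 𝒮ℒ ⧸ (𝒢.subgroupOf 𝒮ℒ)

attribute [local instance] Fermat.Agent.S23.Sym.instFintypeQ

/-- order and leading coefficient of `g` at `∞`, and the value of the norm constant -/
lemma order_and_norm (h1 : (1 : ℝ) ∈ 𝒢.strictPeriods) (w : ℕ) (g : ModularForm 𝒢 (12 * w))
    (hg : ∀ z, g z ≠ 0) (κ : 𝒬 → ℂ)
    (hκ0 : ∀ q, q ≠ ((1 : 𝒮ℒ) : 𝒬) → κ q ≠ 0)
    (hκ : ∀ q, q ≠ ((1 : 𝒮ℒ) : 𝒬) → Tendsto (quotientFunc g q) atImInfty (𝓝 (κ q))) :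
    (∀ r < Nat.card 𝒬 * w, (qExpansion 1 g).coeff r = 0) ∧
    (qExpansion 1 g).coeff (Nat.card 𝒬 * w) ≠ 0 ∧
    (∀ z, esymmFun g (Nat.card 𝒬) z = ((qExpansion 1 g).coeff (Nat.card 𝒬 * w) *
      (open Classical in ∏ q ∈ (Finset.univ : Finset 𝒬).erase ((1 : 𝒮ℒ) : 𝒬), κ q)) *
        Δ z ^ (Nat.card 𝒬 * w)) := by
  classical
  set m := Nat.card 𝒬 * w with hm
  set K := ∏ q ∈ (Finset.univ : Finset 𝒬).erase ((1 : 𝒮ℒ) : 𝒬), κ q with hK
  have hK0 : K ≠ 0 := Finset.prod_ne_zero_iff.mpr fun q hq => hκ0 q (Finset.ne_of_mem_erase hq)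
  obtain ⟨c, hc0, hc⟩ := exists_norm_eq w g hg
  have hgN : Nice g := Nice.of_modularFormClass h1 g
  have hGN := nice_cofactor h1 w g hg κ hκ
  have hG0 : (qExpansion 1 (cofactor g)).coeff 0 = K :=
    coeff_zero_eq_of_tendsto hGN (tendsto_cofactor g κ hκ)
  have hfun : (g : ℍ → ℂ) * cofactor g = c • Δ ^ m := by
    ext z
    rw [Pi.mul_apply, hc z, Pi.smul_apply, Pi.pow_apply, smul_eq_mul]
  have hq : qExpansion 1 g * qExpansion 1 (cofactor g) =
      PowerSeries.C c * qExpansion 1 Δ ^ m := by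
    rw [← Nice.qExp_mul hgN hGN, hfun, Nice.qExp_smul c (nice_Delta.pow m),
      Nice.qExp_pow nice_Delta, PowerSeries.smul_eq_C_mul]
  have hinv : qExpansion 1 (cofactor g) * (qExpansion 1 (cofactor g))⁻¹ = 1 :=
    PowerSeries.mul_inv_cancel _ (by
      rw [← PowerSeries.coeff_zero_eq_constantCoeff_apply, hG0]; exact hK0)
  have hq2 : qExpansion 1 g =
      (PowerSeries.C c * (qExpansion 1 (cofactor g))⁻¹) * qExpansion 1 Δ ^ m := by
    calc qExpansion 1 g = qExpansion 1 g * (qExpansion 1 (cofactor g) *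
          (qExpansion 1 (cofactor g))⁻¹) := by rw [hinv, mul_one]
      _ = (qExpansion 1 g * qExpansion 1 (cofactor g)) * (qExpansion 1 (cofactor g))⁻¹ := by ring
      _ = _ := by rw [hq]; ring
  have hlead : (qExpansion 1 g).coeff m * K = c := by
    have h2 : (qExpansion 1 g * qExpansion 1 (cofactor g)).coeff m = c := by
      rw [hq, coeff_mul_pow_self' _ _ coeff_zero_Delta discriminant_qExpansion_coeff_one]
      simp
    have h3 : (qExpansion 1 g * qExpansion 1 (cofactor g)).coeff m =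
        (qExpansion 1 g).coeff m * K := by
      rw [hq2, mul_comm _ (qExpansion 1 Δ ^ m), mul_assoc, mul_comm (qExpansion 1 Δ ^ m),
        coeff_mul_pow_self' _ _ coeff_zero_Delta discriminant_qExpansion_coeff_one,
        mul_comm (qExpansion 1 Δ ^ m),
        coeff_mul_pow_self' _ _ coeff_zero_Delta discriminant_qExpansion_coeff_one,
        PowerSeries.coeff_zero_eq_constantCoeff_apply, map_mul,
        ← PowerSeries.coeff_zero_eq_constantCoeff_apply,
        ← PowerSeries.coeff_zero_eq_constantCoeff_apply, hG0]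
    rw [← h3, h2]
  refine ⟨fun r hr => ?_, fun h0 => ?_, fun z => ?_⟩
  · rw [hq2]
    exact coeff_mul_pow_of_lt _ _ coeff_zero_Delta m r hr
  · rw [h0, zero_mul] at hlead
    exact hc0 hlead.symm
  · rw [esymmFun_card, hc z, hlead]

end main2

noncomputable section laurent

open Polynomial

/-- the embedding of power series in Laurent series -/
abbrev toL : PowerSeries ℂ →+* LaurentSeries ℂ := HahnSeries.ofPowerSeries ℤ ℂ

/-- `q`-expansion of `E₄` as a Laurent series -/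
def EL : LaurentSeries ℂ := toL (qExpansion 1 E₄)

/-- `q`-expansion of `Δ` as a Laurent series -/
def DL : LaurentSeries ℂ := toL (qExpansion 1 Δ)

/-- `q`-expansion of `j` as a Laurent series -/
def jL : LaurentSeries ℂ := EL ^ 3 / DL

/-- `q`-expansion of `g / Δ ^ w` as a Laurent series -/
def uL (w : ℕ) (Gs : PowerSeries ℂ) : LaurentSeries ℂ := toL Gs / DL ^ w

/-- evaluation `Y ↦ t` -/
def evalL (t : LaurentSeries ℂ) : ℂ[X] →+* LaurentSeries ℂ :=
  Polynomial.eval₂RingHom (algebraMap ℂ (LaurentSeries ℂ)) t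

lemma DL_ne_zero : DL ≠ 0 := by
  intro h
  have h2 : qExpansion 1 Δ = 0 :=
    HahnSeries.ofPowerSeries_injective (Γ := ℤ) (R := ℂ) (by rw [map_zero]; exact h)
  have := discriminant_qExpansion_coeff_one
  rw [h2] at this
  simp at this

lemma toL_C (a : ℂ) : toL (PowerSeries.C a) = algebraMap ℂ (LaurentSeries ℂ) a := by
  have h1 : algebraMap ℂ (PowerSeries ℂ) a = PowerSeries.C a := by simp
  rw [HahnSeries.algebraMap_apply', h1]

lemma toL_levelOne (P : ℂ[X]) (m : ℕ) (hdeg : P.natDegree ≤ m) :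
    toL (∑ a ∈ Finset.range (m + 1),
      PowerSeries.C (P.coeff a) * qExpansion 1 E₄ ^ (3 * a) * qExpansion 1 Δ ^ (m - a)) =
      DL ^ m * evalL jL P := by
  rw [map_sum, evalL, Polynomial.coe_eval₂RingHom,
    Polynomial.eval₂_eq_sum_range' _ (Nat.lt_succ_of_le hdeg), Finset.mul_sum]
  refine Finset.sum_congr rfl fun a ha => ?_
  have ha' : a ≤ m := Nat.lt_succ_iff.mp (Finset.mem_range.mp ha)
  have hD := DL_ne_zero
  rw [map_mul, map_mul, map_pow, map_pow, toL_C, jL, div_pow, ← pow_mul]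
  change _ * EL ^ (3 * a) * DL ^ (m - a) = _
  conv_rhs => rw [← Nat.sub_add_cancel ha', pow_add]
  field_simp

/-- The shape of the polynomial `χ`. -/
structure IsChi (n w : ℕ) (Gs : PowerSeries ℂ) (K : ℂ) (χ : ℂ[X][X]) : Prop where
  monic : χ.Monic
  natDegree_eq : χ.natDegree = n
  deg_le : ∀ i ≤ n, (χ.coeff (n - i)).natDegree ≤ i * w
  lead : (χ.coeff 1).coeff ((n - 1) * w) = (-1) ^ (n - 1) * K
  const : χ.coeff 0 = Polynomial.C ((-1) ^ n * (Gs.coeff (n * w) * K))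
  order : ∀ r < n * w, Gs.coeff r = 0
  coeff_ne_zero : Gs.coeff (n * w) ≠ 0
  eval_eq_zero : χ.eval₂ (evalL jL) (uL w Gs) = 0

end laurent

section final

open Polynomial

variable {𝒢 : Subgroup (GL (Fin 2) ℝ)} [𝒢.HasDetPlusMinusOne] [𝒢.IsArithmetic]

local notation "𝒬" => 𝒮ℒ ⧸ (𝒢.subgroupOf 𝒮ℒ)

attribute [local instance] Fermat.Agent.S23.Sym.instFintypeQ

lemma nice_esymmFun {k : ℤ} (g : ModularForm 𝒢 k) (i : ℕ) : Nice (esymmFun g i) := by
  obtain ⟨f, hf⟩ := isMF_esymmFun g i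
  rw [← hf]
  exact nice_levelOne f

lemma exists_P (w : ℕ) (g : ModularForm 𝒢 (12 * w)) (i : ℕ) :
    ∃ P : ℂ[X], P.natDegree ≤ i * w ∧
      (qExpansion 1 (esymmFun g i) = ∑ a ∈ Finset.range (i * w + 1),
        PowerSeries.C (P.coeff a) * qExpansion 1 E₄ ^ (3 * a) * qExpansion 1 Δ ^ (i * w - a)) ∧
      (∀ s ≤ i * w, (∀ r < s, (qExpansion 1 (esymmFun g i)).coeff r = 0) →
        P.natDegree ≤ i * w - s ∧ P.coeff (i * w - s) = (qExpansion 1 (esymmFun g i)).coeff s) := by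
  obtain ⟨f, hf⟩ := isMF_esymmFun g i
  obtain ⟨P, h1, -, h3, -, h5⟩ := exists_poly (i * w) (k := (i : ℤ) * (12 * w))
    (by push_cast; ring) f
  rw [hf] at h3 h5
  exact ⟨P, h1, h3, h5⟩

/-- **(A5)** -/
theorem exists_isChi (h1 : (1 : ℝ) ∈ 𝒢.strictPeriods) (w : ℕ) (hw : 1 ≤ w)
    (g : ModularForm 𝒢 (12 * w)) (hg : ∀ z, g z ≠ 0) (κ : 𝒬 → ℂ)
    (hκ0 : ∀ q, q ≠ ((1 : 𝒮ℒ) : 𝒬) → κ q ≠ 0)
    (hκ : ∀ q, q ≠ ((1 : 𝒮ℒ) : 𝒬) → Tendsto (quotientFunc g q) atImInfty (𝓝 (κ q))) :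
    ∃ χ : ℂ[X][X], IsChi (Nat.card 𝒬) w (qExpansion 1 g)
      (open Classical in ∏ q ∈ (Finset.univ : Finset 𝒬).erase ((1 : 𝒮ℒ) : 𝒬), κ q) χ := by
  classical
  set n := Nat.card 𝒬 with hn
  have hn1 : 1 ≤ n := Nat.one_le_iff_ne_zero.mpr (Nat.card_pos (α := 𝒬)).ne'
  set K := ∏ q ∈ (Finset.univ : Finset 𝒬).erase ((1 : 𝒮ℒ) : 𝒬), κ q with hK
  set Gs := qExpansion 1 g with hGs
  obtain ⟨hord, hne, hnorm⟩ := order_and_norm h1 w g hg κ hκ0 hκ
  have hgN : Nice g := Nice.of_modularFormClass h1 g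
  choose P hPdeg hPq hPord using exists_P w g
  -- `P 0 = 1`
  have hP0 : P 0 = 1 := by
    have h := hPord 0 0 (by simp) (by simp)
    have hd : (P 0).natDegree ≤ 0 := by simpa using hPdeg 0
    rw [Polynomial.eq_C_of_natDegree_le_zero hd]
    have h2 : (P 0).coeff 0 = 1 := by
      have := h.2
      simp only [zero_mul, Nat.sub_self] at this
      rw [this, esymmFun_zero, qExpansion_one]
      simp
    rw [h2, map_one]
  -- `P n` is constant
  have hPn : P n = Polynomial.C (Gs.coeff (n * w) * K) := by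
    have hq : qExpansion 1 (esymmFun g n) =
        PowerSeries.C (Gs.coeff (n * w) * K) * qExpansion 1 Δ ^ (n * w) := by
      have : esymmFun g n = (Gs.coeff (n * w) * K) • Δ ^ (n * w) := by
        ext z
        rw [hnorm z, Pi.smul_apply, Pi.pow_apply, smul_eq_mul]
      rw [this, Nice.qExp_smul _ (nice_Delta.pow _), Nice.qExp_pow nice_Delta,
        PowerSeries.smul_eq_C_mul]
    have h := hPord n (n * w) le_rfl (fun r hr => by
      rw [hq]; exact coeff_mul_pow_of_lt _ _ coeff_zero_Delta _ r hr)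
    rw [Nat.sub_self] at h
    rw [Polynomial.eq_C_of_natDegree_le_zero h.1, h.2, hq,
      coeff_mul_pow_self' _ _ coeff_zero_Delta discriminant_qExpansion_coeff_one]
    simp
  -- top coefficient of `P (n - 1)`
  have hPn1 : (P (n - 1)).coeff ((n - 1) * w) = K := by
    have h := (hPord (n - 1) 0 (Nat.zero_le _) (by simp)).2
    rw [Nat.sub_zero] at h
    rw [h]
    apply coeff_zero_eq_of_tendsto (nice_esymmFun g (n - 1))
    set κ' : 𝒬 → ℂ := fun q => if q = ((1 : 𝒮ℒ) : 𝒬) then 0 else κ q with hκ'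
    have hlim : ∀ q, Tendsto (quotientFunc g q) atImInfty (𝓝 (κ' q)) := by
      intro q
      by_cases hq : q = ((1 : 𝒮ℒ) : 𝒬)
      · subst hq
        simp only [hκ', if_true]
        rw [quotientFunc_one]
        have := tendsto_of_nice hgN
        rwa [hord 0 (by positivity)] at this
      · simp only [hκ', if_neg hq]
        exact hκ q hq
    have h2 := tendsto_aeval (MvPolynomial.esymm 𝒬 ℂ (n - 1)) (fun q => quotientFunc g q) κ' hlim
    have h3 : MvPolynomial.aeval κ' (MvPolynomial.esymm 𝒬 ℂ (n - 1)) = K := by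
      rw [hn, Nat.card_eq_fintype_card, aeval_esymm_card_sub_one κ' ((1 : 𝒮ℒ) : 𝒬) (by simp [hκ'])]
      refine Finset.prod_congr rfl fun q hq => ?_
      simp only [hκ', if_neg (Finset.ne_of_mem_erase hq)]
    rw [h3] at h2
    exact h2
  -- the polynomial
  set c : ℕ → ℂ[X] := fun j => Polynomial.C ((-1 : ℂ) ^ (n - j)) * P (n - j) with hc
  set χ : ℂ[X][X] := ∑ j ∈ Finset.range (n + 1), Polynomial.monomial j (c j) with hχ
  have hχc : ∀ j, χ.coeff j = if j ≤ n then c j else 0 := by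
    intro j
    rw [hχ, Polynomial.finsetSum_coeff]
    simp only [Polynomial.coeff_monomial]
    rw [Finset.sum_ite_eq' (Finset.range (n + 1)) j]
    simp only [Finset.mem_range, Nat.lt_succ_iff]
  have hχdeg : χ.natDegree ≤ n := by
    rw [Polynomial.natDegree_le_iff_coeff_eq_zero]
    intro j hj
    rw [hχc, if_neg (by omega)]
  have hχn : χ.coeff n = 1 := by
    rw [hχc, if_pos le_rfl]
    simp [hc, hP0]
  refine ⟨χ, ⟨Polynomial.monic_of_natDegree_le_of_coeff_eq_one n hχdeg hχn,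
    Polynomial.natDegree_eq_of_le_of_coeff_ne_zero hχdeg (by rw [hχn]; exact one_ne_zero),
    fun i hi => ?_, ?_, ?_, hord, hne, ?_⟩⟩
  · rw [hχc, if_pos (Nat.sub_le _ _)]
    simp only [hc, Nat.sub_sub_self hi]
    exact (Polynomial.natDegree_C_mul_le _ _).trans (hPdeg i)
  · rw [hχc, if_pos hn1]
    simp only [hc, Polynomial.coeff_C_mul, hPn1]
  · rw [hχc, if_pos (Nat.zero_le _)]
    simp only [hc, Nat.sub_zero, hPn, ← map_mul]
  · -- the equation
    have hfun : (∑ j ∈ Finset.range (n + 1),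
        ((-1 : ℂ) ^ j) • (esymmFun g j * (g : ℍ → ℂ) ^ (n - j))) = 0 := by
      ext z
      rw [Finset.sum_apply, Pi.zero_apply, ← sum_esymmFun_mul_pow g z]
      refine Finset.sum_congr rfl fun j _ => ?_
      rw [Pi.smul_apply, Pi.mul_apply, Pi.pow_apply, smul_eq_mul, mul_assoc]
    have hps : ∑ j ∈ Finset.range (n + 1),
        PowerSeries.C ((-1 : ℂ) ^ j) * (qExpansion 1 (esymmFun g j) * Gs ^ (n - j)) = 0 := by
      have h := congrArg (qExpansion 1) hfun
      rw [qExpansion_zero, Nice.qExp_sum _ (fun j _ =>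
        ((nice_esymmFun g j).mul (hgN.pow _)).smul _)] at h
      rw [← h]
      refine Finset.sum_congr rfl fun j _ => ?_
      rw [Nice.qExp_smul _ ((nice_esymmFun g j).mul (hgN.pow _)),
        Nice.qExp_mul (nice_esymmFun g j) (hgN.pow _), Nice.qExp_pow hgN,
        PowerSeries.smul_eq_C_mul]
    have hD := DL_ne_zero
    have hGL : toL Gs = uL w Gs * DL ^ w := by
      rw [uL, div_mul_cancel₀ _ (pow_ne_zero _ hD)]
    have hL : DL ^ (n * w) * ∑ j ∈ Finset.range (n + 1),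
        algebraMap ℂ (LaurentSeries ℂ) ((-1 : ℂ) ^ j) * evalL jL (P j) * uL w Gs ^ (n - j) = 0 := by
      have h := congrArg toL hps
      rw [map_zero, map_sum] at h
      rw [← h, Finset.mul_sum]
      refine Finset.sum_congr rfl fun j hj => ?_
      have hj' : j ≤ n := Nat.lt_succ_iff.mp (Finset.mem_range.mp hj)
      rw [map_mul toL, map_mul toL, map_pow toL, toL_C, hPq j, toL_levelOne _ _ (hPdeg j), hGL,
        mul_pow, ← pow_mul]
      have e1 : n * w = j * w + w * (n - j) := by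
        conv_lhs => rw [← Nat.sub_add_cancel hj']
        ring
      rw [e1, pow_add]
      ring
    have hS := (mul_eq_zero.mp hL).resolve_left (pow_ne_zero _ hD)
    rw [Polynomial.eval₂_eq_sum_range' _ (Nat.lt_succ_of_le hχdeg), ← hS,
      ← Finset.sum_range_reflect]
    refine Finset.sum_congr rfl fun j hj => ?_
    have hj' : j ≤ n := Nat.lt_succ_iff.mp (Finset.mem_range.mp hj)
    rw [Nat.succ_sub_one, hχc, if_pos (Nat.sub_le _ _)]
    simp only [hc, Nat.sub_sub_self hj', map_mul]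
    congr 2
    simp [evalL]

end final

end Fermat.Agent.S28.ChiC
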