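import Fermat.Agent.S28.Analytic.Shape
import Fermat.Agent.S28.Analytic.ChiC
import Fermat.Agent.Lib.JExpansion
import Fermat.Prelude.Thm_CongruenceSubgroup_one_mem_strictPeriods_Gamma0

/-!
# S28 (A10a): `exists_chiC` in the shape of the skeleton, from `ChiC.exists_isChi`
-/

set_option autoImplicit false
set_option linter.unusedSectionVars false

noncomputable section

open UpperHalfPlane ModularForm Matrix.SpecialLinearGroup Filter Topology SlashInvariantForm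
open ModularCurve Polynomial Fermat.Agent.S23.Sym
open scoped MatrixGroups ModularForm

namespace Fermat.Agent.S28

local notation "Δ" => ModularForm.discriminant

namespace ChiCBridge

namespace LU

variable {ℓ : ℕ} [Fact ℓ.Prime]

lemma ne_zero {z : ℂ} (h : LUnit ℓ z) : z ≠ 0 := by
  obtain ⟨m, a, b, hm, -, hb, h⟩ := h
  rintro rfl
  rw [zero_pow (by omega), zero_mul] at h
  have : b = 0 := by exact_mod_cast h.symm
  exact hb (this ▸ dvd_zero _)

lemma one : LUnit ℓ 1 :=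
  ⟨1, 1, 1, le_rfl, (Fact.out : ℓ.Prime).one_lt.ne' ∘ Nat.dvd_one.mp,
    (Fact.out : ℓ.Prime).one_lt.ne' ∘ Nat.dvd_one.mp, by simp⟩

lemma neg_one : LUnit ℓ (-1) :=
  ⟨2, 1, 1, by norm_num, (Fact.out : ℓ.Prime).one_lt.ne' ∘ Nat.dvd_one.mp,
    (Fact.out : ℓ.Prime).one_lt.ne' ∘ Nat.dvd_one.mp, by simp⟩

lemma mul {z z' : ℂ} (h : LUnit ℓ z) (h' : LUnit ℓ z') : LUnit ℓ (z * z') := by
  obtain ⟨m, a, b, hm, ha, hb, h⟩ := h
  obtain ⟨m', a', b', hm', ha', hb', h'⟩ := h'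
  have hp : ℓ.Prime := Fact.out
  refine ⟨m * m', a ^ m' * a' ^ m, b ^ m' * b' ^ m, Nat.mul_pos hm hm', ?_, ?_, ?_⟩
  · exact fun hd => (hp.dvd_mul.mp hd).elim (fun h => ha (hp.dvd_of_dvd_pow h))
      (fun h => ha' (hp.dvd_of_dvd_pow h))
  · exact fun hd => (hp.dvd_mul.mp hd).elim (fun h => hb (hp.dvd_of_dvd_pow h))
      (fun h => hb' (hp.dvd_of_dvd_pow h))
  · push_cast
    rw [← h, ← h']
    ring

lemma pow {z : ℂ} (h : LUnit ℓ z) (n : ℕ) : LUnit ℓ (z ^ n) := by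
  induction n with
  | zero => simpa using one
  | succ n ih => rw [pow_succ]; exact mul ih h

lemma prod {ι : Type*} (s : Finset ι) (f : ι → ℂ) (h : ∀ i ∈ s, LUnit ℓ (f i)) :
    LUnit ℓ (∏ i ∈ s, f i) := by
  classical
  induction s using Finset.induction_on with
  | empty => simpa using one
  | insert a s ha ih =>
    rw [Finset.prod_insert ha]
    exact mul (h a (Finset.mem_insert_self _ _)) (ih fun i hi => h i (Finset.mem_insert_of_mem hi))

end LU

/-- limits of the nontrivial translates -/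
lemma exists_lim_quotientFunc {N ℓ : ℕ} [NeZero N] (D : EtaData N ℓ) (q : Q0 N)
    (hq : q ≠ ((1 : 𝒮ℒ) : Q0 N)) :
    ∃ κ : ℂ, LUnit ℓ κ ∧ Tendsto (quotientFunc D.g q) atImInfty (𝓝 κ) := by
  induction q using Quotient.inductionOn with
  | h r =>
    rw [quotientFunc_mk]
    obtain ⟨γ, hγ⟩ := (inv_mem r.2 : r.val⁻¹ ∈ 𝒮ℒ)
    have hγN : γ ∉ CongruenceSubgroup.Gamma0 N := by
      intro hmem
      apply hq
      have : (⟦r⟧ : Q0 N) = ((r : 𝒮ℒ) : Q0 N) := rfl
      rw [this, eq_comm, QuotientGroup.eq, Subgroup.mem_subgroupOf]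
      simp only [inv_one, one_mul]
      have h2 : r.val⁻¹ ∈ G0 N := ⟨γ, hmem, hγ⟩
      simpa using inv_mem h2
    obtain ⟨κ, h1, h2⟩ := D.lim γ hγN
    refine ⟨κ, h1, ?_⟩
    rw [← hγ]
    exact h2

section dict

local notation "cst" => Int.castRingHom ℂ

lemma ChiC_evalL_eq (t : LaurentSeries ℂ) : ChiC.evalL t = evalL ℂ t := by
  have h : algebraMap ℂ (LaurentSeries ℂ) = (HahnSeries.C : ℂ →+* LaurentSeries ℂ) := by
    ext1 a
    rw [← ChiC.toL_C, HahnSeries.ofPowerSeries_C]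
  rw [ChiC.evalL, evalL, h]

variable (hE : qExpansion 1 E₄ = eisenstein4.map cst)
  (hΔ : qExpansion 1 Δ = ((PowerSeries.X : PowerSeries ℤ) * dedekindEtaUnit).map cst)

include hΔ in
lemma ChiC_DL_eq : ChiC.DL = DeltaL ℂ := by
  rw [ChiC.DL, hΔ, DeltaL, map_mul, map_mul, PowerSeries.map_X, HahnSeries.ofPowerSeries_X]

include hE in
lemma ChiC_EL_eq : ChiC.EL = E4L ℂ := by
  rw [ChiC.EL, hE, E4L]

lemma single_mul_single_one (a b : ℤ) :
    (HahnSeries.single a (1 : ℂ) : LaurentSeries ℂ) * HahnSeries.single b 1 =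
      HahnSeries.single (a + b) 1 := by
  rw [HahnSeries.single_mul_single, one_mul]

lemma DeltaL_pow (w : ℕ) : DeltaL ℂ ^ w = HahnSeries.single (w : ℤ) 1 *
    HahnSeries.ofPowerSeries ℤ ℂ ((dedekindEtaUnit ^ w).map cst) := by
  rw [DeltaL, mul_pow, HahnSeries.single_pow, one_pow, map_pow, map_pow]
  simp

include hE hΔ in
lemma ChiC_jL_eq : ChiC.jL = jqModC ℂ := by
  rw [ChiC.jL, div_eq_iff ChiC.DL_ne_zero, ChiC_DL_eq hΔ, ChiC_EL_eq hE, jqModC, DeltaL, E4L]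
  rw [mul_mul_mul_comm, single_mul_single_one, ← map_mul, ← map_mul, jNum, mul_assoc,
    mul_comm dedekindEtaUnitInv, dedekindEtaUnit_mul_inv, mul_one]
  simp

include hΔ in
lemma ChiC_uL_eq {N ℓ : ℕ} (D : EtaData N ℓ) : ChiC.uL D.w (qExpansion 1 D.g) = uL D ℂ := by
  rw [ChiC.uL, div_eq_iff (pow_ne_zero _ ChiC.DL_ne_zero), ChiC_DL_eq hΔ, D.qExp, uL, DeltaL_pow]
  rw [mul_mul_mul_comm, single_mul_single_one, ← map_mul, ← map_mul, mul_assoc, ← mul_pow,
    mul_comm dedekindEtaUnitInv, dedekindEtaUnit_mul_inv, one_pow, mul_one, sub_add_cancel,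
    map_mul, map_mul, map_pow, PowerSeries.map_X, HahnSeries.ofPowerSeries_X_pow]

end dict

/-- **(A10a)**, with the dictionary (A0) as explicit hypotheses. -/
theorem exists_chiC_of_dict
    (hE : qExpansion 1 E₄ = eisenstein4.map (Int.castRingHom ℂ))
    (hΔ : qExpansion 1 Δ =
      ((PowerSeries.X : PowerSeries ℤ) * dedekindEtaUnit).map (Int.castRingHom ℂ))
    (N : ℕ) [NeZero N] (ℓ : ℕ) [Fact ℓ.Prime] (D : EtaData N ℓ) :
    ∃ χ : ℂ[X][X], Shape χ (Nat.card (Q0 N)) D.w ∧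
      LUnit ℓ ((χ.coeff 1).coeff ((Nat.card (Q0 N) - 1) * D.w)) ∧
      LUnit ℓ ((χ.coeff 0).coeff 0) ∧
      χ.eval₂ (evalL ℂ (jqModC ℂ)) (uL D ℂ) = 0 ∧
      D.r = Nat.card (Q0 N) * D.w := by
  classical
  let _ : Fintype (Q0 N) := Fermat.Agent.S23.Sym.instFintypeQ
  choose! κ hκU hκ using exists_lim_quotientFunc D
  obtain ⟨χ, hχ⟩ := ChiC.exists_isChi (𝒢 := G0 N)
    (CongruenceSubgroup.one_mem_strictPeriods_Gamma0 N) D.w D.hw D.g D.ne_zero κ
    (fun q hq => LU.ne_zero (hκU q hq)) hκ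
  set n := Nat.card (Q0 N) with hn
  set K := ∏ q ∈ (Finset.univ : Finset (Q0 N)).erase ((1 : 𝒮ℒ) : Q0 N), κ q with hK
  have hKU : LUnit ℓ K := LU.prod _ _ fun q hq => hκU q (Finset.ne_of_mem_erase hq)
  -- coefficients of the `q`-expansion of `g`
  have hcoeff : ∀ k, (qExpansion 1 D.g).coeff k =
      if D.r ≤ k then ((D.g₀.coeff (k - D.r) : ℤ) : ℂ) else 0 := by
    intro k
    rw [D.qExp, PowerSeries.coeff_map, PowerSeries.coeff_X_pow_mul']
    split_ifs <;> simp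
  have hr : D.r = n * D.w := by
    apply le_antisymm
    · by_contra hlt
      apply hχ.coeff_ne_zero
      rw [hcoeff, if_neg hlt]
    · by_contra hlt
      have := hχ.order D.r (not_le.mp hlt)
      rw [hcoeff, if_pos le_rfl, Nat.sub_self, PowerSeries.coeff_zero_eq_constantCoeff_apply,
        D.g₀_const] at this
      simp at this
  have hlead : (qExpansion 1 D.g).coeff (n * D.w) = 1 := by
    rw [← hr, hcoeff, if_pos le_rfl, Nat.sub_self, PowerSeries.coeff_zero_eq_constantCoeff_apply,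
      D.g₀_const]
    simp
  have hconst : χ.coeff 0 = C ((-1) ^ n * K) := by
    rw [hχ.const, hlead, one_mul]
  have hU0 : LUnit ℓ ((-1) ^ n * K) := LU.mul (LU.pow LU.neg_one n) hKU
  refine ⟨χ, ⟨hχ.monic, hχ.natDegree_eq, hχ.deg_le, _, LU.ne_zero hU0, hconst⟩, ?_, ?_, ?_, hr⟩
  · rw [hχ.lead]
    exact LU.mul (LU.pow LU.neg_one _) hKU
  · rw [hconst, coeff_C_zero]
    exact hU0
  · have := hχ.eval_eq_zero
    rwa [ChiC_evalL_eq, ChiC_jL_eq hE hΔ, ChiC_uL_eq hΔ] at this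

/-- (A6) in the shape of the skeleton. -/
theorem exists_levelOne_poly (m : ℕ) (f : ModularForm 𝒮ℒ (12 * (m : ℤ))) :
    ∃ P : ℂ[X], P.natDegree ≤ m ∧ (∀ z : ℍ, f z = Δ z ^ m * P.eval (E₄ z ^ 3 / Δ z)) ∧
      P.coeff m = (qExpansion 1 f).coeff 0 := by
  obtain ⟨P, h1, h2, -, -, h5⟩ := LevelOnePoly.exists_poly m rfl f
  exact ⟨P, h1, h2, by simpa using (h5 0 (Nat.zero_le _) (by simp)).2⟩

/-- (A11) in the shape of the skeleton. -/
theorem eq_const_mul_discriminant_pow_of_ne_zero (m : ℕ) (f : ModularForm 𝒮ℒ (12 * (m : ℤ)))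
    (hf : ∀ z : ℍ, f z ≠ 0) : ∃ c : ℂ, c ≠ 0 ∧ ∀ z : ℍ, f z = c * Δ z ^ m :=
  NoZeros.eq_const_mul_discriminant_pow m rfl f hf

open Fermat.Agent.Lib.JExpansion in
theorem qExpansion_E4 : qExpansion 1 E₄ = eisenstein4.map (Int.castRingHom ℂ) := by
  ext m
  refine (ModularFormClass.qExpansion_coeff_unique
    (c := fun m => (eisenstein4.map (Int.castRingHom ℂ)).coeff m) one_pos
    one_mem_strictPeriods_SL (f := E₄) (fun τ => ?_) m).symm
  simpa [Ev, toC, smul_eq_mul] using ev_E₄ τ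

open Fermat.Agent.Lib.JExpansion in
theorem qExpansion_discriminant : qExpansion 1 Δ =
    ((PowerSeries.X : PowerSeries ℤ) * dedekindEtaUnit).map (Int.castRingHom ℂ) := by
  ext m
  rw [← CuspForm.coe_discriminant]
  refine (ModularFormClass.qExpansion_coeff_unique
    (c := fun m => (((PowerSeries.X : PowerSeries ℤ) * dedekindEtaUnit).map
      (Int.castRingHom ℂ)).coeff m) one_pos
    one_mem_strictPeriods_SL (f := CuspForm.discriminant) (fun τ => ?_) m).symm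
  have h := ev_discriminant τ
  rw [CuspForm.coe_discriminant]
  simpa [Ev, toC, dedekindEtaUnit, smul_eq_mul] using h

end ChiCBridge

/-- **(A10a)** in the exact shape of the skeleton. -/
theorem exists_chiC (N : ℕ) [NeZero N] (ℓ : ℕ) [Fact ℓ.Prime] (D : EtaData N ℓ) :
    ∃ χ : ℂ[X][X], Shape χ (Nat.card (Q0 N)) D.w ∧
      LUnit ℓ ((χ.coeff 1).coeff ((Nat.card (Q0 N) - 1) * D.w)) ∧
      LUnit ℓ ((χ.coeff 0).coeff 0) ∧
      χ.eval₂ (evalL ℂ (jqModC ℂ)) (uL D ℂ) = 0 ∧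
      D.r = Nat.card (Q0 N) * D.w :=
  ChiCBridge.exists_chiC_of_dict ChiCBridge.qExpansion_E4 ChiCBridge.qExpansion_discriminant N ℓ D

end Fermat.Agent.S28

end
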