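import Fermat.Agent.S28.Analytic.Expansion
import Fermat.Agent.Lib.JExpansion

/-!
# S28 analytic toolkit, part K1: `Efun = Δ / q = ∏ (1 - qⁿ)²⁴` and its inverse
-/

set_option autoImplicit false

open UpperHalfPlane Filter Topology ModularCurve
open scoped Manifold MatrixGroups ModularForm Real
open Fermat.Agent.Lib.JExpansion

namespace Fermat.Agent.S28.Analytic

local notation "𝕢" => Function.Periodic.qParam

/-- A function of the form `τ ↦ G (q_h(τ))`, `G` holomorphic on the unit disc, is nice. -/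
theorem niceH_of_disc {h : ℝ} (hh : 0 < h) {G : ℂ → ℂ}
    (hG : DifferentiableOn ℂ G (Metric.ball 0 1)) : NiceH h (fun τ : ℍ => G (𝕢 h τ)) := by
  refine ⟨?_, ?_, ?_⟩
  · intro z
    by_cases hz : 0 < z.im
    · have hz' : 0 < (z + (h : ℂ)).im := by simpa using hz
      simp only [Function.comp_apply]
      rw [ofComplex_apply_of_im_pos hz, ofComplex_apply_of_im_pos hz']
      congr 1
      show 𝕢 h (z + h) = 𝕢 h z
      simp only [Function.Periodic.qParam]
      have hh' : (h : ℂ) ≠ 0 := by exact_mod_cast hh.ne'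
      rw [show 2 * (π : ℂ) * Complex.I * (z + h) / h = 2 * π * Complex.I * z / h + 2 * π * Complex.I by
        field_simp]
      exact Complex.exp_periodic _
    · have hz0 : z.im ≤ 0 := not_lt.mp hz
      have hz' : (z + (h : ℂ)).im ≤ 0 := by simpa using hz0
      simp only [Function.comp_apply]
      rw [ofComplex_apply_of_im_nonpos hz0, ofComplex_apply_of_im_nonpos hz']
  · rw [UpperHalfPlane.mdifferentiable_iff]
    have h2 : DifferentiableOn ℂ (fun z : ℂ => 𝕢 h z) upperHalfPlaneSet := by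
      unfold Function.Periodic.qParam
      fun_prop
    have h3 : DifferentiableOn ℂ (G ∘ fun z : ℂ => 𝕢 h z) upperHalfPlaneSet :=
      hG.comp h2 fun z hz => by
        simpa using Function.Periodic.norm_qParam_lt_one hh hz
    refine h3.congr fun z hz => ?_
    simp only [Function.comp_apply]
    rw [ofComplex_apply_of_im_pos hz]
  · have hc : ContinuousAt G 0 :=
      (hG.differentiableAt (Metric.ball_mem_nhds 0 one_pos)).continuousAt
    have := hc.tendsto.comp (qParam_tendsto_atImInfty hh)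
    exact this.isBigO_one ℝ

/-- The `q`-expansion of `τ ↦ G (q_h(τ))`. -/
theorem qExp_of_disc {h : ℝ} (hh : 0 < h) {G : ℂ → ℂ} {p : PowerSeries ℂ}
    (hG : DifferentiableOn ℂ G (Metric.ball 0 1))
    (hp : ∀ q : ℂ, ‖q‖ < 1 → Ev q p (G q)) : qExpansion h (fun τ : ℍ => G (𝕢 h τ)) = p := by
  ext m
  refine (niceH_of_disc hh hG).coeff_unique hh (c := fun m => p.coeff m) (fun τ => ?_) m
  simpa [Ev] using hp (𝕢 h τ) (Function.Periodic.norm_qParam_lt_one hh τ.im_pos)

/-- `Efun τ = ∏ (1 - qⁿ)²⁴ = Δ(τ) / q`. -/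
noncomputable def Efun (τ : ℍ) : ℂ := eulerFun (𝕢 1 τ) ^ 24

/-- `EfunInv = 1 / Efun`. -/
noncomputable def EfunInv (τ : ℍ) : ℂ := (eulerFun (𝕢 1 τ) ^ 24)⁻¹

theorem Efun_ne_zero (τ : ℍ) : Efun τ ≠ 0 :=
  pow_ne_zero _ (eulerFun_ne_zero (norm_q_lt_one τ))

theorem Efun_mul_EfunInv (τ : ℍ) : Efun τ * EfunInv τ = 1 :=
  mul_inv_cancel₀ (Efun_ne_zero τ)

theorem EfunInv_eq (τ : ℍ) : EfunInv τ = (Efun τ)⁻¹ := rfl

theorem discriminant_eq_q_mul_Efun (τ : ℍ) : ModularForm.discriminant τ = 𝕢 1 τ * Efun τ :=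
  discriminant_eq τ

theorem niceH_Efun : NiceH 1 Efun :=
  niceH_of_disc one_pos (differentiableOn_eulerFun.pow 24)

theorem differentiableOn_eulerFun_inv :
    DifferentiableOn ℂ (fun q => (eulerFun q ^ 24)⁻¹) (Metric.ball 0 1) :=
  (differentiableOn_eulerFun.pow 24).inv fun x hx =>
    pow_ne_zero _ (eulerFun_ne_zero (by simpa using hx))

theorem niceH_EfunInv : NiceH 1 EfunInv :=
  niceH_of_disc one_pos differentiableOn_eulerFun_inv

theorem qExp_Efun : qExpansion 1 Efun = toC dedekindEtaUnit := by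
  have h1 : toC dedekindEtaUnit = toC etaProd ^ 24 := by
    rw [dedekindEtaUnit, toC, toC, map_pow]
  rw [h1]
  exact qExp_of_disc (G := fun q => eulerFun q ^ 24) one_pos (differentiableOn_eulerFun.pow 24)
    fun q hq => (ev_eulerFun hq).pow 24

theorem qExp_EfunInv : qExpansion 1 EfunInv = toC dedekindEtaUnitInv :=
  qExp_of_disc (G := fun q => (eulerFun q ^ 24)⁻¹) one_pos differentiableOn_eulerFun_inv
    fun _ hq => ev_eulerFun_inv hq

theorem intExp_Efun (O : Subring ℂ) : IntExp O 1 Efun :=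
  ⟨niceH_Efun, fun n => by
    rw [qExp_Efun, toC, PowerSeries.coeff_map]
    exact intCast_mem O _⟩

theorem intExp_EfunInv (O : Subring ℂ) : IntExp O 1 EfunInv :=
  ⟨niceH_EfunInv, fun n => by
    rw [qExp_EfunInv, toC, PowerSeries.coeff_map]
    exact intCast_mem O _⟩

theorem coeff_zero_Efun : (qExpansion 1 Efun).coeff 0 = 1 := by
  rw [qExp_Efun, toC, PowerSeries.coeff_map, PowerSeries.coeff_zero_eq_constantCoeff,
    constantCoeff_dedekindEtaUnit]
  simp

theorem coeff_zero_EfunInv : (qExpansion 1 EfunInv).coeff 0 = 1 := by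
  rw [qExp_EfunInv, toC, PowerSeries.coeff_map, PowerSeries.coeff_zero_eq_constantCoeff,
    constantCoeff_dedekindEtaUnitInv]
  simp

/-- integer powers of `Efun`. -/
theorem intExp_Efun_zpow (O : Subring ℂ) (r : ℤ) : IntExp O 1 (fun τ => Efun τ ^ r) := by
  rcases r with r | r
  · have : (fun τ => Efun τ ^ (Int.ofNat r)) = Efun ^ r := by
      funext τ; simp
    rw [this]
    exact (intExp_Efun O).pow one_pos r
  · have : (fun τ => Efun τ ^ (Int.negSucc r)) = EfunInv ^ (r + 1) := by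
      funext τ
      simp [EfunInv_eq, zpow_negSucc]
    rw [this]
    exact (intExp_EfunInv O).pow one_pos (r + 1)

theorem coeff_zero_Efun_zpow (r : ℤ) : (qExpansion 1 (fun τ => Efun τ ^ r)).coeff 0 = 1 := by
  rcases r with r | r
  · have : (fun τ => Efun τ ^ (Int.ofNat r)) = Efun ^ r := by
      funext τ; simp
    rw [this, niceH_Efun.qExp_pow one_pos, PowerSeries.coeff_zero_eq_constantCoeff, map_pow,
      ← PowerSeries.coeff_zero_eq_constantCoeff, coeff_zero_Efun, one_pow]
  · have : (fun τ => Efun τ ^ (Int.negSucc r)) = EfunInv ^ (r + 1) := by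
      funext τ
      simp [EfunInv_eq, zpow_negSucc]
    rw [this, niceH_EfunInv.qExp_pow one_pos, PowerSeries.coeff_zero_eq_constantCoeff, map_pow,
      ← PowerSeries.coeff_zero_eq_constantCoeff, coeff_zero_EfunInv, one_pow]

/-- `Δ(τ)^r = e(r τ) * Efun(τ)^r` for all integers `r`. -/
theorem discriminant_zpow (τ : ℍ) (r : ℤ) :
    ModularForm.discriminant τ ^ r = 𝕢 1 τ ^ r * Efun τ ^ r := by
  rw [discriminant_eq_q_mul_Efun, mul_zpow]

end Fermat.Agent.S28.Analytic
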