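import Mathlib
import Fermat.Agent.S28.Analytic.Efun
import Fermat.Agent.S28.Analytic.EtaQuotN

/-!
# S28 (A4): the `q`-expansion of an eta quotient, in particular of `g_N`
-/

set_option autoImplicit false

open Filter Topology Complex ModularForm
open UpperHalfPlane hiding I
open scoped Real MatrixGroups Manifold

namespace Fermat.Agent.S28.EtaQuot

local notation "Δ" => ModularForm.discriminant
local notation "𝕢" => Function.Periodic.qParam

open Analytic Fermat.Agent.Lib.JExpansion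

/-- The subring `ℤ` of `ℂ`. -/
noncomputable def ZC : Subring ℂ := (Int.castRingHom ℂ).range

/-- `τ ↦ D τ`. -/
noncomputable def dil (D : ℕ) (τ : ℍ) : ℍ := ofComplex ((D : ℂ) * τ)

lemma coe_dil {D : ℕ} (hD : 0 < D) (τ : ℍ) :
    (dil D τ : ℂ) = ((D : ℂ) * τ + ((0 : ℤ) : ℂ)) / ((1 : ℕ) : ℂ) := by
  have h : 0 < ((D : ℂ) * τ).im := by
    have : ((D : ℂ) * τ).im = D * τ.im := by simp
    rw [this]
    have := τ.im_pos
    positivity
  rw [dil, ofComplex_apply_of_im_pos h]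
  simp

lemma qParam_dil {D : ℕ} (hD : 0 < D) (τ : ℍ) : 𝕢 1 (dil D τ) = 𝕢 1 τ ^ D := by
  have := qParam_affine (a := D) (d := 1) (N := 1) (e := D) (b := 0) (φ := dil D) one_pos one_pos
    (by ring) (coe_dil hD) τ
  simpa using this

lemma intExp_Efun_zpow_dil (O : Subring ℂ) {D : ℕ} (hD : 0 < D) (r : ℤ) :
    IntExp O 1 ((fun τ => Analytic.Efun τ ^ r) ∘ dil D) := by
  have := (intExp_Efun_zpow O r).comp_affine (a := D) (d := 1) (N := 1) (e := D) (b := 0)
    (φ := dil D) hD one_pos one_pos (by ring) (coe_dil hD) (by simp)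
  simpa using this

lemma coeff_zero_Efun_zpow_dil {D : ℕ} (hD : 0 < D) (r : ℤ) :
    (qExpansion 1 ((fun τ => Analytic.Efun τ ^ r) ∘ dil D)).coeff 0 = 1 := by
  have := (intExp_Efun_zpow ⊤ r).nice.coeff_zero_comp_affine (a := D) (d := 1) (N := 1) (e := D)
    (b := 0) (φ := dil D) hD one_pos one_pos (by ring) (coe_dil hD)
  rw [coeff_zero_Efun_zpow] at this
  simpa using this

lemma niceH_q_pow (n : ℕ) : NiceH 1 (fun τ : ℍ => 𝕢 1 τ ^ n) :=
  niceH_of_disc (G := fun q => q ^ n) one_pos (by fun_prop)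

lemma qExp_q_pow (n : ℕ) : qExpansion 1 (fun τ : ℍ => 𝕢 1 τ ^ n) = PowerSeries.X ^ n :=
  qExp_of_disc (G := fun q => q ^ n) one_pos (by fun_prop) fun q _ => Ev.X_pow q n

section general

variable {ι : Type*} {s : Finset ι} {D : ι → ℕ} (r : ι → ℤ)

lemma etaQ_eq_q_pow_mul (hD : ∀ i ∈ s, 0 < D i) {n : ℕ} (hn : ∑ i ∈ s, r i * (D i : ℤ) = n) :
    etaQ s D r = (fun τ : ℍ => 𝕢 1 τ ^ n) *
      ∏ i ∈ s, ((fun τ => Analytic.Efun τ ^ r i) ∘ dil (D i)) := by
  funext τ
  have hq : 𝕢 1 (τ : ℂ) ≠ 0 := q_ne_zero τ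
  rw [Pi.mul_apply, Finset.prod_apply, etaQ]
  have h1 : ∀ i ∈ s, Δ (ofComplex ((D i : ℂ) * τ)) ^ r i =
      𝕢 1 τ ^ (r i * (D i : ℤ)) * ((fun τ => Analytic.Efun τ ^ r i) ∘ dil (D i)) τ := by
    intro i hi
    have : ofComplex ((D i : ℂ) * τ) = dil (D i) τ := rfl
    rw [this, discriminant_zpow, qParam_dil (hD i hi), Function.comp_apply, mul_comm (r i),
      zpow_mul, zpow_natCast]
  rw [Finset.prod_congr rfl h1, Finset.prod_mul_distrib, prod_zpow_eq_zpow_sum _ _ hq, hn,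
    zpow_natCast]

/-- The `q`-expansion of an eta quotient of non negative order `n` at `∞` is `q ^ n` times an
integral power series with constant coefficient `1`. -/
theorem qExpansion_etaQ (hD : ∀ i ∈ s, 0 < D i) {n : ℕ} (hn : ∑ i ∈ s, r i * (D i : ℤ) = n) :
    ∃ P : PowerSeries ℤ, PowerSeries.constantCoeff P = 1 ∧
      qExpansion 1 (etaQ s D r) = (PowerSeries.X ^ n * P).map (Int.castRingHom ℂ) := by
  have hI : IntExp ZC 1 (∏ i ∈ s, ((fun τ => Analytic.Efun τ ^ r i) ∘ dil (D i))) :=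
    IntExp.prod one_pos s fun i hi => intExp_Efun_zpow_dil ZC (hD i hi) (r i)
  have h0 : (qExpansion 1 (∏ i ∈ s, ((fun τ => Analytic.Efun τ ^ r i) ∘ dil (D i)))).coeff 0 = 1 := by
    rw [NiceH.qExp_prod one_pos s fun i hi => (intExp_Efun_zpow_dil ZC (hD i hi) (r i)).nice,
      PowerSeries.coeff_zero_eq_constantCoeff, map_prod]
    refine Finset.prod_eq_one fun i hi => ?_
    rw [← PowerSeries.coeff_zero_eq_constantCoeff, coeff_zero_Efun_zpow_dil (hD i hi)]
  choose c hc using hI.coeff_mem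
  have hP : qExpansion 1 (∏ i ∈ s, ((fun τ => Analytic.Efun τ ^ r i) ∘ dil (D i))) =
      (PowerSeries.mk c).map (Int.castRingHom ℂ) := by
    ext m
    rw [PowerSeries.coeff_map, PowerSeries.coeff_mk, hc]
  refine ⟨PowerSeries.mk c, ?_, ?_⟩
  · rw [← PowerSeries.coeff_zero_eq_constantCoeff, PowerSeries.coeff_mk]
    have := hc 0
    rw [h0, eq_intCast] at this
    exact_mod_cast this
  · rw [etaQ_eq_q_pow_mul r hD hn, NiceH.qExp_mul one_pos (niceH_q_pow n) hI.nice, qExp_q_pow, hP,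
      map_mul, map_pow, PowerSeries.map_X]

end general

section gN

/-- The order of `g_N` at `∞`. -/
noncomputable def ordN (N : ℕ) : ℕ :=
  (∑ t ∈ N.primeFactors.powerset, Analytic.rexp N t * (lev N t : ℤ)).toNat

variable (N : ℕ) [NeZero N]

lemma ordN_eq : ∑ t ∈ N.primeFactors.powerset, Analytic.rexp N t * (lev N t : ℤ) = ordN N :=
  (Int.toNat_of_nonneg (sum_rexp_lev_pos (NeZero.ne N)).le).symm

lemma ordN_pos : 0 < ordN N := by
  have := sum_rexp_lev_pos (NeZero.ne N)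
  rw [ordN_eq] at this
  exact_mod_cast this

/-- `qExpansion 1 g_N = q ^ ordN N * (1 + ...)` with integer coefficients. -/
theorem qExpansion_gN' : ∃ P : PowerSeries ℤ, PowerSeries.constantCoeff P = 1 ∧
    qExpansion 1 (gN N) = (PowerSeries.X ^ ordN N * P).map (Int.castRingHom ℂ) :=
  qExpansion_etaQ _ (lev_pos' N) (ordN_eq N)

theorem qExpansion_gN : ∃ G : PowerSeries ℤ, qExpansion 1 (gN N) = G.map (Int.castRingHom ℂ) ∧
    (∀ k < ordN N, G.coeff k = 0) ∧ G.coeff (ordN N) = 1 := by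
  obtain ⟨P, hP0, hP⟩ := qExpansion_gN' N
  refine ⟨_, hP, fun k hk => ?_, ?_⟩
  · rw [PowerSeries.coeff_X_pow_mul', if_neg (by omega)]
  · rw [PowerSeries.coeff_X_pow_mul', if_pos le_rfl, Nat.sub_self,
      PowerSeries.coeff_zero_eq_constantCoeff, hP0]

end gN

end Fermat.Agent.S28.EtaQuot
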