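import Fermat.Agent.S28.Analytic.EtaData
import Fermat.Agent.S28.Analytic.EtaQuotQ

/-!
# S28 (A4): existence of `EtaData N ℓ`
-/

set_option autoImplicit false

open UpperHalfPlane ModularForm Filter Topology
open scoped MatrixGroups ModularForm

namespace Fermat.Agent.S28

open EtaQuot Analytic

lemma not_dvd_of_primeFactors_subset {N ℓ A : ℕ} (hℓ : ℓ.Prime) (hℓN : ¬ ℓ ∣ N) (hA : 0 < A)
    (h : A.primeFactors ⊆ N.primeFactors) : ¬ ℓ ∣ A := fun hd =>
  hℓN (Nat.dvd_of_mem_primeFactors (h (Nat.mem_primeFactors.mpr ⟨hℓ, hd, hA.ne'⟩)))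

theorem exists_etaData (N : ℕ) [NeZero N] (ℓ : ℕ) [Fact ℓ.Prime] (hℓN : ¬ ℓ ∣ N) :
    Nonempty (EtaData N ℓ) := by
  obtain ⟨P, hP0, hP⟩ := qExpansion_gN' N
  exact ⟨{
    w := wt N
    hw := wt_pos N
    g := gN N
    ne_zero := gN_ne_zero N
    r := ordN N
    hr := ordN_pos N
    g₀ := P
    g₀_const := hP0
    qExp := hP
    lim := fun γ hγ => by
      obtain ⟨κ, hκ, A, B, hA, hB, hAN, hBN, h⟩ := tendsto_gN_slash N hγ
      exact ⟨κ, ⟨N, A, B, Nat.pos_of_ne_zero (NeZero.ne N),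
        not_dvd_of_primeFactors_subset Fact.out hℓN hA hAN,
        not_dvd_of_primeFactors_subset Fact.out hℓN hB hBN, h⟩, hκ⟩ }⟩

end Fermat.Agent.S28
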