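import Fermat.Agent.S28.Analytic.Formal

/-!
# S28, modular half: the coset space `Q0 N` and the predicate `Shape`
-/

set_option autoImplicit false

noncomputable section

open Polynomial
open scoped MatrixGroups

namespace Fermat.Agent.S28

/-- the coset space `SL₂(ℤ) / Γ₀(N)` used by `ModularForm.norm` and `S23.Sym`. -/
abbrev Q0 (N : ℕ) : Type := 𝒮ℒ ⧸ ((G0 N).subgroupOf 𝒮ℒ)

/-- Shape of the polynomial `χ` over a field `k`. -/
structure Shape {k : Type*} [Field k] (χ : k[X][X]) (n w : ℕ) : Prop where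
  monic : χ.Monic
  natDegree_eq : χ.natDegree = n
  deg_le : ∀ i ≤ n, (χ.coeff (n - i)).natDegree ≤ i * w
  const : ∃ c : k, c ≠ 0 ∧ χ.coeff 0 = C c

end Fermat.Agent.S28

end
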