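import Fermat.Agent.S28.IntShape
import Fermat.Agent.S28.Analytic.Shape

/-!
# S28, node `intShape` of the modular half (bridge to `exists_int_of_rat`)
-/

set_option autoImplicit false

noncomputable section

open ModularCurve Polynomial

namespace Fermat.Agent.S28

theorem evalL_jq_eq_evalJ : evalL ℚ jq = evalJ ℚ := rfl

theorem intShape (ℓ : ℕ) [Fact ℓ.Prime] (χ : ℚ[X][X]) (n w : ℕ) (hn : 1 ≤ n) (hw : 1 ≤ w)
    (hχ : Shape χ n w) (hconst : (χ.coeff 0).coeff 0 ∈ GaloisRep.ratLocalizedAt ℓ)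
    (u : LaurentSeries ℚ) (hu : IsInt ℓ u)
    (hord : ∀ k : ℤ, k < (((n - 1) * w : ℕ) : ℤ) → u.coeff k = 0)
    (hlead : u.coeff (((n - 1) * w : ℕ) : ℤ) = 1)
    (h : χ.eval₂ (evalL ℚ jq) u = 0) :
    ∃ χ' : (Zl ℓ)[X][X],
      χ'.map (Polynomial.mapRingHom (GaloisRep.ratLocalizedAt ℓ).subtype) = χ := by
  obtain ⟨c, _, hc⟩ := hχ.const
  refine exists_int_of_rat ℓ n w hn hw χ hχ.monic hχ.natDegree_eq hχ.deg_le
    ⟨(χ.coeff 0).coeff 0, hconst⟩ ?_ u hu hord hlead h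
  show χ.coeff 0 = C ((χ.coeff 0).coeff 0)
  rw [hc, Polynomial.coeff_C_zero]

end Fermat.Agent.S28

end
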