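import Fermat.Agent.S28.Analytic.Formal
import Fermat.Agent.S28.LinIndep

/-!
# S28-A8: descent of polynomial relations between rational Laurent series from `ℂ` to `ℚ`

`Rational.map₁ π`, `Rational.map₂ π` apply a `ℚ`-linear functional `π : ℂ → ℚ` to the coefficients
of a polynomial in one / two variables.  Main tool: `Rational.coeff_eval₂_mul`.
-/

set_option autoImplicit false

noncomputable section

open ModularCurve Polynomial

namespace Fermat.Agent.S28

namespace Rational

/-- base change of Laurent series `ℚ((q)) → ℂ((q))`. -/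
abbrev toC : LaurentSeries ℚ →+* LaurentSeries ℂ := coeffMap (algebraMap ℚ ℂ)

variable (π : ℂ →ₗ[ℚ] ℚ)

/-- Apply `π` to the coefficients of a polynomial. -/
def map₁ : ℂ[X] →ₗ[ℚ] ℚ[X] :=
  Polynomial.lsum fun a => (Polynomial.monomial a : ℚ →ₗ[ℚ] ℚ[X]) ∘ₗ π

theorem map₁_monomial (a : ℕ) (c : ℂ) : map₁ π (monomial a c) = monomial a (π c) := by
  simp [map₁, Polynomial.lsum_apply, sum_monomial_index]

theorem coeff_map₁ (P : ℂ[X]) (a : ℕ) : (map₁ π P).coeff a = π (P.coeff a) := by
  induction P using Polynomial.induction_on' with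
  | add p q hp hq => rw [map_add, coeff_add, hp, hq, coeff_add, map_add]
  | monomial n c =>
    rw [map₁_monomial, coeff_monomial, coeff_monomial]
    split_ifs <;> simp

/-- Apply `π` to the coefficients of a polynomial in two variables. -/
def map₂ : ℂ[X][X] →ₗ[ℚ] ℚ[X][X] :=
  Polynomial.lsum fun i =>
    ((Polynomial.monomial i : ℚ[X] →ₗ[ℚ[X]] ℚ[X][X]).restrictScalars ℚ) ∘ₗ map₁ π

theorem map₂_monomial (i : ℕ) (P : ℂ[X]) : map₂ π (monomial i P) = monomial i (map₁ π P) := by
  simp [map₂, Polynomial.lsum_apply, sum_monomial_index]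

theorem coeff_map₂ (F : ℂ[X][X]) (i : ℕ) : (map₂ π F).coeff i = map₁ π (F.coeff i) := by
  induction F using Polynomial.induction_on' with
  | add p q hp hq => rw [map_add, coeff_add, hp, hq, coeff_add, map_add]
  | monomial n c =>
    rw [map₂_monomial, coeff_monomial, coeff_monomial]
    split_ifs <;> simp

theorem coeff_C_mul_toC (c : ℂ) (v : LaurentSeries ℚ) (k : ℤ) :
    π ((HahnSeries.C c * toC v).coeff k) = π c * v.coeff k := by
  rw [HahnSeries.C_mul_eq_smul, HahnSeries.coeff_smul, coeffMap_coeff, smul_eq_mul, mul_comm,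
    ← Algebra.smul_def, map_smul, smul_eq_mul, mul_comm]

theorem coeff_evalL_mul (t v : LaurentSeries ℚ) (P : ℂ[X]) (k : ℤ) :
    π ((evalL ℂ (toC t) P * toC v).coeff k) = (evalL ℚ t (map₁ π P) * v).coeff k := by
  induction P using Polynomial.induction_on' with
  | add p q hp hq =>
    rw [map_add, add_mul, HahnSeries.coeff_add, map_add, hp, hq, map_add, map_add, add_mul,
      HahnSeries.coeff_add]
  | monomial n c =>
    rw [map₁_monomial, ← C_mul_X_pow_eq_monomial, ← C_mul_X_pow_eq_monomial]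
    simp only [evalL, coe_eval₂RingHom, eval₂_mul, eval₂_C, eval₂_pow, eval₂_X]
    rw [mul_assoc, ← map_pow, ← map_mul, coeff_C_mul_toC, mul_assoc, HahnSeries.C_mul_eq_smul,
      HahnSeries.coeff_smul, smul_eq_mul]

/-- **Main tool.** `π` applied to the coefficients of `F(t, u) v` gives `(π F)(t, u) v`. -/
theorem coeff_eval₂_mul (t u v : LaurentSeries ℚ) (F : ℂ[X][X]) (k : ℤ) :
    π ((F.eval₂ (evalL ℂ (toC t)) (toC u) * toC v).coeff k) =
      ((map₂ π F).eval₂ (evalL ℚ t) u * v).coeff k := by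
  induction F using Polynomial.induction_on' with
  | add p q hp hq =>
    rw [eval₂_add, add_mul, HahnSeries.coeff_add, map_add, hp, hq, map_add, eval₂_add, add_mul,
      HahnSeries.coeff_add]
  | monomial n P =>
    rw [map₂_monomial, eval₂_monomial, eval₂_monomial, mul_assoc, ← map_pow, ← map_mul,
      coeff_evalL_mul, mul_assoc]

theorem coeff_eval₂ (t u : LaurentSeries ℚ) (F : ℂ[X][X]) (k : ℤ) :
    π ((F.eval₂ (evalL ℂ (toC t)) (toC u)).coeff k) = ((map₂ π F).eval₂ (evalL ℚ t) u).coeff k := by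
  have h := coeff_eval₂_mul π t u 1 F k
  rwa [map_one, mul_one, mul_one] at h

theorem exists_retraction : ∃ π : ℂ →ₗ[ℚ] ℚ, ∀ r : ℚ, π (algebraMap ℚ ℂ r) = r := by
  obtain ⟨g, hg⟩ := LinearMap.exists_leftInverse_of_injective (Algebra.linearMap ℚ ℂ)
    (LinearMap.ker_eq_bot.mpr (algebraMap ℚ ℂ).injective)
  exact ⟨g, fun r => LinearMap.congr_fun hg r⟩

theorem exists_functional_ne_zero (z : ℂ) (hz : z ≠ 0) : ∃ π : ℂ →ₗ[ℚ] ℚ, π z ≠ 0 := by
  by_contra hcon
  push Not at hcon
  exact hz ((Module.forall_dual_apply_eq_zero_iff ℚ z).mp hcon)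

theorem toC_evalL (t : LaurentSeries ℚ) (P : ℚ[X]) :
    toC (evalL ℚ t P) = evalL ℂ (toC t) (P.map (algebraMap ℚ ℂ)) := by
  simp only [evalL, coe_eval₂RingHom]
  rw [hom_eval₂, eval₂_map]
  congr 1
  exact RingHom.ext fun a => coeffMap_C _ a

theorem toC_eval₂ (t u : LaurentSeries ℚ) (F : ℚ[X][X]) :
    toC (F.eval₂ (evalL ℚ t) u) =
      (F.map (Polynomial.mapRingHom (algebraMap ℚ ℂ))).eval₂ (evalL ℂ (toC t)) (toC u) := by
  rw [hom_eval₂, eval₂_map]
  congr 1
  exact RingHom.ext fun P => toC_evalL t P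

theorem toC_injective : Function.Injective toC := by
  intro f g h
  ext k
  have := congrArg (fun x => HahnSeries.coeff x k) h
  simpa [coeffMap_coeff] using this

theorem toC_jq : toC jq = jqModC ℂ := by
  rw [← jqModC_rat]
  exact coeffMap_jqModC _

theorem evalL_jqModC_injective (S : Type*) [CommRing S] [Nontrivial S] :
    Function.Injective (evalL S (jqModC S)) := evalJ_injective S

theorem map₁_one {π : ℂ →ₗ[ℚ] ℚ} (hπ : ∀ r : ℚ, π (algebraMap ℚ ℂ r) = r) : map₁ π 1 = 1 := by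
  rw [← monomial_zero_one, map₁_monomial, ← map_one (algebraMap ℚ ℂ), hπ, monomial_zero_one]

end Rational

open Rational in
/-- **A8.** An irreducible monic equation over `ℂ[Y]` satisfied by the pair of rational series
`(j, u)` has rational coefficients. -/
theorem rational_descent (χ : ℂ[X][X]) (hmonic : χ.Monic) (hirr : Irreducible χ)
    (u : LaurentSeries ℚ)
    (h : χ.eval₂ (evalL ℂ (jqModC ℂ)) (coeffMap (algebraMap ℚ ℂ) u) = 0) :
    ∃ χ' : ℚ[X][X], χ'.map (Polynomial.mapRingHom (algebraMap ℚ ℂ)) = χ ∧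
      χ'.eval₂ (evalL ℚ jq) u = 0 := by
  obtain ⟨π, hπ⟩ := exists_retraction
  have h0 : (map₂ π χ).eval₂ (evalL ℚ jq) u = 0 := by
    ext k
    rw [← coeff_eval₂, toC_jq, h]
    simp
  have hdeg : (map₂ π χ).natDegree ≤ χ.natDegree := by
    rw [natDegree_le_iff_coeff_eq_zero]
    intro i hi
    rw [coeff_map₂, coeff_eq_zero_of_natDegree_lt hi, map_zero]
  have hlead : (map₂ π χ).coeff χ.natDegree = 1 := by
    rw [coeff_map₂, hmonic.coeff_natDegree, map₁_one hπ]
  have hmonic' : (map₂ π χ).Monic := monic_of_natDegree_le_of_coeff_eq_one _ hdeg hlead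
  have hdeg' : (map₂ π χ).natDegree = χ.natDegree :=
    natDegree_eq_of_le_of_coeff_ne_zero hdeg (by rw [hlead]; exact one_ne_zero)
  refine ⟨map₂ π χ, ?_, h0⟩
  set χ'' := (map₂ π χ).map (Polynomial.mapRingHom (algebraMap ℚ ℂ)) with hχ''
  have hm'' : χ''.Monic := hmonic'.map _
  have hd'' : χ''.natDegree = χ.natDegree := by rw [hχ'', hmonic'.natDegree_map, hdeg']
  have h0'' : χ''.eval₂ (evalL ℂ (jqModC ℂ)) (toC u) = 0 := by
    rw [hχ'', ← toC_jq, ← toC_eval₂, h0, map_zero]
  by_contra hne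
  have hsub : χ'' - χ ≠ 0 := sub_ne_zero.mpr hne
  have hlt : (χ'' - χ).degree < χ''.degree :=
    degree_sub_lt_left (by rw [degree_eq_natDegree hm''.ne_zero, degree_eq_natDegree hmonic.ne_zero, hd''])
      hm''.ne_zero (by rw [hm''.leadingCoeff, hmonic.leadingCoeff])
  have hlt' : (χ'' - χ).natDegree < χ.natDegree := by
    rw [← hd'']
    exact natDegree_lt_natDegree hsub hlt
  exact hsub (eq_zero_of_eval₂_eq_zero_of_natDegree_lt (evalL ℂ (jqModC ℂ))
    (evalL_jqModC_injective ℂ) χ hirr hmonic (toC u) h _ (by rw [eval₂_sub, h0'', h, sub_zero]) hlt')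

end Fermat.Agent.S28

end
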