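import Fermat.Agent.S28.Analytic.FormalLemmas
import Fermat.Agent.S28.Irr
import Fermat.Agent.S28.Analytic.EtaDataExists
import Fermat.Agent.S28.Analytic.ChiCBridge
import Fermat.Agent.S28.Analytic.Rational
import Fermat.Agent.S28.Analytic.IntShape

/-!
# S28, node A10b: `exists_UData` from the nodes of the modular half (all but `generation`)
-/

set_option autoImplicit false

noncomputable section

open ModularCurve Polynomial

namespace Fermat.Agent.S28

theorem evalAt_eq_comp (ℓ : ℕ) (t : LaurentSeries ℚ) :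
    evalAt ℓ t = (evalL ℚ t).comp (Polynomial.mapRingHom (GaloisRep.ratLocalizedAt ℓ).subtype) := by
  refine Polynomial.ringHom_ext (fun a => ?_) ?_
  · simp only [evalAt, evalL, RingHom.comp_apply, Polynomial.coe_eval₂RingHom, Polynomial.eval₂_C,
      Polynomial.coe_mapRingHom, Polynomial.map_C]
    rw [algebraMap_apply_eq_single]
    rfl
  · simp [evalAt, evalL]

/-- Transport of the shape along an injective map of coefficient fields/rings. -/
theorem shape_of_map {k K : Type*} [Field k] [Field K] (φ : k →+* K) (χ : k[X][X]) (n w : ℕ)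
    (h : Shape (χ.map (Polynomial.mapRingHom φ)) n w) : Shape χ n w := by
  have hφ : Function.Injective φ := φ.injective
  have hΦ : Function.Injective (Polynomial.mapRingHom φ) := Polynomial.map_injective φ hφ
  refine ⟨Polynomial.monic_of_injective hΦ h.monic, ?_, fun i hi => ?_, ?_⟩
  · rw [← h.natDegree_eq, Polynomial.natDegree_map_eq_of_injective hΦ]
  · have := h.deg_le i hi
    rwa [Polynomial.coeff_map, Polynomial.coe_mapRingHom,
      Polynomial.natDegree_map_eq_of_injective hφ] at this
  · obtain ⟨c, hc, h0⟩ := h.const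
    rw [Polynomial.coeff_map, Polynomial.coe_mapRingHom] at h0
    have hd : (χ.coeff 0).natDegree = 0 := by
      rw [← Polynomial.natDegree_map_eq_of_injective hφ, h0, Polynomial.natDegree_C]
    rw [Polynomial.eq_C_of_natDegree_eq_zero hd] at h0 ⊢
    refine ⟨_, ?_, rfl⟩
    intro h1
    rw [h1] at h0
    simp only [map_zero, Polynomial.map_zero] at h0
    exact hc (Polynomial.C_eq_zero.mp h0.symm)

theorem exists_UData_of_generation (N : ℕ) [NeZero N] (ℓ : ℕ) [Fact ℓ.Prime] (hℓN : ¬ ℓ ∣ N)
    (generation : ∀ (D : EtaData N ℓ) (d : ℕ) [NeZero d], d ∣ N →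
      qExpand ℚ d jq ∈ IntermediateField.adjoin ℚ {jq, uL D ℚ}) :
    Nonempty (UData N ℓ) := by
  obtain ⟨D⟩ := exists_etaData N ℓ hℓN
  obtain ⟨χC, hshape, hlead, hconstU, heq, hr⟩ := exists_chiC N ℓ D
  set n := Nat.card (Q0 N) with hn_def
  have hw : 1 ≤ D.w := D.hw
  have hn : 1 ≤ n := by
    rcases Nat.eq_zero_or_pos n with h0 | h0
    · have := D.hr
      rw [hr, h0, zero_mul] at this
      omega
    · exact h0
  -- irreducibility over `ℂ`
  have hirr : Irreducible χC := by
    obtain ⟨c, hc, h0⟩ := hshape.const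
    exact irreducible_of_weighted χC n D.w hn hw hshape.monic hshape.natDegree_eq hshape.deg_le
      (lunit_ne_zero' hlead) (by rw [h0]; exact Polynomial.isUnit_C.mpr (isUnit_iff_ne_zero.mpr hc))
  -- descent to `ℚ`
  obtain ⟨χQ, hmap, heqQ⟩ := rational_descent χC hshape.monic hirr (uL D ℚ)
    (by rw [coeffMap_uL]; exact heq)
  have hshapeQ : Shape χQ n D.w := shape_of_map (algebraMap ℚ ℂ) χQ n D.w (by rw [hmap]; exact hshape)
  have hcoeff : ∀ i j, (((χQ.coeff i).coeff j : ℚ) : ℂ) = (χC.coeff i).coeff j := by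
    intro i j
    rw [← hmap, Polynomial.coeff_map, Polynomial.coe_mapRingHom, Polynomial.coeff_map]
    rfl
  have hleadQ := lunit_mem_and_inv_mem (ℓ := ℓ) (x := (χQ.coeff 1).coeff ((n - 1) * D.w))
    (by rw [hcoeff]; exact hlead)
  have hconstQ := lunit_mem_and_inv_mem (ℓ := ℓ) (x := (χQ.coeff 0).coeff 0)
    (by rw [hcoeff]; exact hconstU)
  -- order of `u`
  have hrw : (D.r : ℤ) - (D.w : ℤ) = (((n - 1) * D.w : ℕ) : ℤ) := by
    rw [hr]
    obtain ⟨n', hn'⟩ : ∃ n', n = n' + 1 := ⟨n - 1, by omega⟩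
    rw [hn', Nat.add_sub_cancel]
    push_cast
    ring
  have hord : ∀ k : ℤ, k < (((n - 1) * D.w : ℕ) : ℤ) → (uL D ℚ).coeff k = 0 := by
    rw [← hrw]; exact ordGE_uL D ℚ
  have hlead1 : (uL D ℚ).coeff (((n - 1) * D.w : ℕ) : ℤ) = 1 := by
    rw [← hrw]; exact coeff_uL D ℚ
  -- integrality
  obtain ⟨χ, hχ⟩ := intShape ℓ χQ n D.w hn hw hshapeQ hconstQ.1 (uL D ℚ) (isInt_uL D) hord hlead1
    heqQ
  have hι : Function.Injective (GaloisRep.ratLocalizedAt ℓ).subtype := Subtype.val_injective
  have hI : Function.Injective (Polynomial.mapRingHom (GaloisRep.ratLocalizedAt ℓ).subtype) :=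
    Polynomial.map_injective _ hι
  refine ⟨{
    n := n
    w := D.w
    hn := hn
    hw := hw
    u := uL D ℚ
    χ := χ
    monic := Polynomial.monic_of_injective hI (by rw [hχ]; exact hshapeQ.monic)
    natDegree_eq := by
      rw [← hshapeQ.natDegree_eq, ← hχ, Polynomial.natDegree_map_eq_of_injective hI]
    eval_eq_zero := by
      rw [evalAt_eq_comp, ← Polynomial.eval₂_map, hχ]; exact heqQ
    deg_le := fun i hi => by
      have := hshapeQ.deg_le i hi
      rwa [← hχ, Polynomial.coeff_map, Polynomial.coe_mapRingHom,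
        Polynomial.natDegree_map_eq_of_injective hι] at this
    lead_unit := by
      have hval : (((χ.coeff 1).coeff ((n - 1) * D.w) : Zl ℓ) : ℚ) =
          (χQ.coeff 1).coeff ((n - 1) * D.w) := by
        rw [← hχ, Polynomial.coeff_map, Polynomial.coe_mapRingHom, Polynomial.coeff_map]
        rfl
      refine IsUnit.of_mul_eq_one ⟨_, hleadQ.2⟩ (Subtype.ext ?_)
      rw [Subring.coe_mul, hval, Subring.coe_one]
      refine mul_inv_cancel₀ ?_
      intro h0
      have := (lunit_ne_zero' hlead)
      rw [← hcoeff, h0] at this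
      exact this (by simp)
    u_int := isInt_uL D
    u_order := hord
    u_lead := hlead1
    gen := fun d _ hd => generation D d hd }⟩

end Fermat.Agent.S28

end
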