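import Fermat.Agent.S28.Defs

/-!
# S28, modular half: the interface `EtaData`

`EtaData N ℓ` packages everything the rest of the modular half needs to know about the special
eta quotient `g = g_N` (weight `12 w`, level `Γ₀(N)`, all zeros at the cusp `∞`).
-/

set_option autoImplicit false

noncomputable section

open UpperHalfPlane ModularForm Matrix.SpecialLinearGroup Filter Topology
open scoped MatrixGroups ModularForm

namespace Fermat.Agent.S28

/-- `Γ₀(N)` as a subgroup of `GL₂(ℝ)`. -/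
abbrev G0 (N : ℕ) : Subgroup (GL (Fin 2) ℝ) :=
  Subgroup.map (mapGL ℝ) (CongruenceSubgroup.Gamma0 N)

/-- A complex number some power of which is a ratio of two naturals prime to `ℓ`. -/
def LUnit (ℓ : ℕ) (z : ℂ) : Prop :=
  ∃ m a b : ℕ, 1 ≤ m ∧ ¬ ℓ ∣ a ∧ ¬ ℓ ∣ b ∧ z ^ m * (a : ℂ) = (b : ℂ)

/-- The data of the special eta quotient. -/
structure EtaData (N ℓ : ℕ) where
  /-- the weight is `12 w` -/
  w : ℕ
  hw : 1 ≤ w
  /-- the form -/
  g : ModularForm (G0 N) (12 * (w : ℤ))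
  /-- no zeros on the upper half plane -/
  ne_zero : ∀ z : ℍ, g z ≠ 0
  /-- order of vanishing at `∞` -/
  r : ℕ
  hr : 1 ≤ r
  /-- `g = q ^ r * g₀(q)`, with `g₀ ∈ 1 + q ℤ[[q]]` -/
  g₀ : PowerSeries ℤ
  g₀_const : PowerSeries.constantCoeff g₀ = 1
  qExp : qExpansion 1 g = ((PowerSeries.X : PowerSeries ℤ) ^ r * g₀).map (Int.castRingHom ℂ)
  /-- at the other cusps `g` tends to a nonzero `ℓ`-unit constant -/
  lim : ∀ γ : SL(2, ℤ), γ ∉ CongruenceSubgroup.Gamma0 N →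
    ∃ κ : ℂ, LUnit ℓ κ ∧ Tendsto ((g : ℍ → ℂ) ∣[12 * (w : ℤ)] γ) atImInfty (𝓝 κ)

end Fermat.Agent.S28

end
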