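import Fermat.Agent.S28.Analytic.EtaData

/-!
# S28, modular half: the formal series attached to `EtaData`
-/

set_option autoImplicit false

noncomputable section

open ModularCurve Polynomial

namespace Fermat.Agent.S28

/-- The formal `q`-expansion of `Δ`, with coefficients in `R`. -/
def DeltaL (R : Type*) [CommRing R] : LaurentSeries R :=
  HahnSeries.single (1 : ℤ) 1 *
    HahnSeries.ofPowerSeries ℤ R (dedekindEtaUnit.map (Int.castRingHom R))

/-- The formal `q`-expansion of `E₄`, with coefficients in `R`. -/
def E4L (R : Type*) [CommRing R] : LaurentSeries R :=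
  HahnSeries.ofPowerSeries ℤ R (eisenstein4.map (Int.castRingHom R))

/-- The formal `q`-expansion of `u = g / Δ ^ w`, with coefficients in `R`. -/
def uL {N ℓ : ℕ} (D : EtaData N ℓ) (R : Type*) [CommRing R] : LaurentSeries R :=
  HahnSeries.single ((D.r : ℤ) - (D.w : ℤ)) 1 *
    HahnSeries.ofPowerSeries ℤ R ((D.g₀ * dedekindEtaUnitInv ^ D.w).map (Int.castRingHom R))

/-- The formal `q`-expansion of `g`, with coefficients in `R`. -/
def gL {N ℓ : ℕ} (D : EtaData N ℓ) (R : Type*) [CommRing R] : LaurentSeries R :=
  HahnSeries.ofPowerSeries ℤ R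
    (((PowerSeries.X : PowerSeries ℤ) ^ D.r * D.g₀).map (Int.castRingHom R))

/-- Evaluation `Y ↦ t` from `R[Y]` to `R((q))`. -/
def evalL (R : Type*) [CommRing R] (t : LaurentSeries R) : R[X] →+* LaurentSeries R :=
  Polynomial.eval₂RingHom (HahnSeries.C : R →+* LaurentSeries R) t

end Fermat.Agent.S28

end
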