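import Fermat.Agent.S28.Analytic.ChiCBridge

/-!
# S28-A9: the ratio of two level one forms of the same weight is a rational function of `j`
(as an identity between Laurent series)
-/

set_option autoImplicit false

noncomputable section

open UpperHalfPlane ModularForm EisensteinSeries ModularFormClass ModularCurve Polynomial
open scoped MatrixGroups

namespace Fermat.Agent.S28

namespace LevelOneRatio

local notation "Δ" => ModularForm.discriminant

/-- the embedding of power series in Laurent series -/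
abbrev toL : PowerSeries ℂ →+* LaurentSeries ℂ := HahnSeries.ofPowerSeries ℤ ℂ

/-- A level one form of weight `12 m` is `Δ ^ m P(j)`, as Laurent series. -/
theorem exists_poly_laurent (m : ℕ) {k : ℤ} (hk : k = 12 * m) (f : ModularForm 𝒮ℒ k) :
    ∃ P : ℂ[X], toL (qExpansion 1 f) = DeltaL ℂ ^ m * evalL ℂ (jqModC ℂ) P := by
  obtain ⟨P, hdeg, -, hq, -⟩ := LevelOnePoly.exists_poly m hk f
  refine ⟨P, ?_⟩
  rw [hq, ChiC.toL_levelOne P m hdeg, ChiCBridge.ChiC_DL_eq ChiCBridge.qExpansion_discriminant,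
    ChiCBridge.ChiC_evalL_eq,
    ChiCBridge.ChiC_jL_eq ChiCBridge.qExpansion_E4 ChiCBridge.qExpansion_discriminant]

theorem DeltaL_ne_zero : DeltaL ℂ ≠ 0 := by
  rw [← ChiCBridge.ChiC_DL_eq ChiCBridge.qExpansion_discriminant]
  exact ChiC.DL_ne_zero

theorem toL_ne_zero {k : ℤ} {b : ModularForm 𝒮ℒ k} (hb : b ≠ 0) : toL (qExpansion 1 b) ≠ 0 := by
  intro h
  have h2 : qExpansion 1 b = 0 :=
    HahnSeries.ofPowerSeries_injective (Γ := ℤ) (R := ℂ) (by rw [map_zero]; exact h)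
  exact hb ((ModularForm.qExpansion_eq_zero_iff one_pos one_mem_strictPeriods_SL b).mp h2)

/-- **Ratio of level one forms of equal weight** (common denominator `Q`). -/
theorem exists_ratio {k : ℤ} (b : ModularForm 𝒮ℒ k) (hb : b ≠ 0) :
    ∃ Q : ℂ[X], Q ≠ 0 ∧ ∀ a : ModularForm 𝒮ℒ k, ∃ P : ℂ[X],
      toL (qExpansion 1 a) * evalL ℂ (jqModC ℂ) Q =
        toL (qExpansion 1 b) * evalL ℂ (jqModC ℂ) P := by
  have hk0 : 0 ≤ k := by
    by_contra hneg
    exact hb (DFunLike.coe_injective (levelOne_neg_weight_eq_zero (not_le.mp hneg) b))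
  obtain ⟨K, rfl⟩ := Int.eq_ofNat_of_zero_le hk0
  have hD : DeltaL ℂ ^ K ≠ 0 := pow_ne_zero _ DeltaL_ne_zero
  have hbL := toL_ne_zero hb
  obtain ⟨Q, hQ⟩ := exists_poly_laurent K (k := ((12 : ℕ) : ℤ) * (K : ℤ)) (by push_cast; ring)
    (b.pow 12)
  rw [ModularForm.qExpansion_pow one_pos one_mem_strictPeriods_SL, map_pow] at hQ
  refine ⟨Q, ?_, fun a => ?_⟩
  · rintro rfl
    rw [map_zero, mul_zero] at hQ
    exact pow_ne_zero _ hbL hQ
  · obtain ⟨P, hP⟩ := exists_poly_laurent K (k := (K : ℤ) + ((11 : ℕ) : ℤ) * (K : ℤ))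
      (by push_cast; ring) (a.mul (b.pow 11))
    rw [ModularForm.qExpansion_mul one_pos one_mem_strictPeriods_SL,
      ModularForm.qExpansion_pow one_pos one_mem_strictPeriods_SL, map_mul, map_pow] at hP
    refine ⟨P, mul_left_cancel₀ hD ?_⟩
    calc DeltaL ℂ ^ K * (toL (qExpansion 1 a) * evalL ℂ (jqModC ℂ) Q)
        = toL (qExpansion 1 a) * (DeltaL ℂ ^ K * evalL ℂ (jqModC ℂ) Q) := by ring
      _ = toL (qExpansion 1 a) * toL (qExpansion 1 b) ^ 12 := by rw [hQ]
      _ = toL (qExpansion 1 b) * (toL (qExpansion 1 a) * toL (qExpansion 1 b) ^ 11) := by ring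
      _ = toL (qExpansion 1 b) * (DeltaL ℂ ^ K * evalL ℂ (jqModC ℂ) P) := by rw [hP]
      _ = DeltaL ℂ ^ K * (toL (qExpansion 1 b) * evalL ℂ (jqModC ℂ) P) := by ring

end LevelOneRatio

end Fermat.Agent.S28

end
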